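import Fermat.Agent.LevelRaise.CuspClass
import Fermat.Agent.LevelRaise.CrossingParabolic
import Fermat.Agent.LevelRaise.Degeneracy.Matrices

/-!
# `T_ℓ - (ℓ + 1)` kills the boundary for `ℓ ≡ 1 (mod N)`

For a prime `ℓ ≡ 1 (mod N)` and a homomorphism `φ` on `Γ₀(N)` into a torsion free group,
`T_ℓ φ - (ℓ + 1) φ` vanishes on parabolic elements: the representatives fix every cusp class, one
of them contracts it by `ℓ` and the others expand it.
-/

set_option autoImplicit false

noncomputable section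

namespace Fermat.Agent.RT.Systems

open CongruenceSubgroup Matrix Matrix.SpecialLinearGroup ModularCurve.Period
open Fermat.Agent.Periods
open scoped MatrixGroups

variable {N ℓ : ℕ}

/-- For each cusp `δ ∞` and representative `M`, `M δ = h δ U` with `h ∈ Γ₀(N)` and `U` upper
triangular with positive diagonal. -/
theorem exists_cusp_step (hℓ : ℓ.Prime) (hℓ1 : (ℓ : ZMod N) = 1) (δ : SL(2, ℤ))
    (i : HeckeIdx N ℓ) :
    ∃ (h : Gamma0 N) (U : IntMat), heckeMat N ℓ i * δ.1 = gammaMat h * δ.1 * U ∧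
      U 1 0 = 0 ∧ 0 < U 0 0 := by
  have hr : δ.1 *ᵥ ![1, 0] ≠ 0 := fun h0 => by
    have := Matrix.eq_zero_of_mulVec_eq_zero (by rw [δ.2]; exact one_ne_zero) h0
    simpa using congrFun this 0
  obtain ⟨h, c, c', hc, -, he⟩ := LevelRaise.exists_gamma0_heckeMat_mulVec hℓ hℓ1 i _ hr
  have key : ∀ h' : Gamma0 N, ∃ U : IntMat,
      heckeMat N ℓ i * δ.1 = gammaMat h' * δ.1 * U := fun h' =>
    ⟨((h' : SL(2, ℤ)) * δ)⁻¹.1 * (heckeMat N ℓ i * δ.1), by
      show _ = ((h' : SL(2, ℤ)) * δ).1 * _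
      rw [← Matrix.mul_assoc, ← Matrix.SpecialLinearGroup.coe_mul, mul_inv_cancel,
        Matrix.SpecialLinearGroup.coe_one, Matrix.one_mul]⟩
  obtain ⟨U, hU⟩ := key h
  have hU10 : U 1 0 = 0 := by
    have e : gammaMat h *ᵥ (δ.1 *ᵥ (c • (U *ᵥ ![1, 0]))) =
        gammaMat h *ᵥ (δ.1 *ᵥ (c' • ![1, 0])) := by
      rw [Matrix.mulVec_smul, Matrix.mulVec_smul, Matrix.mulVec_smul, Matrix.mulVec_smul,
        Matrix.mulVec_mulVec, Matrix.mulVec_mulVec, ← hU, ← Matrix.mulVec_mulVec]
      exact he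
    have inj : ∀ (g : SL(2, ℤ)) {v w : Fin 2 → ℤ}, g.1 *ᵥ v = g.1 *ᵥ w → v = w :=
      fun g v w hvw => sub_eq_zero.1 (Matrix.eq_zero_of_mulVec_eq_zero
        (by rw [g.2]; exact one_ne_zero) (by rw [Matrix.mulVec_sub, hvw, sub_self]))
    have e' := congrFun (inj δ (inj _ e)) 1
    simpa [Matrix.mulVec, dotProduct, hc] using e'
  have hU00 : U 0 0 ≠ 0 := by
    intro h0
    have := congrArg Matrix.det hU
    rw [Matrix.det_mul, Matrix.det_mul, Matrix.det_mul, heckeMat_det, δ.2, gammaMat_det,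
      Matrix.det_fin_two U, h0, hU10] at this
    simp at this
    exact hℓ.ne_zero this
  rcases lt_or_gt_of_ne hU00 with hneg | hpos
  · refine ⟨⟨-(h : SL(2, ℤ)), ?_⟩, -U, ?_, by simp [hU10], by simpa using hneg⟩
    · have := h.2
      rw [Gamma0_mem] at this ⊢
      simp [this]
    · rw [hU]
      simp [gammaMat]
  · exact ⟨h, U, hU, hU10, hpos⟩

/-- For `ℓ ≡ 1 (mod N)` the operator `T_ℓ - (ℓ + 1)` has image in the parabolic homomorphisms. -/
theorem heckeHom_sub_smul_mem_parabolicHoms {A : Type*} [AddCommGroup A] [IsAddTorsionFree A]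
    {R : Type*} [Semiring R] [Module R A] (hℓ : ℓ.Prime) (hℓN : ¬ ℓ ∣ N) (hℓ1 : (ℓ : ZMod N) = 1)
    (φ : Additive (Gamma0 N) →+ A) :
    heckeHom R A hℓ φ - (ℓ + 1) • φ ∈ parabolicHoms R (Gamma0 N) A := by
  classical
  intro γ hγ
  rw [AddMonoidHom.sub_apply, AddMonoidHom.nsmul_apply, sub_eq_zero, heckeHom_apply]
  obtain ⟨δ, s, u, hs, hγδ⟩ := LevelRaise.exists_conj_eq_T_zpow (γ : SL(2, ℤ)) hγ
  set σ := transferIdx hℓ γ with hσ
  choose h U hU hU10 hU00 using exists_cusp_step hℓ hℓ1 δ (N := N)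
  set x : HeckeIdx N ℓ → Gamma0 N :=
    fun i => (h i)⁻¹ * transferElt hℓ γ i * h (σ i) with hx
  have hsc : ∀ g : SL(2, ℤ), Commute s g := by
    rcases hs with rfl | rfl
    exacts [Commute.one_left, Commute.neg_one_left]
  have hdet : ∀ i, U i 0 0 * U i 1 1 = ℓ := fun i => by
    have := congrArg Matrix.det (hU i)
    rw [Matrix.det_mul, Matrix.det_mul, Matrix.det_mul, heckeMat_det, δ.2, gammaMat_det,
      Matrix.det_fin_two (U i), hU10] at this
    simpa using this.symm
  -- the steps are translations at the cusp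
  have step : ∀ i, U i 0 0 = U (σ i) 0 0 ∧ ∃ v : ℤ, (x i : SL(2, ℤ)) = s * (δ * ModularGroup.T ^ v * δ⁻¹) ∧
      (ℓ : ℤ) * v = U i 0 0 ^ 2 * u + U i 0 0 * U i 0 1 - U i 0 0 * U (σ i) 0 1 := by
    intro i
    set Z : SL(2, ℤ) := δ⁻¹ * (x i : SL(2, ℤ)) * δ * s⁻¹ with hZ
    have e1 : U i * (ModularGroup.T ^ u).1 = Z.1 * U (σ i) := by
      have ht : heckeMat N ℓ i * (δ * (s * ModularGroup.T ^ u) * δ⁻¹).1 =
          gammaMat (transferElt hℓ γ i) * heckeMat N ℓ (σ i) := by
        rw [← hγδ]; exact transfer_spec hℓ γ i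
      have a : gammaMat (h i) * δ.1 * (U i * (ModularGroup.T ^ u).1 * s.1) =
          gammaMat (transferElt hℓ γ i) * gammaMat (h (σ i)) * δ.1 * U (σ i) := by
        rw [Matrix.mul_assoc (gammaMat (transferElt hℓ γ i)) _ δ.1, Matrix.mul_assoc _ _ (U (σ i)),
          ← hU, ← Matrix.mul_assoc (gammaMat (transferElt hℓ γ i)), ← ht, ← Matrix.mul_assoc,
          ← Matrix.mul_assoc, ← hU, Matrix.mul_assoc (heckeMat N ℓ i) _ δ.1,
          ← Matrix.SpecialLinearGroup.coe_mul, inv_mul_cancel_right, Matrix.mul_assoc _ _ s.1,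
          Matrix.mul_assoc (heckeMat N ℓ i) δ.1, ← Matrix.SpecialLinearGroup.coe_mul,
          ← Matrix.SpecialLinearGroup.coe_mul, (hsc (ModularGroup.T ^ u)).eq]
      have hZs : (gammaMat (h i) * δ.1) * (Z * s).1 =
          gammaMat (transferElt hℓ γ i) * gammaMat (h (σ i)) * δ.1 := by
        show ((h i : SL(2, ℤ)) * δ).1 * (Z * s).1 =
          (((transferElt hℓ γ i : Gamma0 N) : SL(2, ℤ)) * (h (σ i) : SL(2, ℤ)) * δ).1
        rw [← Matrix.SpecialLinearGroup.coe_mul]
        congr 1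
        simp only [hZ, hx, Subgroup.coe_mul, Subgroup.coe_inv]
        group
      rw [← hZs, Matrix.mul_assoc _ (Z * s).1] at a
      have a' := LevelRaise.Degeneracy.intMat_mul_left_cancel
        (M := gammaMat (h i) * δ.1) (by rw [Matrix.det_mul, gammaMat_det, δ.2]; simp) a
      refine intMat_mul_right_cancel (M := s.1) (by rw [s.2]; exact one_ne_zero) ?_
      rw [a', Matrix.SpecialLinearGroup.coe_mul, Matrix.mul_assoc, Matrix.mul_assoc]
      congr 1
      rcases hs with rfl | rfl <;> simp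
    rw [ModularGroup.coe_T_zpow] at e1
    have p : ∀ j k, (U i * !![1, u; 0, 1]) j k = (Z.1 * U (σ i)) j k :=
      fun j k => congrFun (congrFun e1 j) k
    have p00 := p 0 0
    have p01 := p 0 1
    have p10 := p 1 0
    simp [Matrix.mul_apply, Fin.sum_univ_two, hU10] at p00 p01 p10
    have hz10 : Z.1 1 0 = 0 := p10.resolve_right (hU00 _).ne'
    have hz := Z.2
    rw [Matrix.det_fin_two, hz10, mul_zero, sub_zero] at hz
    obtain ⟨hz0, hz1⟩ | ⟨hz0, -⟩ := Int.mul_eq_one_iff_eq_one_or_neg_one.1 hz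
    · rw [hz0, one_mul] at p00
      rw [hz0, one_mul] at p01
      refine ⟨p00, Z.1 0 1, ?_, ?_⟩
      · have eZ : Z = ModularGroup.T ^ Z.1 0 1 := by
          apply Subtype.ext
          rw [ModularGroup.coe_T_zpow]
          ext j k
          fin_cases j <;> fin_cases k <;> simp [hz0, hz1, hz10]
        calc (x i : SL(2, ℤ)) = δ * (Z * s) * δ⁻¹ := by simp only [hZ]; group
          _ = s * (δ * Z * δ⁻¹) := by
            rw [← (hsc Z).eq, ← mul_assoc δ, ← (hsc δ).eq]; simp only [mul_assoc]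
          _ = _ := by rw [← eZ]
      · have d1 := hdet (σ i)
        rw [← p00] at d1
        linear_combination -U i 0 0 * p01 - Z.1 0 1 * d1
    · exfalso
      rw [hz0, neg_one_mul] at p00
      linarith [hU00 i, hU00 (σ i)]
  choose v hxv hv using fun i => (step i).2
  -- total translation
  have hsq : ∑ i, U i 0 0 ^ 2 = (ℓ : ℤ) ^ 2 + ℓ := by
    have hval : ∀ i, U i 0 0 = 1 ∨ U i 0 0 = ℓ := fun i => by
      have hd : (U i 0 0).natAbs ∣ ℓ := by
        have := Int.natAbs_dvd_natAbs.2 (Dvd.intro (U i 1 1) (hdet i))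
        simpa using this
      rcases (Nat.dvd_prime hℓ).1 hd with h1 | h1
      · left; have := hU00 i; omega
      · right; have := hU00 i; omega
    have hiff : ∀ i, U i 0 0 = ℓ ↔
        ∀ k, (ℓ : ℤ) ∣ (heckeMat N ℓ i *ᵥ (δ.1 *ᵥ ![1, 0])) k := by
      intro i
      have e : heckeMat N ℓ i *ᵥ (δ.1 *ᵥ ![1, 0]) =
          ((h i : SL(2, ℤ)) * δ).1 *ᵥ ![U i 0 0, 0] := by
        rw [Matrix.mulVec_mulVec, hU, ← Matrix.mulVec_mulVec]
        show (gammaMat (h i) * δ.1) *ᵥ _ = _
        congr 1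
        ext k; fin_cases k <;> simp [Matrix.mulVec, dotProduct, hU10]
      constructor
      · intro hl k; rw [e, hl]
        fin_cases k <;> simp [Matrix.mulVec, dotProduct]
      · intro hd
        refine (hval i).resolve_left fun h1 => ?_
        have e0 : (ℓ : ℤ) ∣ ((((h i : SL(2, ℤ)) * δ)⁻¹).1 *ᵥ
            (heckeMat N ℓ i *ᵥ (δ.1 *ᵥ ![1, 0]))) 0 := by
          exact (fun (X : IntMat) (w : Fin 2 → ℤ) (hw : ∀ k, (ℓ : ℤ) ∣ w k) =>
            (show (ℓ : ℤ) ∣ (X *ᵥ w) 0 by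
              rw [Matrix.mulVec_eq_sum]
              simp only [Finset.sum_apply, Fin.sum_univ_two, Pi.smul_apply]
              exact dvd_add (by simpa using (hw 0).mul_left _) (by simpa using (hw 1).mul_left _))) _ _ hd
        rw [e, Matrix.mulVec_mulVec, ← Matrix.SpecialLinearGroup.coe_mul, inv_mul_cancel,
          Matrix.SpecialLinearGroup.coe_one, Matrix.one_mulVec, h1] at e0
        simp at e0
        exact hℓ.ne_one (Nat.dvd_one.1 (by exact_mod_cast e0))
    -- exactly one representative contracts the cusp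
    obtain ⟨i₀, hi₀, huniq⟩ : ∃ i₀ : HeckeIdx N ℓ, U i₀ 0 0 = ℓ ∧ ∀ i, U i 0 0 = ℓ → i = i₀ := by
      set r := δ.1 *ᵥ ![1, 0] with hr
      have hr0 : r 0 = δ.1 0 0 ∧ r 1 = δ.1 1 0 := by
        constructor <;> simp [hr, Matrix.mulVec, dotProduct]
      have hcop : ¬ ((ℓ : ℤ) ∣ r 0 ∧ (ℓ : ℤ) ∣ r 1) := fun hc => by
        have hd := δ.2
        rw [Matrix.det_fin_two, ← hr0.1, ← hr0.2] at hd
        exact (Nat.prime_iff_prime_int.1 hℓ).not_dvd_one
          (hd ▸ dvd_sub (hc.1.mul_right _) (hc.2.mul_left _))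
      simp only [hiff, Fin.forall_fin_two]
      by_cases hd : (ℓ : ℤ) ∣ r 1
      · refine ⟨⟨none, fun _ => hℓN⟩, ?_, ?_⟩
        · simpa [heckeMat, Matrix.vecMul, dotProduct] using hd
        · rintro ⟨_ | j, hj⟩ hji
          · rfl
          · exfalso
            simp [heckeMat, Matrix.vecMul, dotProduct] at hji
            exact hcop ⟨(dvd_add_left (hd.mul_left _)).1 hji, hd⟩
      · obtain ⟨j, hj⟩ := exists_fin_mul_sub_dvd hℓ.ne_zero (a := r 1)
          (((Nat.prime_iff_prime_int.1 hℓ).coprime_iff_not_dvd).2 hd).symm (-r 0)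
        refine ⟨⟨some j, by simp⟩, ?_, ?_⟩
        · simp [heckeMat, Matrix.vecMul, dotProduct]
          have := hj.neg_right
          rwa [show -(-r 0 - r 1 * ((j : ℕ) : ℤ)) = r 0 + (j : ℕ) * r 1 by ring] at this
        · rintro ⟨_ | k, hk⟩ hki
          · exfalso
            simp [heckeMat, Matrix.vecMul, dotProduct] at hki
            exact hd hki
          · simp [heckeMat, Matrix.vecMul, dotProduct] at hki
            obtain ⟨m, hm⟩ : (ℓ : ℤ) ∣ ((k : ℕ) : ℤ) - (j : ℕ) := by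
              have h2 : (ℓ : ℤ) ∣ r 1 * (((k : ℕ) : ℤ) - (j : ℕ)) := by
                have := dvd_add hki hj
                rwa [show r 0 + (k : ℕ) * r 1 + (-r 0 - r 1 * (j : ℕ)) =
                  r 1 * (((k : ℕ) : ℤ) - (j : ℕ)) by ring] at this
              exact ((Nat.prime_iff_prime_int.1 hℓ).dvd_mul.1 h2).resolve_left hd
            obtain rfl : k = j := fin_eq_of_dvd_sub (x := m) (by linear_combination hm)
            rfl
    have e : ∀ i, U i 0 0 ^ 2 = 1 + if i = i₀ then (ℓ : ℤ) ^ 2 - 1 else 0 := fun i => by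
      split_ifs with hi
      · rw [hi, hi₀]; ring
      · rw [(hval i).resolve_right fun hl => hi (huniq i hl)]; ring
    rw [Finset.sum_congr rfl fun i _ => e i, Finset.sum_add_distrib]
    simp [Fintype.card_congr (Equiv.subtypeUnivEquiv fun (_ : Option (Fin ℓ)) _ => hℓN)]
    ring
  have hσbij := transferIdx_bijective hℓ γ
  have hV : ∑ i, v i = (ℓ + 1) * u := by
    apply mul_left_cancel₀ (Int.natCast_ne_zero.2 hℓ.ne_zero)
    have e : ∀ i, U i 0 0 * U (σ i) 0 1 = U (σ i) 0 0 * U (σ i) 0 1 := fun i => by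
      rw [(step i).1]
    rw [Finset.mul_sum, Finset.sum_congr rfl fun i _ => hv i, Finset.sum_sub_distrib,
      Finset.sum_add_distrib, Finset.sum_congr rfl (fun i _ => e i),
      hσbij.sum_comp (fun i => U i 0 0 * U i 0 1), ← Finset.sum_mul, hsq]
    ring
  -- the restriction of `φ` to the translations is additive
  let P : AddSubgroup ℤ :=
    { carrier := {w | δ * ModularGroup.T ^ w * δ⁻¹ ∈ Gamma0 N}
      zero_mem' := by
        simp only [Set.mem_setOf_eq, zpow_zero, mul_one, mul_inv_cancel]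
        exact one_mem _
      add_mem' := fun {a b} (ha : δ * ModularGroup.T ^ a * δ⁻¹ ∈ Gamma0 N)
          (hb : δ * ModularGroup.T ^ b * δ⁻¹ ∈ Gamma0 N) => by
        have := mul_mem ha hb
        show δ * ModularGroup.T ^ (a + b) * δ⁻¹ ∈ Gamma0 N
        convert this using 1
        rw [zpow_add]; group
      neg_mem' := fun {a} (ha : δ * ModularGroup.T ^ a * δ⁻¹ ∈ Gamma0 N) => by
        have := inv_mem ha
        show δ * ModularGroup.T ^ (-a) * δ⁻¹ ∈ Gamma0 N
        convert this using 1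
        group }
  let ψ : P →+ A :=
    { toFun := fun w => φ (Additive.ofMul ⟨_, w.2⟩)
      map_zero' := by
        rw [← map_zero φ]
        congr 1
        apply Additive.toMul.injective
        exact Subtype.ext (by simp)
      map_add' := fun a b => by
        rw [← map_add φ]
        congr 1
        apply Additive.toMul.injective
        refine Subtype.ext ?_
        show δ * ModularGroup.T ^ ((a : ℤ) + b) * δ⁻¹ =
          (δ * ModularGroup.T ^ (a : ℤ) * δ⁻¹) * (δ * ModularGroup.T ^ (b : ℤ) * δ⁻¹)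
        rw [zpow_add]; group }
  have hs0 : s ∈ Gamma0 N := by rcases hs with rfl | rfl <;> simp [Gamma0_mem]
  have hφs : φ (Additive.ofMul ⟨s, hs0⟩) = 0 := by
    refine nsmul_right_injective two_ne_zero ?_
    show 2 • φ (Additive.ofMul ⟨s, hs0⟩) = 2 • (0 : A)
    rw [← map_nsmul, ← ofMul_pow, smul_zero,
      show (⟨s, hs0⟩ : Gamma0 N) ^ 2 = 1 from Subtype.ext (by rcases hs with rfl | rfl <;> simp)]
    exact map_zero φ
  have hval : ∀ (z : Gamma0 N) (w : ℤ), (z : SL(2, ℤ)) = s * (δ * ModularGroup.T ^ w * δ⁻¹) →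
      ∃ hw : w ∈ P, φ (Additive.ofMul z) = ψ ⟨w, hw⟩ := by
    intro z w hz
    have hw : w ∈ P := by
      have := mul_mem (inv_mem hs0) z.2
      rwa [hz, inv_mul_cancel_left] at this
    refine ⟨hw, ?_⟩
    rw [show z = ⟨s, hs0⟩ * ⟨_, hw⟩ from Subtype.ext hz, ofMul_mul, map_add, hφs, zero_add]
    rfl
  obtain ⟨hu, hγψ⟩ := hval γ u (by rw [hγδ, ← mul_assoc δ, ← (hsc δ).eq]; simp only [mul_assoc])
  choose hvP hxψ using fun i => hval (x i) (v i) (hxv i)
  calc ∑ i, φ (Additive.ofMul (transferElt hℓ γ i))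
      = ∑ i, (φ (Additive.ofMul (h i)) + ψ ⟨v i, hvP i⟩ - φ (Additive.ofMul (h (σ i)))) := by
        refine Finset.sum_congr rfl fun i _ => ?_
        rw [← hxψ]
        simp only [hx, ofMul_mul, ofMul_inv, map_add, map_neg]
        abel
    _ = ∑ i, ψ ⟨v i, hvP i⟩ := by
        rw [Finset.sum_sub_distrib, Finset.sum_add_distrib,
          hσbij.sum_comp (fun i => φ (Additive.ofMul (h i)))]
        abel
    _ = ψ ((ℓ + 1) • ⟨u, hu⟩) := by
        rw [← map_sum]
        congr 1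
        refine Subtype.ext ?_
        rw [AddSubgroup.val_finsetSum, hV]
        simp
    _ = (ℓ + 1) • φ (Additive.ofMul γ) := by rw [map_nsmul, hγψ]

end Fermat.Agent.RT.Systems
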