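import Fermat.Agent.RT.Systems.Transfer
import Fermat.Agent.Periods.CuspidalBasis
import Fermat.Agent.Periods.HeckePeriods
import Fermat.Agent.Periods.Dimension
import Fermat.Agent.Periods.Group
import Fermat.Agent.Hecke.EigenChar
import Fermat.Agent.Hecke.EigenformOfChar
import Fermat.Agent.BadPrime.Systems
import Fermat.Agent.BadPrime.Raise
import Fermat.Prelude.Def_CuspForm_Newforms

/-!
# From homomorphisms on `Γ₀(R)` to forms

* `relation_kills`: a relation between the good Hecke operators on `S₂(Γ₀(R))` kills every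
  parabolic homomorphism into a domain of characteristic zero.
* `exists_newform_of_system`: an eigen system on parabolic homomorphisms into such a domain is
  that of a newform of level dividing `R`, through an additive map to `ℂ`.
-/

set_option autoImplicit false

noncomputable section

namespace Fermat.Agent.RT.Systems

open CongruenceSubgroup ModularCurve ModularCurve.Period ModularFormClass Periods
open scoped MatrixGroups

variable {R : ℕ} [NeZero R]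

section Basis

variable {A : Type} [CommRing A]

omit [NeZero R] in
theorem heckeHom_comp {B : Type*} [AddCommGroup B] {A' : Type*} [AddCommGroup A']
    {S S' : Type*} [Semiring S] [Module S A'] [Semiring S'] [Module S' B] {p : ℕ} (hp : p.Prime)
    (f : A' →+ B) (φ : Additive (Gamma0 R) →+ A') :
    heckeHom S' B hp (f.comp φ) = f.comp (heckeHom S A' hp φ) := by
  refine AddMonoidHom.ext fun x => ?_
  obtain ⟨γ, rfl⟩ := Additive.ofMul.surjective x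
  rw [heckeHom_apply, AddMonoidHom.comp_apply, heckeHom_apply, map_sum]
  rfl

omit [NeZero R] in
/-- The transfer in coordinates. -/
theorem heckeHom_apply_basis {n : ℕ} {γ : Fin n → Gamma0 R}
    {e : Fin n → (Additive (Gamma0 R) →+ ℤ)} {p : ℕ} (hp : p.Prime)
    {φ : Additive (Gamma0 R) →+ A} (hexp : ∀ g, φ g = ∑ i, e i g • φ (Additive.ofMul (γ i)))
    (g : Gamma0 R) :
    heckeHom A A hp φ (Additive.ofMul g) =
      ∑ i, (heckeHom ℤ ℤ hp (e i) (Additive.ofMul g) : A) * φ (Additive.ofMul (γ i)) := by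
  rw [heckeHom_apply, Finset.sum_congr rfl fun t _ => hexp (Additive.ofMul (transferElt hp g t)),
    Finset.sum_comm]
  refine Finset.sum_congr rfl fun i _ => ?_
  rw [← Finset.sum_smul, ← heckeHom_apply (R := ℤ) (A := ℤ), zsmul_eq_mul]

theorem isCuspidalHom_of_parabolic [IsAddTorsionFree A] {φ : Additive (Gamma0 R) →+ A}
    (hφ : φ ∈ parabolicHoms A (Gamma0 R) A) : IsCuspidalHom φ := by
  rw [parabolicHoms_eq_cuspidalHoms] at hφ
  exact hφ

end Basis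

/-! ### Relations -/

/-- The good operators on forms as a map on primes. -/
def formT (R : ℕ) (ℓ : Nat.Primes) : Module.End ℂ (CuspForm (Gamma0 R) 2) :=
  if h : ¬ (ℓ : ℕ) ∣ R then CuspForm.heckeTLin 2 ℓ.2 h else 0

section Relation

variable {A : Type} [CommRing A] [IsDomain A] [CharZero A] {M : Type*} [AddCommGroup M] [Module A M]

/-- A relation between good operators on forms kills parabolic homomorphisms. -/
theorem relation_kills (S : Finset ℕ) (F : MvPolynomial Nat.Primes ℤ)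
    (hFR : ∀ ℓ : Nat.Primes, ℓ ∈ F.vars → ¬ (ℓ : ℕ) ∣ R)
    (op : Nat.Primes → CuspForm.heckeAlgebra R 2 (↑S : Set ℕ))
    (hop : ∀ ℓ : Nat.Primes, ℓ ∈ F.vars →
      (op ℓ : Module.End ℂ (CuspForm (Gamma0 R) 2)) = formT R ℓ)
    (hF : MvPolynomial.eval₂Hom (Int.castRingHom _) op F = 0)
    (ρ : MvPolynomial Nat.Primes ℤ →+* Module.End A M) (J : M →ₗ[A] (Additive (Gamma0 R) →+ A))
    (hJ : ∀ ℓ : Nat.Primes, ℓ ∈ F.vars → ∀ y, J (ρ (MvPolynomial.X ℓ) y) = heckeHom A A ℓ.2 (J y))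
    (hpar : ∀ y, J y ∈ parabolicHoms A (Gamma0 R) A) (y : M) : J (ρ F y) = 0 := by
  classical
  obtain ⟨γ, e, hecusp, hdual, hexp⟩ := exists_cuspidalBasis.{0} R
  have hexpA : ∀ z : M, ∀ g, J z g = ∑ i, e i g • J z (Additive.ofMul (γ i)) := fun z =>
    hexp A (J z) (isCuspidalHom_of_parabolic (hpar z))
  have hexpC : ∀ x : CuspForm (Gamma0 R) 2 × CuspForm (Gamma0 R) 2, ∀ g,
      periodHomPair R x g = ∑ i, e i g • periodHomPair R x (Additive.ofMul (γ i)) := fun x => by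
    refine hexp ℂ _ (isCuspidalHom_of_parabolic ?_)
    rw [← range_periodHomPair]
    exact LinearMap.mem_range_self _ _
  let op' : MvPolynomial Nat.Primes ℤ →+* CuspForm.heckeAlgebra R 2 (↑S : Set ℕ) :=
    MvPolynomial.eval₂Hom (Int.castRingHom _) op
  -- an integer matrix describing `G` on both sides
  let Good : MvPolynomial Nat.Primes ℤ → Prop := fun G =>
    ∃ N : Fin (2 * Module.finrank ℂ (CuspForm (Gamma0 R) 2)) →
        Fin (2 * Module.finrank ℂ (CuspForm (Gamma0 R) 2)) → ℤ,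
    (∀ z j, J (ρ G z) (Additive.ofMul (γ j)) = ∑ i, (N j i : A) * J z (Additive.ofMul (γ i))) ∧
    ∀ (f g : CuspForm (Gamma0 R) 2) j,
      periodHomPair R ((op' G : Module.End ℂ (CuspForm (Gamma0 R) 2)) f,
        (op' G : Module.End ℂ (CuspForm (Gamma0 R) 2)) g) (Additive.ofMul (γ j)) =
        ∑ i, (N j i : ℂ) * periodHomPair R (f, g) (Additive.ofMul (γ i))
  have hmul : ∀ G H, Good G → Good H → Good (G * H) := by
    rintro G H ⟨N, hN, hN'⟩ ⟨P, hP, hP'⟩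
    refine ⟨fun j k => ∑ i, N j i * P i k, fun z j => ?_, fun f g j => ?_⟩
    · rw [map_mul, Module.End.mul_apply, hN]
      simp only [hP, Finset.mul_sum, Int.cast_sum, Int.cast_mul, Finset.sum_mul]
      rw [Finset.sum_comm]
      simp only [mul_assoc]
    · simp only [map_mul, MulMemClass.coe_mul, Module.End.mul_apply, hN', hP', Finset.mul_sum,
        Int.cast_sum, Int.cast_mul, Finset.sum_mul]
      rw [Finset.sum_comm]
      simp only [mul_assoc]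
  have hX : ∀ ℓ : Nat.Primes, ℓ ∈ F.vars → Good (MvPolynomial.X ℓ) := by
    intro ℓ hℓ
    refine ⟨fun j i => heckeHom ℤ ℤ ℓ.2 (e i) (Additive.ofMul (γ j)), fun z j => ?_,
      fun f g j => ?_⟩
    · rw [hJ ℓ hℓ, heckeHom_apply_basis ℓ.2 (hexpA z)]
    · have hT := heckeHom_periodHomPair_T ℓ.2 (hFR ℓ hℓ) f g
      simp only [op', MvPolynomial.eval₂Hom_X']
      rw [hop ℓ hℓ, formT, dif_pos (hFR ℓ hℓ), ← hT, heckeHom_apply_basis ℓ.2 (hexpC (f, g))]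
  have hadd : ∀ G H, Good G → Good H → Good (G + H) := by
    rintro G H ⟨N, hN, hN'⟩ ⟨P, hP, hP'⟩
    refine ⟨N + P, fun z j => ?_, fun f g j => ?_⟩
    · simp only [map_add, LinearMap.add_apply, AddMonoidHom.add_apply, hN, hP, Pi.add_apply,
        Int.cast_add, add_mul, Finset.sum_add_distrib]
    · simp only [map_add, AddMemClass.coe_add, LinearMap.add_apply, ← Prod.mk_add_mk,
        AddMonoidHom.add_apply, hN', hP', Pi.add_apply, Int.cast_add, add_mul,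
        Finset.sum_add_distrib]
  have hC : ∀ m : ℤ, Good (m : MvPolynomial Nat.Primes ℤ) := fun m => by
    refine ⟨fun j i => if j = i then m else 0, fun z j => ?_, fun f g j => ?_⟩
    · rw [map_intCast]
      simp [zsmul_eq_mul]
    · rw [map_intCast, SubringClass.coe_intCast]
      rw [show ((m : Module.End ℂ (CuspForm (Gamma0 R) 2)) f,
        (m : Module.End ℂ (CuspForm (Gamma0 R) 2)) g) = m • (f, g) by simp, map_zsmul]
      simp [zsmul_eq_mul]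
  have hadj : ∀ G ∈ Algebra.adjoin ℤ
      ((MvPolynomial.X : Nat.Primes → MvPolynomial Nat.Primes ℤ) '' (↑F.vars : Set Nat.Primes)),
      Good G := fun G hG => by
    induction hG using Algebra.adjoin_induction with
    | mem x hx =>
      obtain ⟨ℓ, hℓ, rfl⟩ := hx
      exact hX ℓ hℓ
    | algebraMap r =>
      rw [eq_intCast]
      exact hC r
    | add x y _ _ hx hy => exact hadd _ _ hx hy
    | mul x y _ _ hx hy => exact hmul _ _ hx hy
  have hall : Good F := hadj F (MvPolynomial.mem_supported_vars F)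
  obtain ⟨N, hN, hN'⟩ := hall
  have hN0 : ∀ j k, (N j k : ℂ) = 0 := by
    intro j k
    obtain ⟨⟨f, g⟩, hx⟩ : (Int.castAddHom ℂ).comp (e k) ∈ LinearMap.range (periodHomPair R) := by
      rw [range_periodHomPair]
      exact intCast_comp_mem_parabolicHoms R fun g hg => hecusp k g hg.le
    have h := hN' f g j
    rw [show op' F = 0 from hF, hx] at h
    simp [hdual, eq_comm, Prod.mk_zero_zero] at h
    exact_mod_cast h
  refine AddMonoidHom.ext fun g => ?_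
  rw [hexpA (ρ F y) g]
  simp [hN, fun j k => Int.cast_eq_zero.1 (hN0 j k)]

end Relation

/-! ### Systems -/

section System

variable {A : Type} [CommRing A] [IsDomain A] [CharZero A]

/-- An eigen system on parabolic homomorphisms is that of a newform. -/
theorem exists_newform_of_system (S : Finset ℕ) (hRS : ∀ q : ℕ, q.Prime → q ∣ R → q ∈ S)
    {φ : Additive (Gamma0 R) →+ A} (hφ : φ ∈ parabolicHoms A (Gamma0 R) A) (hφ0 : φ ≠ 0)
    (c : Nat.Primes → A)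
    (hc : ∀ ℓ : Nat.Primes, (ℓ : ℕ) ∉ S → heckeHom A A ℓ.2 φ = c ℓ • φ) :
    ∃ (L' : ℕ) (_ : NeZero L') (_ : L' ∣ R) (g : CuspForm (Gamma0 L') 2)
      (chig : CuspForm.heckeAlgebra L' 2 (↑S : Set ℕ) →+* ℂ) (emb : chig.range →+* A)
      (lam : A →+ ℂ),
      g.IsNewform ∧
      (∀ (ℓ : ℕ) (hℓ : ℓ.Prime) (hℓL : ¬ ℓ ∣ L') (hℓS : ℓ ∉ (↑S : Set ℕ)),
        chig (CuspForm.heckeAlgebra.T hℓ hℓL hℓS) = qCoeff g ℓ) ∧
      (∀ (ℓ : ℕ) (hℓ : ℓ.Prime) (hℓL : ¬ ℓ ∣ L') (hℓS : ℓ ∉ (↑S : Set ℕ)),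
        emb (chig.rangeRestrict (CuspForm.heckeAlgebra.T hℓ hℓL hℓS)) = c ⟨ℓ, hℓ⟩) ∧
      lam.comp φ ≠ 0 ∧
      ∀ ℓ : Nat.Primes, (ℓ : ℕ) ∉ S →
        (∀ x, lam (c ℓ * x) = qCoeff g ℓ * lam x) ∧
        heckeHom ℂ ℂ ℓ.2 (lam.comp φ) = qCoeff g ℓ • lam.comp φ := by
  classical
  obtain ⟨γ, e, -, -, hexp⟩ := exists_cuspidalBasis.{0} R
  have hexpφ := hexp A φ (isCuspidalHom_of_parabolic hφ)
  set x : Fin (2 * Module.finrank ℂ (CuspForm (Gamma0 R) 2)) → A :=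
    fun i => φ (Additive.ofMul (γ i))
  obtain ⟨j₀, hj₀⟩ : ∃ j, x j ≠ 0 := by
    by_contra! h
    exact hφ0 (AddMonoidHom.ext fun g => by simp [hexpφ g, show ∀ i, φ (Additive.ofMul (γ i)) = 0
      from h])
  let c' : {ℓ : Nat.Primes // (ℓ : ℕ) ∉ S} → A := fun ℓ => c ℓ.1
  have halg : ∀ ℓ, ∃ P : Polynomial ℤ, P.Monic ∧ P.eval₂ (Int.castRingHom A) (c' ℓ) = 0 :=
    fun ℓ => exists_monic_root_of_mulVec_eq
      (Matrix.of fun j i => heckeHom ℤ ℤ ℓ.1.2 (e i) (Additive.ofMul (γ j)))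
      (x := x) (fun h => hj₀ (congrFun h j₀)) (funext fun j => by
        have h := DFunLike.congr_fun (hc ℓ.1 ℓ.2) (Additive.ofMul (γ j))
        rw [heckeHom_apply_basis ℓ.1.2 hexpφ] at h
        simpa [Matrix.mulVec, dotProduct] using h)
  obtain ⟨d, lam, emb, hlam0, hlam, hemb⟩ := exists_transfer c' halg hj₀
  set ψ := lam.comp φ
  have hψ0 : ψ ≠ 0 := fun h => hlam0 (DFunLike.congr_fun h (Additive.ofMul (γ j₀)))
  have hψ : ψ ∈ parabolicHoms ℂ (Gamma0 R) ℂ := fun g hg => by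
    show lam (φ _) = 0
    rw [hφ g hg, map_zero]
  have hψT : ∀ ℓ : {ℓ : Nat.Primes // (ℓ : ℕ) ∉ S}, heckeHom ℂ ℂ ℓ.1.2 ψ = d ℓ • ψ := fun ℓ => by
    rw [heckeHom_comp (S := A) ℓ.1.2 lam φ, hc ℓ.1 ℓ.2]
    exact AddMonoidHom.ext fun g => hlam ℓ (φ g)
  -- forms
  obtain ⟨⟨u, v⟩, huv⟩ : ψ ∈ LinearMap.range (periodHomPair R) := by
    rw [range_periodHomPair]; exact hψ
  have huvT : ∀ (ℓ : {ℓ : Nat.Primes // (ℓ : ℕ) ∉ S}) (hℓR : ¬ (ℓ.1 : ℕ) ∣ R),
      CuspForm.heckeTLin 2 ℓ.1.2 hℓR u = d ℓ • u ∧ CuspForm.heckeTLin 2 ℓ.1.2 hℓR v = d ℓ • v := by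
    intro ℓ hℓR
    have h := heckeHom_periodHomPair_T ℓ.1.2 hℓR u v
    rw [huv, hψT, ← huv, ← map_smul] at h
    exact ⟨(congrArg Prod.fst (periodHomPair_injective R h)).symm,
      (congrArg Prod.snd (periodHomPair_injective R h)).symm⟩
  obtain ⟨w, hw0, hwT⟩ : ∃ w : CuspForm (Gamma0 R) 2, w ≠ 0 ∧
      ∀ (ℓ : {ℓ : Nat.Primes // (ℓ : ℕ) ∉ S}) (hℓR : ¬ (ℓ.1 : ℕ) ∣ R),
        CuspForm.heckeTLin 2 ℓ.1.2 hℓR w = d ℓ • w := by
    by_cases hu : u = 0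
    · refine ⟨v, fun hv => hψ0 ?_, fun ℓ h => (huvT ℓ h).2⟩
      rw [← huv, hu, hv, Prod.mk_zero_zero, map_zero]
    · exact ⟨u, hu, fun ℓ h => (huvT ℓ h).1⟩
  -- an eigenform with these good eigenvalues
  have hRne : ∀ ℓ : {ℓ : Nat.Primes // (ℓ : ℕ) ∉ S}, ¬ (ℓ.1 : ℕ) ∣ R :=
    fun ℓ h => ℓ.2 (hRS _ ℓ.1.2 h)
  let W : Submodule ℂ (CuspForm (Gamma0 R) 2) :=
    ⨅ ℓ : {ℓ : Nat.Primes // (ℓ : ℕ) ∉ S},
      LinearMap.ker (CuspForm.heckeTLin 2 ℓ.1.2 (hRne ℓ) - d ℓ • LinearMap.id)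
  have hWmem : ∀ z, z ∈ W ↔ ∀ ℓ : {ℓ : Nat.Primes // (ℓ : ℕ) ∉ S},
      CuspForm.heckeTLin 2 ℓ.1.2 (hRne ℓ) z = d ℓ • z := fun z => by simp [W, sub_eq_zero]
  have hW0 : W ≠ ⊥ := fun h => hw0 ((Submodule.mem_bot ℂ).1
    (h ▸ (hWmem w).2 fun ℓ => hwT ℓ _))
  have hWst : ∀ t : CuspForm.heckeAlgebra R 2 ∅, ∀ z ∈ W, (t : Module.End ℂ _) z ∈ W := by
    intro t z hz
    refine (hWmem _).2 fun ℓ => ?_
    have hcomm := congrArg Subtype.val
      (mul_comm (CuspForm.heckeAlgebra.T ℓ.1.2 (hRne ℓ) (Set.notMem_empty (ℓ.1 : ℕ)) :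
        CuspForm.heckeAlgebra R 2 ∅) t)
    have h := LinearMap.congr_fun hcomm z
    simp only [MulMemClass.coe_mul, Module.End.mul_apply, CuspForm.heckeAlgebra.coe_T] at h
    rw [h, (hWmem z).1 hz ℓ, map_smul]
  haveI := BadPrime.finiteDimensional_cuspForm R
  obtain ⟨v₀, hv₀W, hv₀, hv₀e⟩ := Hecke.exists_common_eigenvector
    (CuspForm.heckeAlgebra R 2 ∅).val.toRingHom W hW0 hWst
  obtain ⟨χ, hχ⟩ := Hecke.exists_eigenchar (CuspForm.heckeAlgebra R 2 ∅).val.toRingHom hv₀ hv₀e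
  obtain ⟨f, hf, -, hfT, -⟩ := Hecke.exists_normalizedEigenform_of_eigenvector χ hv₀ hχ
  have hfd : ∀ ℓ : {ℓ : Nat.Primes // (ℓ : ℕ) ∉ S}, qCoeff f ℓ.1 = d ℓ := fun ℓ => by
    rw [hfT _ ℓ.1.2 (hRne ℓ)]
    exact smul_left_injective ℂ hv₀ (((hχ _).symm).trans ((hWmem v₀).1 hv₀W ℓ))
  obtain ⟨L', g, hL', hg, hgf⟩ := BadPrime.exists_newform_of_eigenform (NeZero.ne R) hf
  haveI : NeZero L' := ⟨fun h => NeZero.ne R (zero_dvd_iff.1 (h ▸ hL'))⟩
  have hgd : ∀ ℓ : {ℓ : Nat.Primes // (ℓ : ℕ) ∉ S}, qCoeff g ℓ.1 = d ℓ := fun ℓ => by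
    rw [hgf _ ℓ.1.2 (hRne ℓ), hfd]
  obtain ⟨chig, -, hchigT, hchigU⟩ := BadPrime.exists_eigenChar hg.1 (↑S : Set ℕ)
  have hrange : chig.range ≤ Subring.closure (Set.range d) := by
    rintro _ ⟨t, rfl⟩
    refine BadPrime.eigenChar_mem_subring chig _ (fun ℓ hℓ hℓL hℓS => ?_) (fun q hq hqL hqS => ?_) t
    · rw [hchigT, hgd ⟨⟨ℓ, hℓ⟩, hℓS⟩]
      exact Subring.subset_closure ⟨_, rfl⟩
    · exact absurd (hRS q hq (hqL.trans hL')) hqS
  refine ⟨L', ‹_›, hL', g, chig, emb.comp (Subring.inclusion hrange), lam, hg, hchigT,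
    fun ℓ hℓ hℓL hℓS => ?_, hψ0, fun ℓ hℓ => ?_⟩
  · refine Eq.trans (congrArg emb (Subtype.ext ?_)) (hemb ⟨⟨ℓ, hℓ⟩, hℓS⟩)
    exact (hchigT ℓ hℓ hℓL hℓS).trans (hgd ⟨⟨ℓ, hℓ⟩, hℓS⟩)
  · rw [hgd ⟨ℓ, hℓ⟩]
    exact ⟨fun x => hlam ⟨ℓ, hℓ⟩ x, hψT ⟨ℓ, hℓ⟩⟩

end System

end Fermat.Agent.RT.Systems

end
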