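import Fermat.Agent.RT.Systems.Untwist
import Fermat.Agent.RT.Systems.EisensteinKill
import Fermat.Agent.RT.Systems.Transport
import Mathlib.RingTheory.DiscreteValuationRing.Basic

/-!
# The newform behind a non-Eisenstein system on a twisted module

All the untwistings of a system land at the same level `R`. One of them gives a newform `g` of level
dividing `R`; the classes killed at the primes in question, moved to `ℂ` by the same semilinear
map, show that this level has the exact exponents.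
-/

set_option autoImplicit false

noncomputable section

namespace Fermat.Agent.RT.Systems

open IsLocalRing CongruenceSubgroup ModularCurve ModularCurve.Period ModularFormClass
open Fermat.Agent.Periods Fermat.Agent.RT.TW Assembly
open scoped MatrixGroups

variable {A : Type} [CommRing A]

/-- Some nonzero multiple of any nonzero element is a natural number. -/
theorem exists_nat_dvd [IsDomain A] [IsDiscreteValuationRing A] [CharZero A]
    [Finite (ResidueField A)] {x : A} (hx : x ≠ 0) : ∃ n : ℕ, n ≠ 0 ∧ x ∣ (n : A) := by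
  obtain ⟨ϖ, hϖ⟩ := IsDiscreteValuationRing.exists_irreducible A
  obtain ⟨m, hm⟩ := IsDiscreteValuationRing.associated_pow_irreducible hx hϖ
  have := Fintype.ofFinite (ResidueField A)
  set k := Fintype.card (ResidueField A)
  have hk : (k : A) ∈ maximalIdeal A := by
    rw [← IsLocalRing.residue_eq_zero_iff, map_natCast]
    exact Nat.cast_card_eq_zero _
  rw [hϖ.maximalIdeal_eq, Ideal.mem_span_singleton] at hk
  exact ⟨k ^ m, pow_ne_zero m Fintype.card_ne_zero,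
    hm.dvd.trans (by push_cast; exact pow_dvd_pow_of_dvd hk m)⟩

theorem pow_heckeHom_comp {R : ℕ} {p : ℕ} (hp : p.Prime) (f : A →+ ℂ)
    (φ : Additive (Gamma0 R) →+ A) (n : ℕ) :
    ((heckeHom ℂ ℂ hp ^ n : Module.End ℂ (Additive (Gamma0 R) →+ ℂ))) (f.comp φ) =
      f.comp (((heckeHom A A hp ^ n : Module.End A (Additive (Gamma0 R) →+ A))) φ) := by
  induction n with
  | zero => rfl
  | succ n ih =>
    rw [pow_succ', pow_succ', Module.End.mul_apply, Module.End.mul_apply, ih,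
      heckeHom_comp (S := A) hp f]

/-- A killed class, moved to `ℂ` by a semilinear map, bounds the level below. -/
theorem IsKilledAt.not_dvd [IsDomain A] [IsDiscreteValuationRing A] [CharZero A]
    [Finite (ResidueField A)] {q R D : ℕ} [NeZero R] (e : R = q * D) (S : Finset ℕ)
    (c : Nat.Primes → A) {φ : Additive (Gamma0 R) →+ A}
    (hφ : φ ∈ parabolicHoms A (Gamma0 R) A) (hφ0 : φ ≠ 0)
    (hc : ∀ ℓ : Nat.Primes, (ℓ : ℕ) ∉ S → heckeHom A A ℓ.2 φ = c ℓ • φ) (hk : IsKilledAt q φ)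
    {L' : ℕ} {g : CuspForm (Gamma0 L') 2} (hg : g.IsNormalizedEigenform) {lam : A →+ ℂ}
    (hlam0 : lam ≠ 0)
    (hlam : ∀ ℓ : Nat.Primes, (ℓ : ℕ) ∉ S → ∀ x, lam (c ℓ * x) = qCoeff g ℓ * lam x) :
    ¬ L' ∣ D := by
  obtain ⟨D', hq, ι, iι, nι, χ₁, χ₂, E, r, e', hr, hrD, hkill⟩ := hk
  obtain rfl : D' = D := Nat.eq_of_mul_eq_mul_left hq.pos (e'.symm.trans e)
  subst e
  obtain ⟨g₁, hg₁⟩ : ∃ g₁, φ g₁ ≠ 0 := by
    by_contra! h; exact hφ0 (AddMonoidHom.ext h)
  obtain ⟨w, hw⟩ : ∃ w, lam w ≠ 0 := by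
    by_contra! h; exact hlam0 (AddMonoidHom.ext h)
  obtain ⟨n, hn, u, hu⟩ := exists_nat_dvd hg₁
  set lam' : A →+ ℂ := lam.comp (AddMonoidHom.mulLeft (u * w))
  set ψ := lam'.comp φ with hψdef
  have hψ0 : ψ ≠ 0 := by
    intro h
    have h' : lam (u * w * φ g₁) = 0 := DFunLike.congr_fun h g₁
    rw [show u * w * φ g₁ = n • w by rw [nsmul_eq_mul, hu]; ring, map_nsmul, nsmul_eq_mul] at h'
    exact mul_ne_zero (Nat.cast_ne_zero.2 hn) hw h'
  have hψ : ψ ∈ parabolicHoms ℂ (Gamma0 (q * D')) ℂ := fun γ hγ => by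
    show lam' (φ _) = 0
    rw [hφ γ hγ, map_zero]
  have : Fact q.Prime := ⟨hq⟩
  have : NeZero q := ⟨hq.ne_zero⟩
  have : NeZero D' := ⟨fun h => NeZero.ne (q * D') (by rw [h, mul_zero])⟩
  refine not_dvd_of_transfer_eq_zero E r hr hrD hψ hψ0 S (fun ℓ => qCoeff g ℓ)
    (fun ℓ hℓ _ hℓS => ?_) (fun m γ => ?_) hg (fun ℓ _ _ => rfl)
  · rw [heckeHom_comp (S := A) hℓ lam' φ, hc ⟨ℓ, hℓ⟩ hℓS]
    refine AddMonoidHom.ext fun x => ?_
    show lam (u * w * (c ⟨ℓ, hℓ⟩ * φ x)) = qCoeff g ℓ * lam (u * w * φ x)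
    rw [mul_left_comm]
    exact hlam ⟨ℓ, hℓ⟩ hℓS _
  · rw [hψdef, pow_heckeHom_comp hq lam' φ m]
    simp only [AddMonoidHom.comp_apply, ← map_sum, hkill m γ, map_zero]

section Image

variable [IsDomain A] [CharZero A] {N L R : ℕ} [NeZero L] [NeZero R] {θ : MulChar (ZMod N) A}
  {h : N ∣ L} {J : heckeH1 (neben θ) L h →ₗ[A] (Additive (Gamma0 R) →+ A)}

/-- The image of a nontorsion non-Eisenstein system is a nonzero parabolic system. -/
theorem IsUntwist.image_system (hJ : IsUntwist θ h J) (S : Finset ℕ)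
    (hS : ∀ q : ℕ, q.Prime → q ∣ L → q ∈ S) (c : Nat.Primes → A) {ℓ₀ : Nat.Primes}
    (hℓS : (ℓ₀ : ℕ) ∉ S) (hℓ1 : ((ℓ₀ : ℕ) : ZMod R) = 1) (hne : c ℓ₀ ≠ ((ℓ₀ : ℕ) : A) + 1)
    {y : heckeH1 (neben θ) L h} (hy : y ∈ twSystem θ h S c) (hy0 : ∀ a : A, a ≠ 0 → a • y ≠ 0) :
    J y ≠ 0 ∧ J y ∈ parabolicHoms A (Gamma0 R) A ∧
      (∀ ℓ : Nat.Primes, (ℓ : ℕ) ∉ S → heckeHom A A ℓ.2 (J y) = c ℓ • J y) ∧
      ∀ q : ℕ, q.Prime → q ∣ R → q ∈ S := by
  have hRS : ∀ q : ℕ, q.Prime → q ∣ R → q ∈ S := fun q hq hqR => hS q hq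
    ((hq.dvd_mul.1 (hqR.trans hJ.dvd_mul)).elim id fun hd => hd.trans h)
  have hc : ∀ ℓ : Nat.Primes, (ℓ : ℕ) ∉ S → heckeHom A A ℓ.2 (J y) = c ℓ • J y := fun ℓ hℓ => by
    rw [← hJ.comm ℓ (fun hd => hℓ (hS _ ℓ.2 (hd.trans h))), mem_twSystem_iff.1 hy ℓ hℓ, map_smul]
  refine ⟨fun h0 => ?_, fun γ hγ => ?_, hc, hRS⟩
  · obtain ⟨a, ha, ha'⟩ := hJ.ker
    exact hy0 a ha (ha' y h0)
  · have := heckeHom_sub_smul_mem_parabolicHoms (R := A) ℓ₀.2
      (fun hd => hℓS (hRS _ ℓ₀.2 hd)) hℓ1 (J y) γ hγ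
    rw [hc ℓ₀ hℓS, AddMonoidHom.sub_apply, AddMonoidHom.smul_apply, AddMonoidHom.nsmul_apply,
      smul_eq_mul, nsmul_eq_mul, Nat.cast_add, Nat.cast_one, ← sub_mul] at this
    exact (mul_eq_zero.1 this).resolve_left (sub_ne_zero.2 hne)

/-- All untwistings have the same level. -/
theorem IsUntwist.level_eq {N' R' : ℕ} [NeZero R'] {θ' : MulChar (ZMod N') A} {h' : N' ∣ L}
    {J' : heckeH1 (neben θ') L h' →ₗ[A] (Additive (Gamma0 R') →+ A)} (hJ : IsUntwist θ h J)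
    (hJ' : IsUntwist θ' h' J')
    (hiff : ∀ q : ℕ, q.Prime → (NontrivialAt θ' q ↔ NontrivialAt θ q)) : R' = R := by
  refine Nat.eq_of_factorization_eq (NeZero.ne R') (NeZero.ne R) fun q => ?_
  by_cases hq : q.Prime
  · by_cases hn : NontrivialAt θ q
    · rw [hJ.factorization_of_nontrivialAt q hq hn,
        hJ'.factorization_of_nontrivialAt q hq ((hiff q hq).2 hn)]
    · rw [hJ.factorization_of_not q hq hn,
        hJ'.factorization_of_not q hq (fun h' => hn ((hiff q hq).1 h'))]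
  · rw [Nat.factorization_eq_zero_of_not_prime _ hq, Nat.factorization_eq_zero_of_not_prime _ hq]

end Image

theorem factorization_eq_one_of_dvd {L : ℕ} (hsq : Squarefree L) {r : ℕ} (hr : r.Prime)
    (hrL : r ∣ L) : L.factorization r = 1 :=
  le_antisymm (hsq.natFactorization_le_one r)
    (hr.factorization_pos_of_dvd (Nat.pos_of_ne_zero hsq.ne_zero).ne' hrL)

theorem dvd_div_of_factorization_lt {L' R D q : ℕ} [NeZero R] (e : R = q * D) (hq : q.Prime)
    (hL : L' ∣ R) (h : L'.factorization q < R.factorization q) : L' ∣ D := by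
  have hD : D ≠ 0 := fun h0 => NeZero.ne R (by rw [e, h0, mul_zero])
  have hL0 : L' ≠ 0 := fun h0 => NeZero.ne R (zero_dvd_iff.1 (h0 ▸ hL))
  refine (Nat.factorization_le_iff_dvd hL0 hD).1 fun p => ?_
  have hp := (Nat.factorization_le_iff_dvd hL0 (NeZero.ne R)).2 hL p
  rw [e, Nat.factorization_mul hq.ne_zero hD, hq.factorization] at hp h
  by_cases hpq : p = q
  · subst hpq
    simp at h hp
    omega
  · simpa [Ne.symm hpq] using hp

/-- No old system, so the class is killed by the transfer at `q`. -/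
theorem isKilledAt_of_twSystem_eq_bot {N L R q : ℕ} [Fact q.Prime] {θ : MulChar (ZMod N) A}
    {h : N ∣ L} {J : heckeH1 (neben θ) L h →ₗ[A] (Additive (Gamma0 R) →+ A)}
    (hJ : IsUntwist θ h J) (hsq : Squarefree L) (hqL : q ∣ L) (hqN : ¬ q ∣ N) (S : Finset ℕ)
    (hS : ∀ p : ℕ, p.Prime → p ∣ L → p ∈ S) (c : Nat.Primes → A)
    (hold : ∀ h' : N ∣ L / q, twSystem θ h' S c = ⊥)
    {y : heckeH1 (neben θ) L h} (hy : y ∈ twSystem θ h S c) : IsKilledAt q (J y) := by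
  have hq := (Fact.out : q.Prime)
  obtain ⟨X, rfl⟩ := hqL
  have key : ∀ Y, Y = q * X / q → ∀ h' : N ∣ Y, twSystem θ h' S c = ⊥ := by
    rintro Y rfl h'; exact hold h'
  have hX : ¬ q ∣ X := fun hd =>
    hq.ne_one (Nat.isUnit_iff.1 (hsq q (mul_dvd_mul_left q hd)))
  have hN : N ∣ X := ((hq.coprime_iff_not_dvd.2 hqN).symm).dvd_of_dvd_mul_left h
  refine hJ.killed_of_push q X rfl hX hN y fun n => ?_
  rw [levelCast_rfl]
  refine (Submodule.mem_bot A).1 (key X (Nat.mul_div_cancel_left X hq.pos).symm hN ▸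
    mem_twSystem_iff.2 fun ℓ hℓ => ?_)
  have hℓq : (ℓ : ℕ) ≠ q := fun e => hℓ (hS _ ℓ.2 (e ▸ dvd_mul_right q X))
  have hcomm : Commute (twOp θ h ℓ) (twOp θ h ⟨q, hq⟩) :=
    ((heckeOp_commute h ℓ ⟨q, hq⟩).smul_left _).smul_right _
  have e1 : twOp θ h ℓ ((twOp θ h ⟨q, hq⟩ ^ n) y) = c ℓ • (twOp θ h ⟨q, hq⟩ ^ n) y := by
    rw [← Module.End.mul_apply, (hcomm.pow_right n).eq, Module.End.mul_apply,
      mem_twSystem_iff.1 hy ℓ hℓ, map_smul]
  rw [← map_smul, ← e1]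
  generalize (twOp θ h ⟨q, hq⟩ ^ n) y = z
  rw [twOp, twOp, LinearMap.smul_apply, LinearMap.smul_apply, map_smul,
    push_heckeOp hN hX ℓ hℓq]

variable [IsDomain A] [CharZero A] [IsDiscreteValuationRing A] [Finite (ResidueField A)]

/-- A non-Eisenstein system on the twisted module is the system of a newform of the exact level. -/
theorem exists_exactNewform_of_system {N L : ℕ} [NeZero L] (h : N ∣ L)
    (hsq : Squarefree L) (θ : MulChar (ZMod N) A)
    (hodd : ∀ u : (ZMod N)ˣ, ∃ k : ℕ, Odd k ∧ θ u ^ k = 1)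
    (S : Finset ℕ) (hS : ∀ q : ℕ, q.Prime → q ∣ L → q ∈ S) (c : Nat.Primes → A)
    (hEis : ∃ ℓ : Nat.Primes, (ℓ : ℕ) ∉ S ∧ ((ℓ : ℕ) : ZMod (L * N)) = 1 ∧
      c ℓ ≠ ((ℓ : ℕ) : A) + 1)
    {y : heckeH1 (neben θ) L h} (hy : y ∈ twSystem θ h S c)
    (hy0 : ∀ a : A, a ≠ 0 → a • y ≠ 0) :
    ∃ (L' : ℕ) (_ : NeZero L'), IsExactLevel θ S c L L' ∧ IsNewformSystem S L' c := by
  obtain ⟨ℓ₀, hℓS, hℓ1, hne⟩ := hEis
  have hcast : ∀ R, R ∣ L * N → ((ℓ₀ : ℕ) : ZMod R) = 1 := fun R hR => by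
    simpa [map_natCast, ZMod.cast_one hR] using congrArg (ZMod.castHom hR (ZMod R)) hℓ1
  have hexact : ∀ {M : ℕ}, M ∣ L → ∀ r : ℕ, r.Prime → r ∣ M → L.factorization r = 1 :=
    fun hM r hr hrM => factorization_eq_one_of_dvd hsq hr (hrM.trans hM)
  obtain ⟨R, _, J, hJ, -⟩ := exists_isUntwist N θ h (hexact h) hodd 0
  obtain ⟨hφ0, hφ, hφc, hRS⟩ := hJ.image_system S hS c hℓS (hcast R hJ.dvd_mul) hne hy hy0
  obtain ⟨L', _, hL'R, g, chig, emb, lam, hg, hchig, hemb, hlam0, hlam⟩ :=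
    exists_newform_of_system S hRS hφ hφ0 c hφc
  have hlam0' : lam ≠ 0 := fun h0 => hlam0 (by rw [h0]; rfl)
  refine ⟨L', ‹_›, ⟨hL'R.trans hJ.dvd_mul, Nat.pos_of_ne_zero (NeZero.ne L'), ?_, ?_, ?_⟩,
    g, chig, emb, hg, hchig, hemb⟩
  · intro q hq hn
    have hRq : R.factorization q = 2 := by
      rw [hJ.factorization_of_nontrivialAt q hq hn, hexact h q hq hn.1]
    obtain ⟨R', _, J', hJ', hk⟩ := exists_isUntwist N θ h (hexact h) hodd q
    obtain rfl : R' = R := hJ.level_eq hJ' fun _ _ => Iff.rfl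
    obtain ⟨hψ0, hψ, hψc, -⟩ := hJ'.image_system S hS c hℓS (hcast R' hJ'.dvd_mul) hne hy hy0
    have hqR : q ∣ R' := (hn.1.trans h).trans hJ'.dvd
    obtain ⟨D, hD⟩ := hqR
    have hnot := (hk hq hn y).not_dvd hD S c hψ hψ0 hψc hg.1 hlam0' fun ℓ hℓ => (hlam ℓ hℓ).1
    refine le_antisymm (hRq ▸ (Nat.factorization_le_iff_dvd (NeZero.ne L') (NeZero.ne R')).2 hL'R q) ?_
    by_contra hlt
    exact hnot (dvd_div_of_factorization_lt hD hq hL'R (by omega))
  · intro q hq hn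
    calc L'.factorization q ≤ R.factorization q :=
          (Nat.factorization_le_iff_dvd (NeZero.ne L') (NeZero.ne R)).2 hL'R q
      _ ≤ 1 := by rw [hJ.factorization_of_not q hq hn]; exact hsq.natFactorization_le_one q
  · intro q hq hqL hn hold
    have := Fact.mk hq
    have hRq : R.factorization q = 1 := by
      rw [hJ.factorization_of_not q hq hn, hexact dvd_rfl q hq hqL]
    refine le_antisymm (hRq ▸ (Nat.factorization_le_iff_dvd (NeZero.ne L') (NeZero.ne R)).2 hL'R q) ?_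
    by_contra hlt
    -- a killed class of level `R` with the same system
    obtain ⟨φ', hφ'0, hφ', hφ'c, hk⟩ : ∃ φ' : Additive (Gamma0 R) →+ A, φ' ≠ 0 ∧
        φ' ∈ parabolicHoms A (Gamma0 R) A ∧
        (∀ ℓ : Nat.Primes, (ℓ : ℕ) ∉ S → heckeHom A A ℓ.2 φ' = c ℓ • φ') ∧ IsKilledAt q φ' := by
      by_cases hqN : q ∣ N
      · obtain ⟨N', rfl⟩ := hqN
        have hqN' : ¬ q ∣ N' := fun hd => hq.ne_one (Nat.isUnit_iff.1
          (hsq q ((mul_dvd_mul_left q hd).trans h)))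
        have hcop : q.Coprime N' := hq.coprime_iff_not_dvd.2 hqN'
        have h' : N' ∣ L := (dvd_mul_left N' q).trans h
        have hb : Squarefree N' := hsq.squarefree_of_dvd h'
        have hfst : fstChar hcop θ = 1 := by
          by_contra hf
          exact hn ((nontrivialAt_fst_iff hcop θ hb).2 hf)
        set y' := stepTriv hcop θ h h' hfst y
        have hy' : y' ∈ twSystem (sndChar hcop θ) h' S c := mem_twSystem_iff.2 fun ℓ hℓ => by
          rw [← stepTriv_comm hcop θ h h' hfst ℓ (fun hd => hℓ (hS _ ℓ.2 (hd.trans h))),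
            mem_twSystem_iff.1 hy ℓ hℓ, map_smul]
        have hy'0 : ∀ a : A, a ≠ 0 → a • y' ≠ 0 := fun a ha h0 => by
          rw [← map_smul] at h0
          exact hy0 a ha ((changeModulus h' h
            fun b hb' => neben_split hcop θ b hb' hfst).map_eq_zero_iff.1 h0)
        obtain ⟨R', _, J', hJ', -⟩ :=
          exists_isUntwist N' (sndChar hcop θ) h' (hexact h') (sndChar_pow_eq_one hcop θ hodd) 0
        obtain rfl : R' = R := hJ.level_eq hJ' fun p hp => by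
          by_cases hpq : p = q
          · subst hpq
            exact iff_of_false (fun hn' => hqN' hn'.1) hn
          · exact nontrivialAt_snd_iff hcop θ hp hpq
        obtain ⟨h0, h1, h2, -⟩ := hJ'.image_system S hS c hℓS (hcast R' hJ.dvd_mul) hne hy' hy'0
        exact ⟨_, h0, h1, h2, isKilledAt_of_twSystem_eq_bot hJ' hsq hqL hqN' S hS c
          (hold N' (dvd_mul_left N' q) (sndChar hcop θ) (changeLevel_sndChar hcop θ hfst)) hy'⟩
      · exact ⟨_, hφ0, hφ, hφc, isKilledAt_of_twSystem_eq_bot hJ hsq hqL hqN S hS c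
          (hold N dvd_rfl θ (DirichletCharacter.changeLevel_self θ)) hy⟩
    obtain ⟨D, hD⟩ := hqL.trans hJ.dvd
    exact (hk.not_dvd hD S c hφ' hφ'0 hφ'c hg.1 hlam0' fun ℓ hℓ => (hlam ℓ hℓ).1)
      (dvd_div_of_factorization_lt hD hq hL'R (by omega))

end Fermat.Agent.RT.Systems

end
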