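import Fermat.Agent.RT.Systems.Transport
import Fermat.Agent.RT.Systems.EisensteinKill
import Fermat.Agent.RT.Assembly.Defs
import Mathlib.Algebra.MvPolynomial.Variables

/-!
# Relations on forms kill the twisted modules after the Eisenstein part

Given a map `J` from the twisted module to homomorphisms on `Γ₀(R)` intertwining the twisted
operators with the transfers, a relation on the forms of a level that `R` divides kills
`(T̃_ℓ₀ - (ℓ₀ + 1)) y` up to the kernel of `J`, for `ℓ₀` congruent to `1`.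
-/

set_option autoImplicit false

noncomputable section

namespace Fermat.Agent.RT.Systems

open CongruenceSubgroup Assembly TW Periods

section Level

variable {M R : ℕ} [NeZero M] [NeZero R]

/-- A relation at a level restricts to its divisors. -/
theorem eval_eq_zero_of_dvd (h : R ∣ M) (S : Finset ℕ) (F : MvPolynomial Nat.Primes ℤ)
    (hFM : ∀ ℓ : Nat.Primes, ℓ ∈ F.vars → ¬ (ℓ : ℕ) ∣ M)
    (opM : Nat.Primes → CuspForm.heckeAlgebra M 2 (↑S : Set ℕ))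
    (opR : Nat.Primes → CuspForm.heckeAlgebra R 2 (↑S : Set ℕ))
    (hopM : ∀ ℓ : Nat.Primes, ℓ ∈ F.vars →
      (opM ℓ : Module.End ℂ (CuspForm (Gamma0 M) 2)) = formT M ℓ)
    (hopR : ∀ ℓ : Nat.Primes, ℓ ∈ F.vars →
      (opR ℓ : Module.End ℂ (CuspForm (Gamma0 R) 2)) = formT R ℓ)
    (hF : MvPolynomial.eval₂Hom (Int.castRingHom _) opM F = 0) :
    MvPolynomial.eval₂Hom (Int.castRingHom _) opR F = 0 := by
  have key : ∀ G ∈ Algebra.adjoin ℤ
      ((MvPolynomial.X : Nat.Primes → MvPolynomial Nat.Primes ℤ) '' (↑F.vars : Set Nat.Primes)),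
      ∀ f, BadPrime.levelIncl h ((MvPolynomial.eval₂Hom (Int.castRingHom _) opR G :
          CuspForm.heckeAlgebra R 2 (↑S : Set ℕ)).1 f) =
        (MvPolynomial.eval₂Hom (Int.castRingHom _) opM G :
          CuspForm.heckeAlgebra M 2 (↑S : Set ℕ)).1 (BadPrime.levelIncl h f) := by
    intro G hG
    induction hG using Algebra.adjoin_induction with
    | mem x hx =>
      obtain ⟨ℓ, hℓ, rfl⟩ := hx
      intro f
      rw [MvPolynomial.eval₂Hom_X', MvPolynomial.eval₂Hom_X', hopM ℓ hℓ, hopR ℓ hℓ, formT, formT,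
        dif_pos (hFM ℓ hℓ), dif_pos fun h' => hFM ℓ hℓ (h'.trans h),
        BadPrime.heckeTLin_levelIncl h ℓ.2 (hFM ℓ hℓ)]
    | algebraMap r =>
      intro f
      rw [eq_intCast, map_intCast, map_intCast, SubringClass.coe_intCast, SubringClass.coe_intCast]
      simp
    | add x y _ _ hx hy =>
      intro f
      simp only [map_add, AddMemClass.coe_add, LinearMap.add_apply, hx, hy]
    | mul x y _ _ hx hy =>
      intro f
      simp only [map_mul, MulMemClass.coe_mul, Module.End.mul_apply, hx, hy]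
  refine Subtype.ext (LinearMap.ext fun f => ?_)
  have h' := key F (MvPolynomial.mem_supported_vars F) f
  rw [hF, ZeroMemClass.coe_zero, LinearMap.zero_apply] at h'
  refine DFunLike.coe_injective ?_
  exact congrArg (fun x : CuspForm (Gamma0 M) 2 => (x : UpperHalfPlane → ℂ)) h'

end Level

variable {N L R : ℕ} [NeZero R] {O : Type} [CommRing O] [IsDomain O] [CharZero O]

/-- A relation at a level divisible by `R` kills `(T̃ - (ℓ₀ + 1)) y` modulo the kernel of `J`. -/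
theorem untwist_relation {M : ℕ} [NeZero M] (hRM : R ∣ M) (h : N ∣ L) (θ : MulChar (ZMod N) O)
    (S : Finset ℕ) (J : heckeH1 (neben θ) L h →ₗ[O] (Additive (Gamma0 R) →+ O))
    (hJ : ∀ ℓ : Nat.Primes, (ℓ : ℕ) ∉ S → ∀ y, J (twOp θ h ℓ y) = heckeHom O O ℓ.2 (J y))
    (hS : ∀ q : ℕ, q.Prime → q ∣ M → q ∈ S) (F : MvPolynomial Nat.Primes ℤ)
    (hFS : ∀ ℓ : Nat.Primes, ℓ ∈ F.vars → (ℓ : ℕ) ∉ S)
    (opM : Nat.Primes → CuspForm.heckeAlgebra M 2 (↑S : Set ℕ))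
    (hopM : ∀ ℓ : Nat.Primes, ℓ ∈ F.vars →
      (opM ℓ : Module.End ℂ (CuspForm (Gamma0 M) 2)) = formT M ℓ)
    (hF : MvPolynomial.eval₂Hom (Int.castRingHom _) opM F = 0)
    (ρ : MvPolynomial Nat.Primes ℤ →+* Module.End O (heckeH1 (neben θ) L h))
    (hρ : ∀ ℓ : Nat.Primes, ρ (MvPolynomial.X ℓ) = twOp θ h ℓ)
    (ℓ₀ : Nat.Primes) (hℓ₀S : (ℓ₀ : ℕ) ∉ S) (hℓ₀1 : ((ℓ₀ : ℕ) : ZMod M) = 1)
    (y : heckeH1 (neben θ) L h) :
    J (ρ F (twOp θ h ℓ₀ y - (((ℓ₀ : ℕ) : O) + 1) • y)) = 0 := by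
  classical
  have hFM : ∀ ℓ : Nat.Primes, ℓ ∈ F.vars → ¬ (ℓ : ℕ) ∣ M :=
    fun ℓ hℓ hd => hFS ℓ hℓ (hS _ ℓ.2 hd)
  have hFR : ∀ ℓ : Nat.Primes, ℓ ∈ F.vars → ¬ (ℓ : ℕ) ∣ R :=
    fun ℓ hℓ hd => hFM ℓ hℓ (hd.trans hRM)
  let opR : Nat.Primes → CuspForm.heckeAlgebra R 2 (↑S : Set ℕ) := fun ℓ =>
    if hR : ¬ (ℓ : ℕ) ∣ R ∧ (ℓ : ℕ) ∉ (↑S : Set ℕ) then CuspForm.heckeAlgebra.T ℓ.2 hR.1 hR.2 else 0
  have hopR : ∀ ℓ : Nat.Primes, ℓ ∈ F.vars →
      (opR ℓ : Module.End ℂ (CuspForm (Gamma0 R) 2)) = formT R ℓ := fun ℓ hℓ => by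
    simp only [opR, formT, dif_pos (And.intro (hFR ℓ hℓ) (show (ℓ : ℕ) ∉ (↑S : Set ℕ) from hFS ℓ hℓ)),
      dif_pos (hFR ℓ hℓ), CuspForm.heckeAlgebra.coe_T]
  set D : Module.End O (heckeH1 (neben θ) L h) :=
    twOp θ h ℓ₀ - (((ℓ₀ : ℕ) : O) + 1) • 1 with hD
  have hDρ : D = ρ (MvPolynomial.X ℓ₀ - (((ℓ₀ : ℕ) : MvPolynomial Nat.Primes ℤ) + 1)) := by
    rw [hD, map_sub, hρ, map_add, map_natCast, map_one, add_smul, one_smul, Nat.cast_smul_eq_nsmul,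
      nsmul_one]
  have hDy : twOp θ h ℓ₀ y - (((ℓ₀ : ℕ) : O) + 1) • y = D y := rfl
  have hcomm : ∀ G z, D (ρ G z) = ρ G (D z) := fun G z => by
    rw [hDρ, ← Module.End.mul_apply, ← map_mul, mul_comm, map_mul]
    rfl
  rw [hDy, ← hcomm]
  refine relation_kills S F hFR opR hopR
    (eval_eq_zero_of_dvd hRM S F hFM opM opR hopM hopR hF) ρ (J.comp D) (fun ℓ hℓ z => ?_)
    (fun z => ?_) y
  · show J (D (ρ (MvPolynomial.X ℓ) z)) = heckeHom O O ℓ.2 (J (D z))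
    rw [hcomm, hρ, hJ ℓ (hFS ℓ hℓ)]
  · have hℓR : ¬ (ℓ₀ : ℕ) ∣ R := fun hd => hℓ₀S (hS _ ℓ₀.2 (hd.trans hRM))
    have h1 : ((ℓ₀ : ℕ) : ZMod R) = 1 := by
      have := congrArg (ZMod.castHom hRM (ZMod R)) hℓ₀1
      rwa [map_natCast, map_one] at this
    have hp := heckeHom_sub_smul_mem_parabolicHoms (R := O) ℓ₀.2 hℓR h1 (J z)
    show J (twOp θ h ℓ₀ z - (((ℓ₀ : ℕ) : O) + 1) • z) ∈ _
    rw [map_sub, map_smul, hJ ℓ₀ hℓ₀S,
      show (((ℓ₀ : ℕ) : O) + 1) • J z = ((ℓ₀ : ℕ) + 1) • J z by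
        rw [← Nat.cast_smul_eq_nsmul O, Nat.cast_add, Nat.cast_one]]
    exact hp

end Fermat.Agent.RT.Systems

end
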