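import Fermat.Agent.RT.Assembly.Defs
import Mathlib.NumberTheory.DirichletCharacter.Basic
import Mathlib.Data.Nat.Squarefree

/-!
# Splitting a character modulo `a b` for coprime `a` and `b`
-/

set_option autoImplicit false

noncomputable section

namespace Fermat.Agent.RT.Systems

open Assembly

variable {A : Type} [CommRing A] {a b : ℕ} (hab : a.Coprime b)

/-- `x ↦ (x, 1)`. -/
def unitsInl : (ZMod a)ˣ →* (ZMod (a * b))ˣ :=
  (Units.map (ZMod.chineseRemainder hab).symm.toMonoidHom).comp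
    (MulEquiv.prodUnits.symm.toMonoidHom.comp (MonoidHom.inl _ _))

/-- `y ↦ (1, y)`. -/
def unitsInr : (ZMod b)ˣ →* (ZMod (a * b))ˣ :=
  (Units.map (ZMod.chineseRemainder hab).symm.toMonoidHom).comp
    (MulEquiv.prodUnits.symm.toMonoidHom.comp (MonoidHom.inr _ _))

theorem chinese_unitsInl (u : (ZMod a)ˣ) :
    ZMod.chineseRemainder hab ((unitsInl hab u : (ZMod (a * b))ˣ) : ZMod (a * b)) = ((u : ZMod a), 1) := by
  show ZMod.chineseRemainder hab ((ZMod.chineseRemainder hab).symm ((u : ZMod a), 1)) = _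
  rw [RingEquiv.apply_symm_apply]

theorem chinese_unitsInr (u : (ZMod b)ˣ) :
    ZMod.chineseRemainder hab ((unitsInr hab u : (ZMod (a * b))ˣ) : ZMod (a * b)) = (1, (u : ZMod b)) := by
  show ZMod.chineseRemainder hab ((ZMod.chineseRemainder hab).symm (1, (u : ZMod b))) = _
  rw [RingEquiv.apply_symm_apply]

theorem chinese_fst (x : ZMod (a * b)) :
    (ZMod.chineseRemainder hab x).1 = ZMod.castHom (dvd_mul_right a b) (ZMod a) x := by
  have h : (RingHom.fst (ZMod a) (ZMod b)).comp (ZMod.chineseRemainder hab).toRingHom =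
      ZMod.castHom (dvd_mul_right a b) (ZMod a) := RingHom.ext_zmod _ _
  exact RingHom.congr_fun h x

theorem chinese_snd (x : ZMod (a * b)) :
    (ZMod.chineseRemainder hab x).2 = ZMod.castHom (dvd_mul_left b a) (ZMod b) x := by
  have h : (RingHom.snd (ZMod a) (ZMod b)).comp (ZMod.chineseRemainder hab).toRingHom =
      ZMod.castHom (dvd_mul_left b a) (ZMod b) := RingHom.ext_zmod _ _
  exact RingHom.congr_fun h x

/-- The two components of a unit. -/
theorem eq_inl_mul_inr (u : (ZMod (a * b))ˣ) :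
    u = unitsInl hab (ZMod.unitsMap (dvd_mul_right a b) u) *
      unitsInr hab (ZMod.unitsMap (dvd_mul_left b a) u) := by
  refine Units.ext ((ZMod.chineseRemainder hab).injective ?_)
  rw [Units.val_mul, map_mul, chinese_unitsInl, chinese_unitsInr, Prod.mk_mul_mk, mul_one, one_mul]
  exact Prod.ext (chinese_fst hab _) (chinese_snd hab _)

theorem cast_inl_left (u : (ZMod a)ˣ) :
    ZMod.castHom (dvd_mul_right a b) (ZMod a) ((unitsInl hab u : (ZMod (a * b))ˣ) : ZMod (a * b)) = u := by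
  rw [← chinese_fst hab, chinese_unitsInl]

theorem cast_inl_right (u : (ZMod a)ˣ) :
    ZMod.castHom (dvd_mul_left b a) (ZMod b) ((unitsInl hab u : (ZMod (a * b))ˣ) : ZMod (a * b)) = 1 := by
  rw [← chinese_snd hab, chinese_unitsInl]

theorem cast_inr_left (u : (ZMod b)ˣ) :
    ZMod.castHom (dvd_mul_right a b) (ZMod a) ((unitsInr hab u : (ZMod (a * b))ˣ) : ZMod (a * b)) = 1 := by
  rw [← chinese_fst hab, chinese_unitsInr]

theorem cast_inr_right (u : (ZMod b)ˣ) :
    ZMod.castHom (dvd_mul_left b a) (ZMod b) ((unitsInr hab u : (ZMod (a * b))ˣ) : ZMod (a * b)) = u := by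
  rw [← chinese_snd hab, chinese_unitsInr]

variable (θ : MulChar (ZMod (a * b)) A)

/-- The component at `a`. -/
def fstChar : (ZMod a)ˣ →* Aˣ := θ.toUnitHom.comp (unitsInl hab)

/-- The component at `b`. -/
def sndChar : MulChar (ZMod b) A := MulChar.ofUnitHom (θ.toUnitHom.comp (unitsInr hab))

theorem sndChar_apply (u : (ZMod b)ˣ) : sndChar hab θ u = θ (unitsInr hab u : (ZMod (a * b))ˣ) := by
  rw [sndChar, MulChar.ofUnitHom_coe, MonoidHom.comp_apply, MulChar.coe_toUnitHom]

theorem fstChar_apply (u : (ZMod a)ˣ) :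
    (fstChar hab θ u : A) = θ (unitsInl hab u : (ZMod (a * b))ˣ) := by
  rw [fstChar, MonoidHom.comp_apply, MulChar.coe_toUnitHom]

theorem split_apply_unit (u : (ZMod (a * b))ˣ) :
    θ u = sndChar hab θ (ZMod.unitsMap (dvd_mul_left b a) u : (ZMod b)ˣ) *
      fstChar hab θ (ZMod.unitsMap (dvd_mul_right a b) u) := by
  rw [sndChar_apply, fstChar_apply, ← map_mul, ← Units.val_mul,
    mul_comm (unitsInr hab _), ← eq_inl_mul_inr hab u]

theorem split_apply (x : ℤ) (ua : (ZMod a)ˣ) (hua : (ua : ZMod a) = x)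
    (hb : IsUnit (x : ZMod b)) :
    θ (x : ZMod (a * b)) = sndChar hab θ (x : ZMod b) * fstChar hab θ ua := by
  obtain ⟨ub, hub⟩ := hb
  have e : ((unitsInl hab ua * unitsInr hab ub : (ZMod (a * b))ˣ) : ZMod (a * b)) = x :=
    (ZMod.chineseRemainder hab).injective (by
      rw [Units.val_mul, map_mul, chinese_unitsInl, chinese_unitsInr, Prod.mk_mul_mk, mul_one,
        one_mul, map_intCast, hua, hub]
      exact Prod.ext (Prod.fst_intCast x).symm (Prod.snd_intCast x).symm)
  rw [← e, Units.val_mul, map_mul, ← fstChar_apply, ← sndChar_apply, ← hub,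
    mul_comm (sndChar hab θ (ub : ZMod b))]

theorem changeLevel_sndChar (h : fstChar hab θ = 1) :
    DirichletCharacter.changeLevel (dvd_mul_left b a) (sndChar hab θ) = θ := by
  refine MulChar.ext fun u => ?_
  rw [split_apply_unit hab θ u, h, MonoidHom.one_apply, Units.val_one, mul_one,
    DirichletCharacter.changeLevel_eq_cast_of_dvd]
  rfl

include hab in
theorem sndChar_pow_eq_one (hodd : ∀ u : (ZMod (a * b))ˣ, ∃ k : ℕ, Odd k ∧ θ u ^ k = 1)
    (u : (ZMod b)ˣ) : ∃ k : ℕ, Odd k ∧ sndChar hab θ u ^ k = 1 := by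
  obtain ⟨k, hk, hk'⟩ := hodd (unitsInr hab u)
  exact ⟨k, hk, by rw [sndChar_apply, hk']⟩

theorem fstChar_sq_ne_one (hodd : ∀ u : (ZMod (a * b))ˣ, ∃ k : ℕ, Odd k ∧ θ u ^ k = 1)
    (h : fstChar hab θ ≠ 1) : fstChar hab θ ^ 2 ≠ 1 := by
  intro h2
  refine h (MonoidHom.ext fun u => Units.ext ?_)
  obtain ⟨k, ⟨j, rfl⟩, hk⟩ := hodd (unitsInl hab u)
  rw [← fstChar_apply] at hk
  have h2' : (fstChar hab θ u : A) ^ 2 = 1 := by
    rw [← Units.val_pow_eq_pow_val, ← MonoidHom.pow_apply, h2, MonoidHom.one_apply, Units.val_one]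
  rw [pow_succ, pow_mul, h2', one_pow, one_mul] at hk
  rw [hk, MonoidHom.one_apply, Units.val_one]

section Nontrivial

theorem cast_eq_one_iff {q : ℕ} {n : ℕ} (hq : q ∣ n) (x : ZMod n) :
    (ZMod.cast x : ZMod q) = ZMod.castHom hq (ZMod q) x := (ZMod.castHom_apply x).symm

variable [Fact a.Prime]

theorem nontrivialAt_fst_iff (hb : Squarefree b) :
    NontrivialAt θ a ↔ fstChar hab θ ≠ 1 := by
  have ha := (Fact.out : a.Prime)
  constructor
  · rintro ⟨-, u, hu, hne⟩ h
    refine hne ?_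
    have hub : ZMod.unitsMap (dvd_mul_left b a) u = 1 := by
      refine Units.ext ?_
      show ZMod.castHom (dvd_mul_left b a) (ZMod b) (u : ZMod (a * b)) = 1
      obtain ⟨x, hx⟩ := ZMod.intCast_surjective (u : ZMod (a * b))
      rw [← hx, map_intCast, ← Int.cast_one, ZMod.intCast_eq_intCast_iff_dvd_sub]
      rw [Int.natCast_dvd]
      rw [← Nat.prod_primeFactors_of_squarefree hb]
      refine Finset.prod_primes_dvd _ (fun r hr => (Nat.prime_of_mem_primeFactors hr).prime) ?_
      intro r hr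
      have hr' := Nat.prime_of_mem_primeFactors hr
      have hrb := Nat.dvd_of_mem_primeFactors hr
      have hra : r ≠ a := fun e => (ha.coprime_iff_not_dvd.1 hab) (e ▸ hrb)
      have := hu r hr' (hrb.trans (dvd_mul_left b a)) hra
      rw [cast_eq_one_iff (hrb.trans (dvd_mul_left b a)), ← hx, map_intCast, ← Int.cast_one,
        ZMod.intCast_eq_intCast_iff_dvd_sub] at this
      exact Int.natCast_dvd.1 this
    rw [split_apply_unit hab θ u, h, hub, Units.val_one, MonoidHom.one_apply, map_one, one_mul,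
      Units.val_one]
  · intro h
    obtain ⟨t, ht⟩ : ∃ t, fstChar hab θ t ≠ 1 := by
      by_contra hc; push Not at hc; exact h (MonoidHom.ext hc)
    refine ⟨dvd_mul_right a b, unitsInl hab t, fun r hr hrN hra => ?_, fun hc => ht (Units.ext ?_)⟩
    · have hrb : r ∣ b := (hr.dvd_mul.1 hrN).resolve_left
        fun hd => hra ((Nat.prime_dvd_prime_iff_eq hr ha).1 hd)
      rw [cast_eq_one_iff hrN, ← ZMod.castHom_comp hrb (dvd_mul_left b a), RingHom.comp_apply,
        cast_inl_right, map_one]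
    · rw [fstChar_apply, hc, Units.val_one]

theorem nontrivialAt_snd_iff {q : ℕ} (hq : q.Prime) (hqa : q ≠ a) :
    NontrivialAt (sndChar hab θ) q ↔ NontrivialAt θ q := by
  have ha := (Fact.out : a.Prime)
  constructor
  · rintro ⟨hqb, u, hu, hne⟩
    refine ⟨dvd_mul_of_dvd_right hqb a, unitsInr hab u, fun r hr hrN hrq => ?_,
      by rwa [← sndChar_apply]⟩
    rcases hr.dvd_mul.1 hrN with hd | hd
    · obtain rfl := (Nat.prime_dvd_prime_iff_eq hr ha).1 hd
      rw [cast_eq_one_iff hrN, cast_inr_left]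
    · rw [cast_eq_one_iff hrN, ← ZMod.castHom_comp hd (dvd_mul_left b a), RingHom.comp_apply,
        cast_inr_right, ← cast_eq_one_iff hd]
      exact hu r hr hd hrq
  · rintro ⟨hqN, u, hu, hne⟩
    have hqb : q ∣ b := (hq.dvd_mul.1 hqN).resolve_left
      fun hd => hqa ((Nat.prime_dvd_prime_iff_eq hq ha).1 hd)
    refine ⟨hqb, ZMod.unitsMap (dvd_mul_left b a) u, fun r hr hrb hrq => ?_, fun hc => hne ?_⟩
    · rw [cast_eq_one_iff hrb]
      show ZMod.castHom hrb (ZMod r) (ZMod.castHom (dvd_mul_left b a) (ZMod b) (u : ZMod (a * b))) = 1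
      rw [← RingHom.comp_apply, ZMod.castHom_comp hrb (dvd_mul_left b a), ← cast_eq_one_iff]
      exact hu r hr (hrb.trans (dvd_mul_left b a)) hrq
    · have hua : ZMod.unitsMap (dvd_mul_right a b) u = 1 := Units.ext (by
        show ZMod.castHom (dvd_mul_right a b) (ZMod a) (u : ZMod (a * b)) = 1
        rw [← cast_eq_one_iff]
        exact hu a ha (dvd_mul_right a b) (Ne.symm hqa))
      rw [split_apply_unit hab θ u, hua, map_one, Units.val_one, mul_one, hc]

end Nontrivial

end Fermat.Agent.RT.Systems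

end
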