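import Fermat.Agent.RT.Systems.TrivialChar
import Fermat.Agent.RT.Systems.SplitChar

/-!
# Untwisting: from the twisted module of level `L` to homomorphisms at a level `R`

`R` is `L` times the primes in the conductor of the twist. The map is equivariant, injective up to
torsion, and its image at a chosen prime of the conductor is killed by the transfer and by `U_q`.
-/

set_option autoImplicit false

noncomputable section

namespace Fermat.Agent.RT.Systems

open scoped MatrixGroups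
open Fermat.Agent.Periods Fermat.Agent.RT.TW CongruenceSubgroup Assembly

variable {A : Type} [CommRing A]

/-- The translates of `φ` by the powers of `U_q` are killed by a transfer to level `R / q`. -/
def IsKilledAt (q : ℕ) {R : ℕ} (φ : Additive (Gamma0 R) →+ A) : Prop :=
  ∃ (D : ℕ) (hq : q.Prime) (ι : Type) (_ : Fintype ι) (_ : Nonempty ι)
    (χ₁ : Gamma0 R →* Aˣ) (χ₂ : Gamma0 D →* Aˣ) (E : MixedFamily χ₁ χ₂ ι) (r : ι → SL(2, ℤ)),
    R = q * D ∧ (∀ i, E.mat i = (r i).1) ∧ (∀ i, r i ∈ Gamma0 D) ∧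
      ∀ (n : ℕ) (γ : Gamma0 D), ∑ i,
        ((heckeHom A A hq ^ n : Module.End A (Additive (Gamma0 R) →+ A)) φ)
          (Additive.ofMul (E.elt γ i)) = 0

section Families

variable {Γ₁ Γ₂ Γ₃ : Subgroup SL(2, ℤ)} {χ₁ χ₁' : Γ₁ →* Aˣ} {χ₂ χ₂' : Γ₂ →* Aˣ}
  {χ₃ χ₃' : Γ₃ →* Aˣ} {ι κ : Type*} [Fintype ι] [Fintype κ]

theorem sum_elt_eq_zero (D : MixedFamily χ₁ χ₂ ι) (hw : ∀ i, D.wt i = 1) (hχ : ∀ γ, χ₂ γ = 1)
    (c : twistedCocycles χ₁) (h : D.opH1 (toH1 χ₁ c) = 0) (γ : Γ₂) :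
    ∑ i, (c : Γ₁ → A) (D.elt γ i) = 0 := by
  rw [MixedFamily.opH1_toH1, toH1, Submodule.mkQ_apply, Submodule.Quotient.mk_eq_zero] at h
  obtain ⟨x, hx⟩ := h
  have e := congrArg (fun d : twistedCocycles χ₂ => (d : Γ₂ → A) γ) hx
  simp only [coboundary_apply, hχ, Units.val_one, sub_self, zero_mul, MixedFamily.op_apply, hw,
    one_mul] at e
  exact e.symm

theorem castChar_comp_eq_zero (D : MixedFamily χ₁ χ₂ ι) (E : MixedFamily χ₂ χ₃ κ)
    (h : E.opH1 ∘ₗ D.opH1 = 0) (h₁ : χ₁ = χ₁') (h₂ : χ₂ = χ₂') (h₃ : χ₃ = χ₃') :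
    (E.castChar h₂ h₃).opH1 ∘ₗ (D.castChar h₁ h₂).opH1 = 0 := by
  subst h₁ h₂ h₃
  exact h

theorem twistedH1Congr_opH1 [DecidableEq ι] (D : MixedFamily χ₁ χ₂ ι) (D' : MixedFamily χ₁' χ₂' ι)
    (h₁ : χ₁ = χ₁') (h₂ : χ₂ = χ₂') (hsep : IsSepFamily Γ₁ D'.mat) (hmat : D.mat = D'.mat)
    (hwt : D.wt = D'.wt) (y : twistedH1 χ₁) :
    twistedH1Congr h₂ (D.opH1 y) = D'.opH1 (twistedH1Congr h₁ y) := by
  subst h₁ h₂
  refine LinearMap.congr_fun (MixedFamily.opH1_eq_of_collapse D D' hsep id (fun _ => 1)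
    (fun i => by rw [gammaMat_one, Matrix.one_mul, hmat]; rfl) fun k => ?_) y
  rw [show Finset.univ.filter (fun i => id i = k) = {k} from by ext; simp, Finset.sum_singleton,
    map_one, Units.val_one, mul_one, hwt]

end Families

/-- The push forward commutes with a change of modulus. -/
theorem push_changeModulus {N N' q X : ℕ} [Fact q.Prime] {Φ : MulChar (ZMod N) A}
    {Φ' : MulChar (ZMod N') A} (h : N ∣ X) (h' : N' ∣ X) (hX : ¬ q ∣ X)
    (hΦ : ∀ a : ℤ, IsUnit (a : ZMod N') → Φ' a = Φ a)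
    (y : heckeH1 Φ' (q * X) (h'.trans (dvd_mul_left X q))) :
    changeModulus h h' hΦ (push Φ' h' hX y) =
      push Φ h hX (changeModulus (h.trans (dvd_mul_left X q)) (h'.trans (dvd_mul_left X q)) hΦ y) :=
  twistedH1Congr_opH1 (pushFamily Φ' h' hX (K := 1) (Fact.out : q.Prime).not_dvd_one)
    (pushFamily Φ h hX (K := 1) (Fact.out : q.Prime).not_dvd_one)
    (char_changeModulus (h.trans (dvd_mul_left X q)) (h'.trans (dvd_mul_left X q)) hΦ)
    (char_changeModulus h h' hΦ)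
    (isSepFamily_pushRep hX (Fact.out : q.Prime).not_dvd_one) rfl rfl y

/-- An equivariant map to homomorphisms of level `R`, injective up to torsion. -/
structure IsUntwist {N L R : ℕ} (θ : MulChar (ZMod N) A) (h : N ∣ L)
    (J : heckeH1 (neben θ) L h →ₗ[A] (Additive (Gamma0 R) →+ A)) : Prop where
  dvd : L ∣ R
  dvd_mul : R ∣ L * N
  factorization_of_nontrivialAt : ∀ q : ℕ, q.Prime → NontrivialAt θ q →
    R.factorization q = L.factorization q + 1
  factorization_of_not : ∀ q : ℕ, q.Prime → ¬ NontrivialAt θ q →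
    R.factorization q = L.factorization q
  comm : ∀ ℓ : Nat.Primes, ¬ (ℓ : ℕ) ∣ N → ∀ y, J (twOp θ h ℓ y) = heckeHom A A ℓ.2 (J y)
  ker : ∃ a : A, a ≠ 0 ∧ ∀ y, J y = 0 → a • y = 0
  killed_of_push : ∀ (q X : ℕ) [Fact q.Prime] (e : L = q * X) (hX : ¬ q ∣ X) (hN : N ∣ X)
    (y : heckeH1 (neben θ) L h),
    (∀ n : ℕ, push (neben θ) hN hX (levelCast (neben θ) e h (hN.trans (dvd_mul_left X q))
      ((twOp θ h ⟨q, Fact.out⟩ ^ n) y)) = 0) → IsKilledAt q (J y)

theorem pow_comm_apply {M M' : Type*} [AddCommGroup M] [Module A M] [AddCommGroup M'] [Module A M']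
    (f : M →ₗ[A] M') (S : Module.End A M) (T : Module.End A M') (h : ∀ y, f (S y) = T (f y))
    (n : ℕ) (y : M) : f ((S ^ n) y) = (T ^ n) (f y) := by
  induction n with
  | zero => rfl
  | succ n ih => rw [pow_succ', pow_succ', Module.End.mul_apply, Module.End.mul_apply, h, ih]

theorem MulChar.apply_of_modulus_one (θ : MulChar (ZMod 1) A) (x : ZMod 1) : θ x = 1 := by
  rw [Subsingleton.elim x 1, map_one]

section Base

variable {R : ℕ} (θ : MulChar (ZMod 1) A) (h : 1 ∣ R)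

theorem neben_eq_triv (a : ℤ) (_ : IsUnit (a : ZMod 1)) : neben θ a = trivChar A a :=
  (MulChar.apply_of_modulus_one _ _).trans (MulChar.apply_of_modulus_one _ _).symm

/-- The homomorphism of a class without twist. -/
def toHom : heckeH1 (neben θ) R h →ₗ[A] (Additive (Gamma0 R) →+ A) :=
  homOfClass ∘ₗ (changeModulus (one_dvd R) h (neben_eq_triv θ)).toLinearMap

theorem toHom_comm (ℓ : Nat.Primes) (y : heckeH1 (neben θ) R h) :
    toHom θ h (twOp θ h ℓ y) = heckeHom A A ℓ.2 (toHom θ h y) := by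
  rw [twOp, MulChar.apply_of_modulus_one, Ring.inverse_one, one_smul]
  show homOfClass (A := A) (R := R) (changeModulus (one_dvd R) h (neben_eq_triv θ) (heckeOp (neben θ) h ℓ y)) = _
  rw [changeModulus_heckeOp, homOfClass_heckeOp]
  rfl

theorem toHom_injective : Function.Injective (toHom θ h) :=
  (homOfClass_injective (A := A) (R := R)).comp
    (changeModulus (one_dvd R) h (neben_eq_triv θ)).injective

theorem isUntwist_toHom [NeZero R] [Nontrivial A] : IsUntwist θ h (toHom θ h) where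
  dvd := dvd_rfl
  dvd_mul := dvd_mul_right R 1
  factorization_of_nontrivialAt q hq hnt := absurd (Nat.dvd_one.1 hnt.1) hq.ne_one
  factorization_of_not _ _ _ := rfl
  comm ℓ _ y := toHom_comm θ h ℓ y
  ker := ⟨1, one_ne_zero, fun y hy => by
    rw [one_smul]
    exact toHom_injective θ h (hy.trans (map_zero _).symm)⟩
  killed_of_push q X _ e hX hN y hy := by
    subst e
    refine ⟨X, Fact.out, Option (ZMod q), inferInstance, inferInstance, _, _,
      trivPushFamily (A := A) hX, fun i => pushRep (X * 1) i, rfl, fun _ => rfl,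
      fun i => gamma0_of_gamma (dvd_mul_right X 1) (pushRep_mem _ i), fun n γ => ?_⟩
    rw [← pow_comm_apply (toHom θ h) (twOp θ h ⟨q, Fact.out⟩) (heckeHom A A (Fact.out : q.Prime))
      (toHom_comm θ h _) n y]
    show ∑ i, homOfClass (A := A) (R := q * X) (changeModulus (one_dvd (q * X)) h (neben_eq_triv θ)
      ((twOp θ h ⟨q, Fact.out⟩ ^ n) y)) (Additive.ofMul ((trivPushFamily (A := A) hX).elt γ i)) = 0
    rw [← homOfClass_push hX, ← push_changeModulus (one_dvd X) hN hX (neben_eq_triv θ)]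
    have := hy n
    rw [levelCast_rfl] at this
    rw [this, map_zero, map_zero]
    rfl

end Base

/-- Composition with an equivariant map. -/
theorem IsUntwist.precomp [IsDomain A] {N N' L L' R : ℕ} {θ : MulChar (ZMod N) A}
    {θ' : MulChar (ZMod N') A} {h : N ∣ L} {h' : N' ∣ L'}
    {J : heckeH1 (neben θ') L' h' →ₗ[A] (Additive (Gamma0 R) →+ A)} (hJ : IsUntwist θ' h' J)
    (f : heckeH1 (neben θ) L h →ₗ[A] heckeH1 (neben θ') L' h') (hN' : N' ∣ N)
    (hcomm : ∀ ℓ : Nat.Primes, ¬ (ℓ : ℕ) ∣ N → ∀ y, f (twOp θ h ℓ y) = twOp θ' h' ℓ (f y))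
    {a : A} (ha : a ≠ 0) (hker : ∀ y, f y = 0 → a • y = 0)
    (hpush : ∀ (q X : ℕ) [Fact q.Prime] (e : L = q * X) (hX : ¬ q ∣ X) (hN : N ∣ X),
      ∃ (X' : ℕ) (e' : L' = q * X') (hX' : ¬ q ∣ X') (hN'X : N' ∣ X'), ∀ z,
        push (neben θ) hN hX (levelCast (neben θ) e h (hN.trans (dvd_mul_left X q)) z) = 0 →
          push (neben θ') hN'X hX'
            (levelCast (neben θ') e' h' (hN'X.trans (dvd_mul_left X' q)) (f z)) = 0)
    (hLR : L ∣ R) (hRL : R ∣ L * N)
    (hf₁ : ∀ q : ℕ, q.Prime → NontrivialAt θ q → R.factorization q = L.factorization q + 1)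
    (hf₂ : ∀ q : ℕ, q.Prime → ¬ NontrivialAt θ q → R.factorization q = L.factorization q) :
    IsUntwist θ h (J ∘ₗ f) where
  dvd := hLR
  dvd_mul := hRL
  factorization_of_nontrivialAt := hf₁
  factorization_of_not := hf₂
  comm ℓ hℓ y := by
    rw [LinearMap.comp_apply, LinearMap.comp_apply, hcomm ℓ hℓ,
      hJ.comm ℓ fun hd => hℓ (hd.trans hN')]
  ker := by
    obtain ⟨b, hb, hb'⟩ := hJ.ker
    refine ⟨a * b, mul_ne_zero ha hb, fun y hy => ?_⟩
    rw [← smul_smul]
    exact hker _ (by rw [map_smul]; exact hb' _ hy)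
  killed_of_push q X _ e hX hN y hy := by
    obtain ⟨X', e', hX', hN'X, hz⟩ := hpush q X e hX hN
    refine hJ.killed_of_push q X' e' hX' hN'X (f y) fun n => ?_
    have hqN : ¬ q ∣ N := fun hd => hX (hd.trans hN)
    rw [← pow_comm_apply f (twOp θ h ⟨q, Fact.out⟩) (twOp θ' h' ⟨q, Fact.out⟩) (hcomm _ hqN) n y]
    exact hz _ (hy n)

section Step

variable {r N' M : ℕ} [Fact r.Prime] (hrN' : r.Coprime N') (θ : MulChar (ZMod (r * N')) A)

theorem neben_split (a : ℤ) (ha : IsUnit (a : ZMod (r * N'))) (h : fstChar hrN' θ = 1) :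
    neben θ a = neben (sndChar hrN' θ) a := by
  obtain ⟨u, hu⟩ := ha
  have hb : IsUnit (a : ZMod N') := by
    have := (u.isUnit).map (ZMod.castHom (dvd_mul_left N' r) (ZMod N'))
    rwa [hu, map_intCast] at this
  have hr : (ZMod.unitsMap (dvd_mul_right r N') u : ZMod r) = a := by
    show ZMod.castHom (dvd_mul_right r N') (ZMod r) (u : ZMod (r * N')) = a
    rw [hu, map_intCast]
  simp only [MulChar.pow_apply' _ two_ne_zero]
  rw [split_apply hrN' θ a _ hr hb, h, MonoidHom.one_apply, Units.val_one, mul_one]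

theorem isTwistRelation_split {K : ℕ} (hK : N' ∣ K) :
    IsTwistRelation (M := K) (fstChar hrN' θ) (neben θ) (neben (sndChar hrN' θ)) := by
  intro x u hu hx
  have hb : IsUnit (x : ZMod N') := by
    have := hx.map (ZMod.castHom hK (ZMod N'))
    rwa [map_intCast] at this
  simp only [MulChar.pow_apply' _ two_ne_zero]
  rw [split_apply hrN' θ x u hu hb, mul_pow]

theorem split_apply_prime (ℓ : Nat.Primes) (hℓ : ¬ (ℓ : ℕ) ∣ r * N') :
    ∃ u : (ZMod r)ˣ, (u : ZMod r) = ((ℓ : ℕ) : ZMod r) ∧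
      θ ((ℓ : ℕ) : ZMod (r * N')) =
        sndChar hrN' θ ((ℓ : ℕ) : ZMod N') * fstChar hrN' θ u ∧
      IsUnit (sndChar hrN' θ ((ℓ : ℕ) : ZMod N')) := by
  have h1 : ¬ (ℓ : ℕ) ∣ r := fun hd => hℓ (hd.mul_right N')
  have h2 : IsUnit ((ℓ : ℕ) : ZMod N') :=
    (ZMod.unitOfCoprime (ℓ : ℕ) (ℓ.2.coprime_iff_not_dvd.2 fun hd => hℓ (hd.mul_left r))).isUnit
  refine ⟨ZMod.unitOfCoprime (ℓ : ℕ) (ℓ.2.coprime_iff_not_dvd.2 h1), ZMod.coe_unitOfCoprime _ _,
    ?_, h2.map _⟩
  have := split_apply hrN' θ ((ℓ : ℕ) : ℤ) (ZMod.unitOfCoprime (ℓ : ℕ) (ℓ.2.coprime_iff_not_dvd.2 h1))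
    (by simp) (by simpa using h2)
  simpa using this

theorem inverse_smul_twist {V W : Type*} [AddCommGroup V] [Module A V] [AddCommGroup W] [Module A W]
    (f : V →ₗ[A] W) {c c' : A} (u : Aˣ) (hc : c = c' * u) (hc' : IsUnit c') (x : V) (w : W)
    (h : f x = (u : A) • w) : f (Ring.inverse c • x) = Ring.inverse c' • w := by
  obtain ⟨v, rfl⟩ := hc'
  rw [hc, ← Units.val_mul, Ring.inverse_unit, Ring.inverse_unit, map_smul, h, smul_smul, mul_inv_rev,
    Units.val_mul, mul_comm ((u⁻¹ : Aˣ) : A), mul_assoc, u.inv_mul, mul_one]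

variable {L : ℕ} (h : r * N' ∣ L) (h' : N' ∣ L)

/-- The step at a prime where the twist is trivial. -/
def stepTriv (hfst : fstChar hrN' θ = 1) :
    heckeH1 (neben θ) L h →ₗ[A] heckeH1 (neben (sndChar hrN' θ)) L h' :=
  (changeModulus h' h fun a ha => neben_split hrN' θ a ha hfst).toLinearMap

theorem stepTriv_comm (hfst : fstChar hrN' θ = 1) (ℓ : Nat.Primes) (hℓ : ¬ (ℓ : ℕ) ∣ r * N')
    (y : heckeH1 (neben θ) L h) :
    stepTriv hrN' θ h h' hfst (twOp θ h ℓ y) =
      twOp (sndChar hrN' θ) h' ℓ (stepTriv hrN' θ h h' hfst y) := by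
  obtain ⟨u, -, hu, hunit⟩ := split_apply_prime hrN' θ ℓ hℓ
  rw [hfst, MonoidHom.one_apply] at hu
  refine inverse_smul_twist (stepTriv hrN' θ h h' hfst) 1 hu hunit _ _ ?_
  rw [Units.val_one, one_smul]
  exact changeModulus_heckeOp _ _ _ ℓ y

variable [NeZero M] (hM : N' ∣ M) (hrM : r * N' ∣ r * M)

/-- The step at a prime of the conductor. -/
def stepIota : heckeH1 (neben θ) (r * M) hrM →ₗ[A]
    heckeH1 (neben (sndChar hrN' θ)) (r ^ 2 * M) (hM.trans (dvd_level_two r M)) :=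
  iota0 hrM hM (isTwistRelation_split hrN' θ hM)

theorem stepIota_comm (ℓ : Nat.Primes) (hℓ : ¬ (ℓ : ℕ) ∣ r * N') (y : heckeH1 (neben θ) (r * M) hrM) :
    stepIota hrN' θ hM hrM (twOp θ hrM ℓ y) =
      twOp (sndChar hrN' θ) (hM.trans (dvd_level_two r M)) ℓ (stepIota hrN' θ hM hrM y) := by
  obtain ⟨u, hu', hu, hunit⟩ := split_apply_prime hrN' θ ℓ hℓ
  refine inverse_smul_twist (stepIota hrN' θ hM hrM) (fstChar hrN' θ u) hu hunit _ _ ?_
  exact LinearMap.congr_fun (iota0_comm_hecke hrM hM (isTwistRelation_split hrN' θ hM) ℓ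
    (fun e => hℓ (e ▸ dvd_mul_right r N')) u hu') y

theorem stepIota_eq_zero [IsDomain A] (hrM' : ¬ r ∣ M) (hθ : fstChar hrN' θ ^ 2 ≠ 1)
    {y : heckeH1 (neben θ) (r * M) hrM} (hy : stepIota hrN' θ hM hrM y = 0) :
    ((r * (r - 1) : ℕ) : A) • y = 0 := by
  have key : ∀ {χ₁ : Gamma0 (r * M) →* Aˣ} {χ₂ : Gamma0 (r ^ 2 * M) →* Aˣ}
      (h₁ : srcChar (liftUnitChar (neben (sndChar hrN' θ)) hM) (fstChar hrN' θ)
        (dvd_level_one r M) (prime_dvd_level_one r M) = χ₁)
      (h₂ : tgtChar (liftUnitChar (neben (sndChar hrN' θ)) hM) (dvd_level_two r M) = χ₂)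
      (z : twistedH1 χ₁),
      ((iotaFamily M (liftUnitChar (neben (sndChar hrN' θ)) hM) (fstChar hrN' θ) unitRep
        unitRep_cast).castChar h₁ h₂).opH1 z = 0 → ((r * (r - 1) : ℕ) : A) • z = 0 := by
    intro χ₁ χ₂ h₁ h₂
    subst h₁ h₂
    exact fun z hz => iota_eq_zero _ _ hrM' hθ hz
  exact key _ _ y hy

omit hrN' θ hM hrM in
theorem stepIota_killed [IsDomain A] {hrN' : r.Coprime 1} {θ : MulChar (ZMod (r * 1)) A}
    {hM : 1 ∣ M} {hrM : r * 1 ∣ r * M} (hrM' : ¬ r ∣ M) (hfst : fstChar hrN' θ ≠ 1)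
    (y : heckeH1 (neben θ) (r * M) hrM) :
    IsKilledAt r (toHom (sndChar hrN' θ) (hM.trans (dvd_level_two r M))
      (stepIota hrN' θ hM hrM y)) := by
  set h1 : 1 ∣ r ^ 2 * M := hM.trans (dvd_level_two r M)
  have hr := (Fact.out : r.Prime)
  have : NeZero r := ⟨hr.ne_zero⟩
  set ε := liftUnitChar (neben (sndChar hrN' θ)) hM with hε
  set D := iotaFamily M ε (fstChar hrN' θ) unitRep unitRep_cast
  set h₁ := (level0_char_src hrM hM (isTwistRelation_split hrN' θ hM)).symm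
  set h₂ := (level0_char_tgt (Ψ := neben (sndChar hrN' θ)) (q := r) hM).symm
  obtain ⟨c, hc⟩ := Submodule.mkQ_surjective _ (stepIota hrN' θ hM hrM y)
  set φ := toHom (sndChar hrN' θ) h1 (stepIota hrN' θ hM hrM y)
  have hφ : ∀ g, φ (Additive.ofMul g) = c.1 g := fun g => by
    show homOfClass (A := A) (R := r ^ 2 * M) (changeModulus (one_dvd _) h1 (neben_eq_triv (sndChar hrN' θ)) (stepIota hrN' θ hM hrM y))
      (Additive.ofMul g) = _
    rw [← hc]
    show homOfClass (A := A) (R := r ^ 2 * M) (twistedH1Congr (char_changeModulus (Φ := trivChar A) (Φ' := neben (sndChar hrN' θ))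
      (one_dvd _) h1 (neben_eq_triv (sndChar hrN' θ)))
      (toH1 (level0 (neben (sndChar hrN' θ)) (r ^ 2 * M) h1).char c)) (Additive.ofMul g) = _
    erw [twistedH1Congr_toH1, homOfClass_toH1]
    -- done
  have hχ : ∀ γ : Gamma0 (r * M), tgtChar ε (dvd_level_one r M) γ = 1 := fun γ => Units.ext (by
    show ((neben (sndChar hrN' θ)).toUnitHom (ZMod.unitsMap hM _) : A) = _
    rw [MulChar.coe_toUnitHom, MulChar.apply_of_modulus_one, Units.val_one])
  have hcores : ∀ γ : Gamma0 (r * M), ∑ i, c.1 (((coresFamily M ε).castChar h₂ rfl).elt γ i) = 0 :=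
    fun γ => sum_elt_eq_zero ((coresFamily M ε).castChar h₂ rfl) (fun _ => rfl) hχ c (by
      erw [hc]
      exact LinearMap.congr_fun (castChar_comp_eq_zero D (coresFamily M ε)
        (coresFamily_comp_iota ε (fstChar hrN' θ) hfst) h₁ h₂ rfl) y) γ
  have htrace : ∀ γ : Gamma0 (r * M), ∑ i, c.1 (((traceFamily M ε).castChar h₂ rfl).elt γ i) = 0 :=
    fun γ => sum_elt_eq_zero ((traceFamily M ε).castChar h₂ rfl) (fun _ => rfl) hχ c (by
      erw [hc]
      exact LinearMap.congr_fun (castChar_comp_eq_zero D (traceFamily M ε)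
        (traceFamily_comp_iota ε (fstChar hrN' θ) hrM' hfst) h₁ h₂ rfl) y) γ
  have hU : heckeHom A A hr φ = 0 := by
    refine AddMonoidHom.ext fun x => ?_
    obtain ⟨γ, rfl⟩ := Additive.ofMul.surjective x
    have hle : (γ : SL(2, ℤ)) ∈ Gamma0 (r * M) := mem_gamma0_iff_dvd.2
      ((Int.natCast_dvd_natCast.2 ⟨r, by ring⟩).trans (gamma0_dvd γ))
    set T := (traceFamily M ε).castChar h₂ rfl
    have hrR : r ∣ r ^ 2 * M := dvd_mul_of_dvd_left (dvd_pow_self r two_ne_zero) M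
    let e : ZMod r ≃ HeckeIdx (r ^ 2 * M) r :=
      { toFun := fun b => ⟨some ⟨b.val, ZMod.val_lt b⟩, fun hh => by simp at hh⟩
        invFun := fun i => i.1.elim 0 fun j => ((j : ℕ) : ZMod r)
        left_inv := fun b => by simp
        right_inv := fun i => by
          obtain ⟨_ | j, hi⟩ := i
          · exact absurd hrR (hi rfl)
          · refine Subtype.ext (congrArg some (Fin.ext ?_))
            simp [ZMod.val_cast_of_lt j.2] }
    rw [heckeHom_apply_of_eq hr φ γ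
      (σ := e.symm.trans ((T.perm ⟨γ, hle⟩).trans e))
      (g := fun i => T.elt ⟨γ, hle⟩ (e.symm i)) fun i => ?_]
    · rw [← Equiv.sum_comp e]
      simp only [Equiv.symm_apply_apply, hφ]
      exact htrace _
    · have := T.step ⟨γ, hle⟩ (e.symm i)
      simp only [Equiv.trans_apply]
      conv_lhs => rw [← e.apply_symm_apply i]
      exact this
  refine ⟨r * M, hr, ZMod r, inferInstance, inferInstance, _, _,
    (coresFamily M ε).castChar h₂ rfl,
    fun k => ⟨coresMat r M k, by simp [coresMat, Matrix.det_fin_two_of]⟩,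
    by ring, fun k => rfl, fun k => mem_gamma0_iff_dvd.2 ?_, fun n γ => ?_⟩
  · show ((r * M : ℕ) : ℤ) ∣ (k.val : ℤ) * ((r : ℤ) * M)
    push_cast
    exact dvd_mul_left _ _
  · rcases n with _ | n
    · simp only [pow_zero, Module.End.one_apply, hφ]
      exact hcores γ
    · rw [pow_succ (heckeHom A A hr) n, Module.End.mul_apply]
      erw [hU]
      simp

end Step

section Main

variable [IsDomain A]

theorem isUntwist_stepTriv {r N' L R : ℕ} [Fact r.Prime] (hrN' : r.Coprime N')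
    (θ : MulChar (ZMod (r * N')) A) (h : r * N' ∣ L) (h' : N' ∣ L) (hb : Squarefree N')
    (hfst : fstChar hrN' θ = 1)
    {J : heckeH1 (neben (sndChar hrN' θ)) L h' →ₗ[A] (Additive (Gamma0 R) →+ A)}
    (hJ : IsUntwist (sndChar hrN' θ) h' J) :
    IsUntwist θ h (J ∘ₗ stepTriv hrN' θ h h' hfst) := by
  have hiff : ∀ q : ℕ, q.Prime → (NontrivialAt θ q ↔ NontrivialAt (sndChar hrN' θ) q) := by
    intro q hq
    by_cases hqr : q = r
    · subst hqr
      refine iff_of_false (fun hn => (nontrivialAt_fst_iff hrN' θ hb).1 hn hfst) fun hn => ?_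
      exact (hq.coprime_iff_not_dvd.1 hrN') hn.1
    · exact (nontrivialAt_snd_iff hrN' θ hq hqr).symm
  refine hJ.precomp (stepTriv hrN' θ h h' hfst) (dvd_mul_left N' r)
    (stepTriv_comm hrN' θ h h' hfst) one_ne_zero (fun y hy => ?_) ?_ hJ.dvd
    (hJ.dvd_mul.trans (mul_dvd_mul_left L (dvd_mul_left N' r)))
    (fun q hq hn => hJ.factorization_of_nontrivialAt q hq ((hiff q hq).1 hn))
    (fun q hq hn => hJ.factorization_of_not q hq fun hn' => hn ((hiff q hq).2 hn'))
  · rw [one_smul]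
    exact (changeModulus h' h fun a ha => neben_split hrN' θ a ha hfst).map_eq_zero_iff.1 hy
  · intro q X _ e hX hN
    refine ⟨X, e, hX, (dvd_mul_left N' r).trans hN, fun z hz => ?_⟩
    subst e
    rw [levelCast_rfl] at hz ⊢
    refine (push_changeModulus ((dvd_mul_left N' r).trans hN) hN hX
      (fun a ha => neben_split hrN' θ a ha hfst) z).symm.trans ?_
    rw [hz, map_zero]

theorem isUntwist_stepIota [CharZero A] {r N' M R : ℕ} [Fact r.Prime] [NeZero M]
    (hrN' : r.Coprime N') (θ : MulChar (ZMod (r * N')) A) (hM : N' ∣ M) (hrM : r * N' ∣ r * M)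
    (hrM' : ¬ r ∣ M) (hb : Squarefree N')
    (hodd : ∀ u : (ZMod (r * N'))ˣ, ∃ k : ℕ, Odd k ∧ θ u ^ k = 1) (hfst : fstChar hrN' θ ≠ 1)
    {J : heckeH1 (neben (sndChar hrN' θ)) (r ^ 2 * M) (hM.trans (dvd_level_two r M)) →ₗ[A]
      (Additive (Gamma0 R) →+ A)}
    (hJ : IsUntwist (sndChar hrN' θ) (hM.trans (dvd_level_two r M)) J) :
    IsUntwist θ hrM (J ∘ₗ stepIota hrN' θ hM hrM) := by
  have hr := (Fact.out : r.Prime)
  have hfac : ∀ q : ℕ, q ≠ r → (r ^ 2 * M).factorization q = (r * M).factorization q := fun q hq => by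
    rw [Nat.factorization_mul (pow_ne_zero 2 hr.ne_zero) (NeZero.ne M),
      Nat.factorization_mul hr.ne_zero (NeZero.ne M), Nat.factorization_pow, hr.factorization]
    simp [Ne.symm hq]
  have hfr : (r * M).factorization r = 1 ∧ (r ^ 2 * M).factorization r = 2 := by
    rw [Nat.factorization_mul (pow_ne_zero 2 hr.ne_zero) (NeZero.ne M),
      Nat.factorization_mul hr.ne_zero (NeZero.ne M), Nat.factorization_pow, hr.factorization]
    simp [Nat.factorization_eq_zero_of_not_dvd hrM']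
  have hr' : ¬ NontrivialAt (sndChar hrN' θ) r := fun hn => hr.coprime_iff_not_dvd.1 hrN' hn.1
  refine hJ.precomp (stepIota hrN' θ hM hrM) (dvd_mul_left N' r)
    (stepIota_comm hrN' θ hM hrM) (a := ((r * (r - 1) : ℕ) : A))
    (Nat.cast_ne_zero.2 (Nat.mul_ne_zero hr.ne_zero (by have := hr.two_le; omega)))
    (fun y hy => stepIota_eq_zero hrN' θ hM hrM hrM' (fstChar_sq_ne_one hrN' θ hodd hfst) hy) ?_
    ((mul_dvd_mul_right (dvd_pow_self r two_ne_zero) M).trans hJ.dvd)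
    (hJ.dvd_mul.trans (dvd_of_eq (by ring)))
    (fun q hq hn => ?_) (fun q hq hn => ?_)
  · intro q X hqf e hX hN
    have hq := hqf.out
    have hrX : r ∣ X := (dvd_mul_right r N').trans hN
    have hqr : q ≠ r := fun hh => hX (hh ▸ hrX)
    have hqr' : ¬ q ∣ r := fun hd => hqr ((Nat.prime_dvd_prime_iff_eq hq hr).1 hd)
    obtain ⟨M', rfl⟩ : q ∣ M := (hq.dvd_mul.1 (e ▸ dvd_mul_right q X)).resolve_left hqr'
    have hX' : X = r * M' :=
      Nat.eq_of_mul_eq_mul_left hq.pos (by rw [← e]; ring)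
    subst hX'
    have : NeZero M' := ⟨fun h0 => NeZero.ne (q * M') (by rw [h0, mul_zero])⟩
    have : NeZero q := ⟨hq.ne_zero⟩
    have hN' : N' ∣ M' := (Nat.dvd_of_mul_dvd_mul_left hr.pos hN)
    have hq2 : ¬ q ∣ r ^ 2 * M' := fun hd => (hq.dvd_mul.1 hd).elim
      (fun hh => hqr' (hq.dvd_of_dvd_pow hh)) fun hh => hX (dvd_mul_of_dvd_right hh r)
    refine ⟨r ^ 2 * M', by ring, hq2, hN'.trans (dvd_level_two r M'), fun z hz => ?_⟩
    refine (push_iota0 hN hN' hrM hM (isTwistRelation_split hrN' θ hN')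
      (isTwistRelation_split hrN' θ hM) hX hq2
      (ZMod.unitOfCoprime q ((Nat.coprime_primes hq hr).2 hqr)) (ZMod.coe_unitOfCoprime _ _)
      e (by ring) z).trans ?_
    rw [hz, map_zero, smul_zero]
  · by_cases hqr : q = r
    · subst hqr
      rw [hJ.factorization_of_not q hq hr', hfr.1, hfr.2]
    · rw [hJ.factorization_of_nontrivialAt q hq ((nontrivialAt_snd_iff hrN' θ hq hqr).2 hn),
        hfac q hqr]
  · have hqr : q ≠ r := fun hh => hn (hh ▸ (nontrivialAt_fst_iff hrN' θ hb).2 hfst)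
    rw [hJ.factorization_of_not q hq fun hn' => hn ((nontrivialAt_snd_iff hrN' θ hq hqr).1 hn'),
      hfac q hqr]

/-- Untwisting. At a chosen prime `q₀` of the conductor the image is killed. -/
theorem exists_isUntwist [CharZero A] (N : ℕ) : ∀ {L : ℕ} [NeZero L] (θ : MulChar (ZMod N) A)
    (h : N ∣ L), (∀ r : ℕ, r.Prime → r ∣ N → L.factorization r = 1) →
    (∀ u : (ZMod N)ˣ, ∃ k : ℕ, Odd k ∧ θ u ^ k = 1) → ∀ q₀ : ℕ,
    ∃ (R : ℕ) (_ : NeZero R) (J : heckeH1 (neben θ) L h →ₗ[A] (Additive (Gamma0 R) →+ A)),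
      IsUntwist θ h J ∧ (q₀.Prime → NontrivialAt θ q₀ → ∀ y, IsKilledAt q₀ (J y)) := by
  induction N using Nat.strong_induction_on with
  | _ N ih =>
    intro L _ θ h hexact hodd q₀
    by_cases hN1 : N = 1
    · subst hN1
      exact ⟨L, inferInstance, toHom θ h, isUntwist_toHom θ h,
        fun hq hn => absurd (Nat.dvd_one.1 hn.1) hq.ne_one⟩
    have hN0 : N ≠ 0 := fun h0 => NeZero.ne L (zero_dvd_iff.1 (h0 ▸ h))
    obtain ⟨r, hr, hrN, hrq⟩ : ∃ r, r.Prime ∧ r ∣ N ∧
        (r = q₀ → ∀ r', r'.Prime → r' ∣ N → r' = q₀) := by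
      by_cases hh : ∃ r', r'.Prime ∧ r' ∣ N ∧ r' ≠ q₀
      · obtain ⟨r', h1, h2, h3⟩ := hh
        exact ⟨r', h1, h2, fun e => absurd e h3⟩
      · push Not at hh
        exact ⟨N.minFac, Nat.minFac_prime hN1, N.minFac_dvd, fun _ => hh⟩
    obtain ⟨N', rfl⟩ := hrN
    have := Fact.mk hr
    have : NeZero r := ⟨hr.ne_zero⟩
    have hN'0 : N' ≠ 0 := fun h0 => hN0 (by rw [h0, mul_zero])
    have hsq : Squarefree (r * N') := by
      refine Nat.squarefree_iff_prime_squarefree.2 fun p hp hd => ?_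
      have h1 := hexact p hp ((dvd_mul_right p p).trans hd)
      have h2 : 2 ≤ L.factorization p :=
        (hp.pow_dvd_iff_le_factorization (NeZero.ne L)).1 (by rw [sq]; exact hd.trans h)
      omega
    have hrN' : r.Coprime N' := (Nat.squarefree_mul_iff.1 hsq).1
    have hb : Squarefree N' := (Nat.squarefree_mul_iff.1 hsq).2.2
    obtain ⟨M, rfl⟩ := (dvd_mul_right r N').trans h
    have : NeZero M := ⟨fun h0 => NeZero.ne (r * M) (by rw [h0, mul_zero])⟩
    have hrM' : ¬ r ∣ M := fun hd => by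
      have h1 := hexact r hr (dvd_mul_right r N')
      rw [Nat.factorization_mul hr.ne_zero (NeZero.ne M), hr.factorization] at h1
      simp only [Finsupp.add_apply, Finsupp.single_eq_same, add_eq_left] at h1
      exact (hr.factorization_pos_of_dvd (NeZero.ne M) hd).ne' h1
    have hM : N' ∣ M := Nat.dvd_of_mul_dvd_mul_left hr.pos h
    have hlt : N' < r * N' :=
      lt_mul_of_one_lt_left (Nat.pos_of_ne_zero hN'0) hr.one_lt
    have hoddN' := sndChar_pow_eq_one hrN' θ hodd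
    by_cases hfst : fstChar hrN' θ = 1
    · obtain ⟨R, hR, J, hJ, hk⟩ := ih N' hlt (sndChar hrN' θ) ((dvd_mul_left N' r).trans h)
        (fun r' h1 h2 => hexact r' h1 (dvd_mul_of_dvd_right h2 r)) hoddN' q₀
      refine ⟨R, hR, _, isUntwist_stepTriv hrN' θ h _ hb hfst hJ, fun hq hn y => ?_⟩
      have hqr : q₀ ≠ r := fun e => (nontrivialAt_fst_iff hrN' θ hb).1 (e ▸ hn) hfst
      exact hk hq ((nontrivialAt_snd_iff hrN' θ hq hqr).2 hn) _
    · have : NeZero (r ^ 2 * M) := ⟨Nat.mul_ne_zero (pow_ne_zero 2 hr.ne_zero) (NeZero.ne M)⟩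
      by_cases hN'1 : N' = 1
      · subst hN'1
        refine ⟨r ^ 2 * M, inferInstance, _, isUntwist_stepIota hrN' θ hM h hrM' hb hodd hfst
          (isUntwist_toHom _ _), fun hq hn y => ?_⟩
        obtain rfl : q₀ = r := (Nat.prime_dvd_prime_iff_eq hq hr).1 (mul_one r ▸ hn.1)
        exact stepIota_killed hrM' hfst y
      · have hexact' : ∀ r', r'.Prime → r' ∣ N' → (r ^ 2 * M).factorization r' = 1 := fun r' h1 h2 => by
          have hne : r' ≠ r := fun e => hr.coprime_iff_not_dvd.1 hrN' (e ▸ h2)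
          rw [← hexact r' h1 (dvd_mul_of_dvd_right h2 r),
            Nat.factorization_mul (pow_ne_zero 2 hr.ne_zero) (NeZero.ne M),
            Nat.factorization_mul hr.ne_zero (NeZero.ne M), Nat.factorization_pow, hr.factorization]
          simp [hne.symm]
        obtain ⟨R, hR, J, hJ, hk⟩ := ih N' hlt (sndChar hrN' θ) (hM.trans (dvd_level_two r M))
          hexact' hoddN' q₀
        refine ⟨R, hR, _, isUntwist_stepIota hrN' θ hM h hrM' hb hodd hfst hJ, fun hq hn y => ?_⟩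
        obtain ⟨r', hr1, hr2⟩ := Nat.exists_prime_and_dvd hN'1
        have hqr : q₀ ≠ r := fun e => by
          have := hrq e.symm r' hr1 (dvd_mul_of_dvd_right hr2 r)
          exact hr.coprime_iff_not_dvd.1 hrN' (by rw [← e, ← this]; exact hr2)
        exact hk hq ((nontrivialAt_snd_iff hrN' θ hq hqr).2 hn) _

end Main

end Fermat.Agent.RT.Systems

end
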