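import Fermat.Agent.RT.Systems.IotaHecke

/-!
# The push forward from level `q X` to level `X`

For a prime `q` not dividing `X` the cosets of `Γ₀(q X)` in `Γ₀(X)` are represented by matrices
congruent to `1` modulo any multiple of `X` prime to `q`. So the sum over them commutes with the
Hecke operators away from `q` and with `ι` at a prime `r ≠ q`.
-/

set_option autoImplicit false

noncomputable section

namespace Fermat.Agent.RT.Systems

open scoped MatrixGroups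
open Fermat.Agent.Periods Fermat.Agent.RT.TW CongruenceSubgroup

variable {q : ℕ} [Fact q.Prime]

/-- The point of the projective line given by the bottom row. -/
def rowClass (h : SL(2, ℤ)) : Option (ZMod q) :=
  if (h.1 1 1 : ZMod q) = 0 then none else some ((h.1 1 0 : ZMod q) / (h.1 1 1 : ZMod q))

theorem det_entries (g : SL(2, ℤ)) : g.1 0 0 * g.1 1 1 - g.1 0 1 * g.1 1 0 = 1 :=
  (Matrix.det_fin_two _).symm.trans g.2

theorem mul_inv_entry (g h : SL(2, ℤ)) :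
    (g * h⁻¹).1 1 0 = g.1 1 0 * h.1 1 1 - g.1 1 1 * h.1 1 0 := by
  rw [Matrix.SpecialLinearGroup.coe_mul, Matrix.SpecialLinearGroup.coe_inv,
    Matrix.adjugate_fin_two, Matrix.mul_apply, Fin.sum_univ_two]
  simp
  ring

theorem rowClass_eq_iff (g h : SL(2, ℤ)) :
    rowClass (q := q) g = rowClass h ↔
      (((g * h⁻¹).1 1 0 : ℤ) : ZMod q) = 0 := by
  have key : ∀ g : SL(2, ℤ), (g.1 1 1 : ZMod q) = 0 → (g.1 1 0 : ZMod q) ≠ 0 := fun g h1 h0 => by
    have := congrArg (Int.cast : ℤ → ZMod q) (det_entries g)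
    push_cast at this
    rw [h1, h0, mul_zero, mul_zero, sub_zero] at this
    exact zero_ne_one this
  rw [mul_inv_entry, rowClass, rowClass]
  push_cast
  rw [sub_eq_zero]
  split_ifs with hg hh hh
  · simp [hg, hh]
  · simp [hg, hh, key g hg]
  · simp [hg, hh, key h hh]
  · rw [Option.some_inj, div_eq_div_iff hg hh, mul_comm (h.1 1 0 : ZMod q)]

/-- Representatives congruent to `1` modulo `X`. -/
def pushRep (X : ℕ) : Option (ZMod q) → SL(2, ℤ)
  | some k => ⟨!![1, 0; (X : ℤ) * ((k * (X : ZMod q)⁻¹).val : ℤ), 1],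
      by simp [Matrix.det_fin_two_of]⟩
  | none => ⟨!![1, (X : ℤ) * ((-((X : ZMod q) * X)⁻¹).val : ℤ); (X : ℤ),
      (X : ℤ) * ((X : ℤ) * ((-((X : ZMod q) * X)⁻¹).val : ℤ)) + 1],
      by rw [Matrix.det_fin_two_of]; ring⟩

theorem rowClass_pushRep {X : ℕ} (hX : ¬ q ∣ X) (o : Option (ZMod q)) :
    rowClass (pushRep X o) = o := by
  have h : (X : ZMod q) ≠ 0 := fun h => hX ((ZMod.natCast_eq_zero_iff _ _).1 h)
  rcases o with _ | k
  · rw [rowClass, if_pos]
    simp [pushRep]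
    field_simp
    ring
  · rw [rowClass, if_neg (by simp [pushRep])]
    simp [pushRep]
    field_simp

theorem pushRep_mem (X : ℕ) (o : Option (ZMod q)) : pushRep X o ∈ Gamma X := by
  rw [Gamma_mem]
  rcases o with _ | k <;> simp [pushRep]

theorem gamma0_of_gamma {X Y : ℕ} (h : X ∣ Y) {g : SL(2, ℤ)} (hg : g ∈ Gamma Y) : g ∈ Gamma0 X :=
  mem_gamma0_iff_dvd.2 ((Int.natCast_dvd_natCast.2 h).trans
    ((ZMod.intCast_zmod_eq_zero_iff_dvd _ _).1 (Gamma_mem.1 hg).2.2.1))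

theorem mem_gamma0_mul {X : ℕ} (hX : ¬ q ∣ X) {g : SL(2, ℤ)} (hg : g ∈ Gamma0 X)
    (hq : ((g.1 1 0 : ℤ) : ZMod q) = 0) : g ∈ Gamma0 (q * X) := by
  refine mem_gamma0_iff_dvd.2 ?_
  rw [Nat.cast_mul]
  exact IsCoprime.mul_dvd
    (Int.isCoprime_iff_nat_coprime.2 (by simpa using ((Fact.out : q.Prime).coprime_iff_not_dvd.2 hX)))
    ((ZMod.intCast_zmod_eq_zero_iff_dvd _ _).1 hq) (mem_gamma0_iff_dvd.1 hg)

section Family

variable {A : Type} [CommRing A] {N X : ℕ} (Φ : MulChar (ZMod N) A) (h : N ∣ X) (hX : ¬ q ∣ X)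
  {K : ℕ} (hK : ¬ q ∣ K)

omit [Fact q.Prime] in
theorem char_of_gamma (h' : N ∣ X) {Y : ℕ} (hY : N ∣ Y) {g : Gamma0 X}
    (hg : (g : SL(2, ℤ)) ∈ Gamma Y) : (level0 Φ X h').char g = 1 := by
  refine Units.ext ((level0_char_apply (Φ := Φ) h' g).trans ?_)
  have h11 : ((gammaMat g 1 1 : ℤ) : ZMod Y) = 1 := (Gamma_mem.1 hg).2.2.2
  have := congrArg (ZMod.castHom hY (ZMod N)) h11
  rw [map_intCast, map_one] at this
  rw [this, map_one, Units.val_one]

omit [Fact q.Prime] in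
theorem char_congr {X' : ℕ} (h' : N ∣ X) (h'' : N ∣ X') {g : Gamma0 X} {g' : Gamma0 X'}
    (e : (g : SL(2, ℤ)) = g') : (level0 Φ X h').char g = (level0 Φ X' h'').char g' :=
  Units.ext ((level0_char_apply (Φ := Φ) h' g).trans
    ((congrArg (fun x : SL(2, ℤ) => Φ ((x.1 1 1 : ℤ) : ZMod N)) e).trans
      (level0_char_apply (Φ := Φ) h'' g').symm))

include hX hK in
theorem isSepFamily_pushRep :
    IsSepFamily (Gamma0 (q * X)) fun o : Option (ZMod q) => (pushRep (X * K) o).1 := by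
  have hXK : ¬ q ∣ X * K := fun hd => ((Fact.out : q.Prime).dvd_mul.1 hd).elim hX hK
  refine ⟨fun o => by rw [(pushRep (X * K) o).2]; exact one_ne_zero, fun i j g e => ?_⟩
  rw [← rowClass_pushRep hXK i, ← rowClass_pushRep hXK j, rowClass_eq_iff,
    show pushRep (X * K) i = (g : SL(2, ℤ)) * pushRep (X * K) j from Subtype.ext e,
    mul_inv_cancel_right]
  exact (ZMod.intCast_zmod_eq_zero_iff_dvd _ _).2
    ((Int.natCast_dvd_natCast.2 (dvd_mul_right q X)).trans (mem_gamma0_iff_dvd.1 g.2))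

/-- The sum over `Γ₀(q X) \ Γ₀(X)`. -/
def pushFamily :
    MixedFamily (level0 Φ (q * X) (h.trans (dvd_mul_left X q))).char (level0 Φ X h).char
      (Option (ZMod q)) :=
  MixedFamily.ofSep (fun o => (pushRep (X * K) o).1) (fun _ => 1) (isSepFamily_pushRep hX hK)
    fun (γ : Gamma0 X) o => by
      have hXK : ¬ q ∣ X * K := fun hd => ((Fact.out : q.Prime).dvd_mul.1 hd).elim hX hK
      set r : Option (ZMod q) → Gamma0 X := fun o =>
        ⟨pushRep (X * K) o, gamma0_of_gamma (dvd_mul_right X K) (pushRep_mem _ o)⟩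
      set j := rowClass (q := q) ((r o * γ : Gamma0 X) : SL(2, ℤ))
      have hj : ((((r o * γ * (r j)⁻¹ : Gamma0 X) : SL(2, ℤ)).1 1 0 : ℤ) : ZMod q) = 0 :=
        (rowClass_eq_iff ((r o * γ : Gamma0 X) : SL(2, ℤ)) (pushRep (X * K) j)).1
          (rowClass_pushRep hXK j).symm
      refine ⟨j, ⟨_, mem_gamma0_mul hX (r o * γ * (r j)⁻¹).2 hj⟩, ?_, ?_⟩
      · show ((r o : SL(2, ℤ)) * (γ : SL(2, ℤ))).1 =
          (((r o : SL(2, ℤ)) * (γ : SL(2, ℤ)) * (r j : SL(2, ℤ))⁻¹) * (r j : SL(2, ℤ))).1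
        rw [inv_mul_cancel_right]
      · rw [one_mul, mul_one]
        refine congrArg Units.val ?_
        refine (char_congr Φ (h.trans (dvd_mul_left X q)) h (g' := r o * γ * (r j)⁻¹) rfl).trans ?_
        let χ : Gamma0 X →* Aˣ := (level0 Φ X h).char
        have ho : ∀ o, χ (r o) = 1 := fun o =>
          char_of_gamma Φ h (h.trans (dvd_mul_right X K)) (pushRep_mem _ o)
        show χ (r o * γ * (r j)⁻¹) = χ γ
        rw [map_mul, map_mul, map_inv, ho, ho]
        simp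

/-- The push forward on cohomology. -/
def push : heckeH1 Φ (q * X) (h.trans (dvd_mul_left X q)) →ₗ[A] heckeH1 Φ X h :=
  (pushFamily Φ h hX (K := 1) (Fact.out : q.Prime).not_dvd_one).opH1

theorem pushFamily_opH1 : (pushFamily Φ h hX hK).opH1 = push Φ h hX := by
  have h1 : ¬ q ∣ X * 1 := by rwa [mul_one]
  have hXK : ¬ q ∣ X * K := fun hd => ((Fact.out : q.Prime).dvd_mul.1 hd).elim hX hK
  have hg : ∀ o, pushRep (X * K) o * (pushRep (q := q) (X * 1) o)⁻¹ ∈ Gamma X := fun o => by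
    refine Subgroup.mul_mem _ ?_ (Subgroup.inv_mem _ (by simpa using pushRep_mem (q := q) (X * 1) o))
    have := Gamma_mem.1 (pushRep_mem (q := q) (X * K) o)
    rw [Gamma_mem]
    have cast_eq : ∀ x y : ℤ, (x : ZMod (X * K)) = y → (x : ZMod X) = y := fun x y e => by
      simpa using congrArg (ZMod.castHom (dvd_mul_right X K) (ZMod X)) e
    refine ⟨?_, ?_, ?_, ?_⟩
    · simpa using cast_eq _ 1 (by simpa using this.1)
    · simpa using cast_eq _ 0 (by simpa using this.2.1)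
    · simpa using cast_eq _ 0 (by simpa using this.2.2.1)
    · simpa using cast_eq _ 1 (by simpa using this.2.2.2)
  refine MixedFamily.opH1_eq_of_collapse _ _ (isSepFamily_pushRep hX (Fact.out : q.Prime).not_dvd_one)
    id (fun o => ⟨pushRep (X * K) o * (pushRep (X * 1) o)⁻¹,
      mem_gamma0_mul hX (gamma0_of_gamma dvd_rfl (hg o))
        ((rowClass_eq_iff _ _).1 ((rowClass_pushRep hXK o).trans (rowClass_pushRep h1 o).symm))⟩)
    (fun o => ?_) fun k => ?_
  · show (pushRep (X * K) o).1 =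
      (pushRep (X * K) o * (pushRep (X * 1) o)⁻¹ * pushRep (X * 1) o).1
    rw [inv_mul_cancel_right]
  · rw [show Finset.univ.filter (fun i => id i = k) = {k} from by ext; simp, Finset.sum_singleton]
    show (1 : A) * _ = 1
    erw [char_of_gamma Φ (h.trans (dvd_mul_left X q)) h (hg k)]
    simp

end Family

section Cast

variable {A : Type} [CommRing A] {N : ℕ} (Φ : MulChar (ZMod N) A)

/-- Cohomology at equal levels. -/
def levelCast {R R' : ℕ} (e : R = R') (h : N ∣ R) (h' : N ∣ R') :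
    heckeH1 Φ R h ≃ₗ[A] heckeH1 Φ R' h' := by
  subst e; exact LinearEquiv.refl A _

omit [Fact q.Prime] in
theorem levelCast_heckeOp {R R' : ℕ} (e : R = R') (h : N ∣ R) (h' : N ∣ R') (p : Nat.Primes)
    (y : heckeH1 Φ R h) :
    levelCast Φ e h h' (heckeOp Φ h p y) = heckeOp Φ h' p (levelCast Φ e h h' y) := by
  subst e; rfl

omit [Fact q.Prime] in
theorem levelCast_rfl {R : ℕ} (h : N ∣ R) (y : heckeH1 Φ R h) : levelCast Φ rfl h h y = y := rfl

omit [Fact q.Prime] in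
theorem opH1_castChar_congr {Γ₁ Γ₂ : Subgroup SL(2, ℤ)} {χ₁ χ₁' : Γ₁ →* Aˣ} {χ₂ χ₂' : Γ₂ →* Aˣ}
    {ι κ : Type*} [Fintype ι] [Fintype κ] (D : MixedFamily χ₁ χ₂ ι) (E : MixedFamily χ₁ χ₂ κ)
    (h₁ : χ₁ = χ₁') (h₂ : χ₂ = χ₂') (h : D.opH1 = E.opH1) :
    (D.castChar h₁ h₂).opH1 = (E.castChar h₁ h₂).opH1 := by
  subst h₁ h₂; exact h

end Cast

section Comm

variable {A : Type} [CommRing A] {N₁ N₂ X₁ X₂ : ℕ} {Φ₁ : MulChar (ZMod N₁) A}
  {Φ₂ : MulChar (ZMod N₂) A} (h₁ : N₁ ∣ X₁) (h₂ : N₂ ∣ X₂) (hq₁ : ¬ q ∣ X₁) (hq₂ : ¬ q ∣ X₂)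
  {ι : Type*} [Fintype ι] [DecidableEq ι]

/-- Conjugating an element congruent to `1` modulo `Y det m` by `m`. -/
theorem exists_conj_gamma {Y n : ℕ} (m : IntMat) (hdet : m.det = n) (hn : n ≠ 0) {h : SL(2, ℤ)}
    (hh : h ∈ Gamma (Y * n)) :
    ∃ h' ∈ Gamma Y, m * h.1 = h'.1 * m ∧
      (n : ℤ) * h'.1 1 0 = (m * h.1 * m.adjugate) 1 0 := by
  obtain ⟨h00, h01, h10, h11⟩ := Gamma_mem.1 hh
  obtain ⟨a, ha⟩ := (ZMod.intCast_zmod_eq_zero_iff_dvd (h.1 0 0 - 1) (Y * n)).1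
    (by push_cast; rw [h00, sub_self])
  obtain ⟨b, hb⟩ := (ZMod.intCast_zmod_eq_zero_iff_dvd _ _).1 h01
  obtain ⟨c, hc⟩ := (ZMod.intCast_zmod_eq_zero_iff_dvd _ _).1 h10
  obtain ⟨d, hd⟩ := (ZMod.intCast_zmod_eq_zero_iff_dvd (h.1 1 1 - 1) (Y * n)).1
    (by push_cast; rw [h11, sub_self])
  set Z : IntMat := !![a, b; c, d]
  have hY : h.1 = 1 + ((Y * n : ℕ) : ℤ) • Z := by
    ext i j
    fin_cases i <;> fin_cases j <;> simp [Z] <;> push_cast at * <;> linarith
  set H : IntMat := 1 + (Y : ℤ) • (m * Z * m.adjugate)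
  have e : m * h.1 * m.adjugate = (n : ℤ) • H := by
    rw [hY, Matrix.mul_add, Matrix.mul_one, Matrix.add_mul, Matrix.mul_adjugate, hdet,
      Matrix.mul_smul, Matrix.smul_mul, smul_add, smul_smul, Nat.cast_mul, mul_comm (Y : ℤ)]
  have hn' : (n : ℤ) ≠ 0 := Int.natCast_ne_zero.2 hn
  have hH : H.det = 1 := by
    have := congrArg Matrix.det e
    rw [Matrix.det_mul, Matrix.det_mul, Matrix.det_adjugate, hdet, h.2, Matrix.det_smul,
      Fintype.card_fin] at this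
    simp at this
    refine mul_left_cancel₀ (pow_ne_zero 2 hn') ?_
    linear_combination -this
  refine ⟨⟨H, hH⟩, ?_, ?_, ?_⟩
  · rw [Gamma_mem]
    have hH' : ∀ u v, ((H u v : ℤ) : ZMod Y) = (((1 : IntMat) u v : ℤ) : ZMod Y) := fun u v => by
      rw [show H u v = (1 : IntMat) u v + (Y : ℤ) * (m * Z * m.adjugate) u v from rfl]
      simp
    exact ⟨by simpa using hH' 0 0, by simpa using hH' 0 1, by simpa using hH' 1 0,
      by simpa using hH' 1 1⟩
  · have := congrArg (· * m) e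
    simp only [Matrix.smul_mul, Matrix.mul_assoc _ m.adjugate m, Matrix.adjugate_mul, hdet,
      Matrix.mul_smul, Matrix.mul_one] at this
    ext i j
    exact mul_left_cancel₀ hn' (by simpa using congrFun (congrFun this i) j)
  · rw [e, Matrix.smul_apply, smul_eq_mul]

theorem push_comm (hX : X₁ ∣ X₂)
    (F : MixedFamily (level0 Φ₁ (q * X₁) (h₁.trans (dvd_mul_left X₁ q))).char
      (level0 Φ₂ (q * X₂) (h₂.trans (dvd_mul_left X₂ q))).char ι)
    (F' : MixedFamily (level0 Φ₁ X₁ h₁).char (level0 Φ₂ X₂ h₂).char ι)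
    (hsep : IsSepFamily (Gamma0 X₁) F'.mat) (hmat : ∀ i, F'.mat i = F.mat i)
    {n : ℕ} (hn : ¬ q ∣ n) (hdet : ∀ i, (F.mat i).det = n)
    (htri : ∀ i, ((F.mat i 1 0 : ℤ) : ZMod q) = 0) (s : A) (hw : ∀ i, F.wt i = s * F'.wt i) :
    push Φ₂ h₂ hq₂ ∘ₗ F.opH1 = s • (F'.opH1 ∘ₗ push Φ₁ h₁ hq₁) := by
  have hn0 : n ≠ 0 := fun h => hn (h ▸ dvd_zero q)
  have hq1 : ¬ q ∣ X₁ * 1 := by rwa [mul_one]
  have hq2n : ¬ q ∣ X₂ * n := fun hd => ((Fact.out : q.Prime).dvd_mul.1 hd).elim hq₂ hn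
  rw [← pushFamily_opH1 Φ₂ h₂ hq₂ (K := n) hn, push, MixedFamily.opH1_comp, MixedFamily.opH1_comp,
    ← MixedFamily.opH1_scale]
  choose H hH hHe hHq using fun x : ι × Option (ZMod q) =>
    exists_conj_gamma (F.mat x.1) (hdet x.1) hn0 (pushRep_mem (q := q) (X₂ * n) x.2)
  have hH1 : ∀ x, H x ∈ Gamma X₁ := fun x => by
    obtain ⟨a, b, c, d⟩ := Gamma_mem.1 (hH x)
    rw [Gamma_mem]
    refine ⟨?_, ?_, ?_, ?_⟩
    · simpa [ZMod.cast_one hX] using congrArg (ZMod.castHom hX (ZMod X₁)) a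
    · simpa using congrArg (ZMod.castHom hX (ZMod X₁)) b
    · simpa using congrArg (ZMod.castHom hX (ZMod X₁)) c
    · simpa [ZMod.cast_one hX] using congrArg (ZMod.castHom hX (ZMod X₁)) d
  set j : ι × Option (ZMod q) → Option (ZMod q) := fun x => rowClass (H x)
  have hg : ∀ x, H x * (pushRep (q := q) (X₁ * 1) (j x))⁻¹ ∈ Gamma X₁ := fun x =>
    Subgroup.mul_mem _ (hH1 x) (Subgroup.inv_mem _ (by simpa using pushRep_mem (q := q) (X₁ * 1) (j x)))
  let e : ι × Option (ZMod q) → Option (ZMod q) × ι := fun x => (j x, x.1)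
  have hinj : Function.Injective e := by
    rintro ⟨i, x⟩ ⟨i', x'⟩ hh
    simp only [e, Prod.mk.injEq] at hh
    obtain ⟨hj, rfl⟩ := hh
    refine Prod.ext rfl ?_
    show x = x'
    rw [← rowClass_pushRep hq2n x, ← rowClass_pushRep hq2n x', rowClass_eq_iff]
    have hc := (rowClass_eq_iff _ _).1 hj
    -- the lower left entries of `h` and `m h m⁻¹` are proportional modulo `q`
    set m := F.mat i
    set u := pushRep (q := q) (X₂ * n) x * (pushRep (X₂ * n) x')⁻¹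
    have hm : m * u.1 = (H (i, x) * (H (i, x'))⁻¹).1 * m := by
      have e1 : m * u.1 * (pushRep (q := q) (X₂ * n) x').1 =
          (H (i, x) * (H (i, x'))⁻¹).1 * m * (pushRep (q := q) (X₂ * n) x').1 := by
        rw [Matrix.mul_assoc m, ← Matrix.SpecialLinearGroup.coe_mul, inv_mul_cancel_right,
          hHe (i, x), Matrix.mul_assoc _ m, hHe (i, x'), ← Matrix.mul_assoc,
          ← Matrix.SpecialLinearGroup.coe_mul, inv_mul_cancel_right]
      exact intMat_mul_right_cancel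
        (by rw [(pushRep (q := q) (X₂ * n) x').2]; exact one_ne_zero) e1
    have h10 := congrArg (fun M : IntMat => ((M 1 0 : ℤ) : ZMod q)) hm
    simp only [Matrix.mul_apply, Fin.sum_univ_two] at h10
    push_cast at h10
    rw [htri i, hc] at h10
    simp only [zero_mul, zero_add, mul_zero, add_zero] at h10
    have hd : ((m 1 1 : ℤ) : ZMod q) ≠ 0 := fun h0 => by
      have := congrArg (Int.cast : ℤ → ZMod q) (hdet i)
      rw [Matrix.det_fin_two] at this
      push_cast at this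
      rw [htri i, h0, mul_zero, mul_zero, sub_zero] at this
      exact hn ((ZMod.natCast_eq_zero_iff _ _).1 this.symm)
    exact (mul_eq_zero.1 h10).resolve_left hd
  have hbij : Function.Bijective e := (Fintype.bijective_iff_injective_and_card e).2
    ⟨hinj, by simp [mul_comm]⟩
  refine MixedFamily.opH1_eq_of_collapse _ _ ⟨fun x => ?_, fun x y g hxy => ?_⟩ e
    (fun x => ⟨H x * (pushRep (X₁ * 1) (j x))⁻¹, mem_gamma0_mul hq₁
      (gamma0_of_gamma dvd_rfl (hg x))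
      ((rowClass_eq_iff _ _).1 (rowClass_pushRep hq1 (j x)).symm)⟩)
    (fun x => ?_) fun k => ?_
  · show ((pushRep (X₁ * 1) x.1).1 * F'.mat x.2).det ≠ 0
    rw [Matrix.det_mul, (pushRep (q := q) (X₁ * 1) x.1).2, one_mul, hmat, hdet]
    exact_mod_cast hn0
  · have hxy' : (pushRep (X₁ * 1) x.1).1 * F'.mat x.2 =
        gammaMat g * ((pushRep (X₁ * 1) y.1).1 * F'.mat y.2) := hxy
    let g' : Gamma0 X₁ := ⟨(pushRep (X₁ * 1) x.1)⁻¹ * (g : SL(2, ℤ)) * pushRep (X₁ * 1) y.1,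
      Subgroup.mul_mem _ (Subgroup.mul_mem _ (Subgroup.inv_mem _
        (gamma0_of_gamma (dvd_mul_right X₁ 1) (pushRep_mem _ _)))
        (mem_gamma0_iff_dvd.2 ((Int.natCast_dvd_natCast.2 (dvd_mul_left X₁ q)).trans (gamma0_dvd g))))
        (gamma0_of_gamma (dvd_mul_right X₁ 1) (pushRep_mem _ _))⟩
    have h2 : x.2 = y.2 := hsep.2 _ _ g' (by
      show F'.mat x.2 = ((pushRep (X₁ * 1) x.1)⁻¹ * (g : SL(2, ℤ)) * pushRep (X₁ * 1) y.1).1 * _
      rw [Matrix.SpecialLinearGroup.coe_mul, Matrix.SpecialLinearGroup.coe_mul, Matrix.mul_assoc,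
        Matrix.mul_assoc, ← hxy', ← Matrix.mul_assoc, ← Matrix.SpecialLinearGroup.coe_mul,
        inv_mul_cancel, Matrix.SpecialLinearGroup.coe_one, Matrix.one_mul])
    refine Prod.ext ((isSepFamily_pushRep hq₁ (Fact.out : q.Prime).not_dvd_one).2 _ _ g ?_) h2
    refine intMat_mul_right_cancel (M := F'.mat x.2) (hsep.1 _) ?_
    rw [hxy', h2, Matrix.mul_assoc]
  · show F.mat x.1 * (pushRep (X₂ * n) x.2).1 =
      (H x * (pushRep (X₁ * 1) (j x))⁻¹).1 * ((pushRep (X₁ * 1) (j x)).1 * F'.mat x.1)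
    rw [hmat, hHe x, ← Matrix.mul_assoc, ← Matrix.SpecialLinearGroup.coe_mul, inv_mul_cancel_right]
  · obtain ⟨x, rfl⟩ := hbij.2 k
    rw [show Finset.univ.filter (fun i => e i = e x) = {x} from by
      ext y; simp [hinj.eq_iff], Finset.sum_singleton]
    erw [char_of_gamma Φ₁ (h₁.trans (dvd_mul_left X₁ q)) h₁ (hg x)]
    show F.wt x.1 * 1 * 1 = s * (1 * F'.wt x.1)
    rw [hw, mul_one, mul_one, one_mul]

theorem push_comm' (hX : X₁ ∣ X₂) {R₁ R₂ : ℕ} (e₁ : R₁ = q * X₁) (e₂ : R₂ = q * X₂)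
    {hR₁ : N₁ ∣ R₁} {hR₂ : N₂ ∣ R₂}
    (F : MixedFamily (level0 Φ₁ R₁ hR₁).char (level0 Φ₂ R₂ hR₂).char ι)
    (F' : MixedFamily (level0 Φ₁ X₁ h₁).char (level0 Φ₂ X₂ h₂).char ι)
    (hsep : IsSepFamily (Gamma0 X₁) F'.mat) (hmat : ∀ i, F'.mat i = F.mat i)
    {n : ℕ} (hn : ¬ q ∣ n) (hdet : ∀ i, (F.mat i).det = n)
    (htri : ∀ i, ((F.mat i 1 0 : ℤ) : ZMod q) = 0) (s : A) (hw : ∀ i, F.wt i = s * F'.wt i)
    (z : heckeH1 Φ₁ R₁ hR₁) :
    push Φ₂ h₂ hq₂ (levelCast Φ₂ e₂ hR₂ _ (F.opH1 z)) =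
      s • F'.opH1 (push Φ₁ h₁ hq₁ (levelCast Φ₁ e₁ hR₁ _ z)) := by
  subst e₁ e₂
  exact LinearMap.congr_fun (push_comm h₁ h₂ hq₁ hq₂ hX F F' hsep hmat hn hdet htri s hw) z

end Comm

section Ops

variable {A : Type} [CommRing A] {N X : ℕ} {Φ : MulChar (ZMod N) A}

/-- The push forward commutes with the operators at the primes other than `q`. -/
theorem push_heckeOp (h : N ∣ X) (hX : ¬ q ∣ X) (p : Nat.Primes) (hp : (p : ℕ) ≠ q)
    (y : heckeH1 Φ (q * X) (h.trans (dvd_mul_left X q))) :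
    push Φ h hX (heckeOp Φ (h.trans (dvd_mul_left X q)) p y) = heckeOp Φ h p (push Φ h hX y) := by
  have hiff : ∀ x : Option (Fin (p : ℕ)),
      (x = none → ¬ (p : ℕ) ∣ q * X) ↔ (x = none → ¬ (p : ℕ) ∣ X) := fun x => by
    rw [p.2.dvd_mul, or_iff_right fun hd => hp ((Nat.prime_dvd_prime_iff_eq p.2 Fact.out).1 hd)]
  set F' := (heckeFamily Φ h p.2).toMixed
    ⟨fun i => heckeMat_det_ne_zero p.2 i, fun i j g hh => heckeMat_separated p.2 i j g hh⟩
  set F := (heckeFamily Φ (h.trans (dvd_mul_left X q)) p.2).toMixed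
    ⟨fun i => heckeMat_det_ne_zero p.2 i, fun i j g hh => heckeMat_separated p.2 i j g hh⟩ with hF
  let e : HeckeIdx (q * X) p ≃ HeckeIdx X p := Equiv.subtypeEquivRight hiff
  have key := push_comm h h hX hX dvd_rfl F (F'.reindex e fun _ => 1)
    ⟨fun i => by
        show (gammaMat (1 : Gamma0 X) * heckeMat X p (e i)).det ≠ 0
        rw [gammaMat_one, Matrix.one_mul]
        exact heckeMat_det_ne_zero p.2 _,
      fun i j g hh => e.injective (heckeMat_separated p.2 _ _ g (by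
        have hh' : gammaMat (1 : Gamma0 X) * heckeMat X p (e i) =
          gammaMat g * (gammaMat (1 : Gamma0 X) * heckeMat X p (e j)) := hh
        rwa [gammaMat_one, Matrix.one_mul, Matrix.one_mul] at hh'))⟩
    (fun i => by
      show gammaMat (1 : Gamma0 X) * heckeMat X p (e i) = heckeMat (q * X) p i
      rw [gammaMat_one, Matrix.one_mul]
      rfl)
    (n := p) (fun hd => hp ((Nat.prime_dvd_prime_iff_eq Fact.out p.2).1 hd).symm)
    (fun i => heckeMat_det _ _ i)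
    (fun i => by
      show ((heckeMat (q * X) p i 1 0 : ℤ) : ZMod q) = 0
      obtain ⟨_ | j, hi⟩ := i <;> simp [heckeMat]) 1
    (fun i => by
      show _ = 1 * (Φ ((heckeMat X p (e i) 0 0 : ℤ) : ZMod N) *
        ((((level0 Φ X h).char (1 : Gamma0 X))⁻¹ : Aˣ) : A))
      erw [map_one]
      simp
      rfl)
  rw [MixedFamily.opH1_reindex F'
    ⟨fun i => heckeMat_det_ne_zero p.2 i, fun i j g hh => heckeMat_separated p.2 i j g hh⟩,
    CosetFamily.toMixed_opH1] at key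
  rw [one_smul] at key
  show push Φ h hX ((heckeFamily Φ (h.trans (dvd_mul_left X q)) p.2).opH1 y) =
    (heckeFamily Φ h p.2).opH1 (push Φ h hX y)
  have k := LinearMap.congr_fun key y
  simp only [LinearMap.comp_apply] at k
  rw [k]
  exact LinearMap.congr_fun (CosetFamily.toMixed_opH1 _ _) _


variable {r M N' : ℕ} [Fact r.Prime] [NeZero M] [NeZero q] {θ : (ZMod r)ˣ →* Aˣ}
  {Ψ : MulChar (ZMod N') A}

/-- `ι` at `r` commutes with the push forward at `q`, up to `θ(q)`. -/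
theorem push_iota0 (hN : N ∣ r * M) (hN' : N' ∣ M) (hN₁ : N ∣ r * (q * M))
    (hN₁' : N' ∣ q * M) (hrel : IsTwistRelation (M := M) θ Φ Ψ)
    (hrel₁ : IsTwistRelation (M := q * M) θ Φ Ψ)
    (hq₁ : ¬ q ∣ r * M) (hq₂ : ¬ q ∣ r ^ 2 * M) (uq : (ZMod r)ˣ) (huq : (uq : ZMod r) = q)
    (e₁ : r * (q * M) = q * (r * M)) (e₂ : r ^ 2 * (q * M) = q * (r ^ 2 * M))
    (z : heckeH1 Φ (r * (q * M)) hN₁) :
    push Ψ (hN'.trans (dvd_level_two r M)) hq₂ (levelCast Ψ e₂ _ ((hN'.trans (dvd_level_two r M)).trans (dvd_mul_left _ q)) (iota0 hN₁ hN₁' hrel₁ z)) =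
      (θ uq : A) • iota0 hN hN' hrel (push Φ hN hq₁ (levelCast Φ e₁ _ (hN.trans (dvd_mul_left _ q)) z)) := by
  have hr : (r : ℤ) ≠ 0 := intCast_q_ne_zero (q := r)
  set G := (iotaFamily (q * M) (liftUnitChar Ψ hN₁') θ unitRep unitRep_cast).castChar
    (level0_char_src hN₁ hN₁' hrel₁).symm (level0_char_tgt hN₁').symm
  set t : (ZMod r)ˣ → ℤ := fun j => (q : ℤ) * unitRep (j * uq⁻¹) with ht
  have ht' : ∀ j, (t j : ZMod r) = j := fun j => by
    simp only [ht, Int.cast_mul, Int.cast_natCast, unitRep_cast, Units.val_mul, ← huq]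
    rw [mul_comm, mul_assoc, Units.inv_mul, mul_one]
  set F' := (iotaFamily M (liftUnitChar Ψ hN') θ t ht').castChar
    (level0_char_src hN hN' hrel).symm (level0_char_tgt hN').symm with hF'
  have hsepG : IsSepFamily (Gamma0 (r * (q * M))) G.mat :=
    isSepFamily_iotaMat (q * M) unitRep fun a b h => Units.ext (by simpa [unitRep_cast] using h)
  have hiota : F'.opH1 = iota0 hN hN' hrel :=
    opH1_castChar_congr _ _ _ _ (iotaFamily_opH1 M (liftUnitChar Ψ hN') θ t ht')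
  have key := push_comm' hN (hN'.trans (dvd_level_two r M)) hq₁ hq₂
    (mul_dvd_mul_right (dvd_pow_self r two_ne_zero) M) e₁ e₂
    (G.reindex (Equiv.mulRight uq⁻¹) fun _ => 1) F'
    (isSepFamily_iotaMat M t fun a b h => Units.ext (by simpa only [ht'] using h))
    (fun j => by
      show iotaMat r M (t j) = gammaMat (1 : Gamma0 (r * (q * M))) * iotaMat r (q * M) (unitRep (j * uq⁻¹))
      rw [gammaMat_one, Matrix.one_mul, iotaMat, iotaMat, ht]
      push_cast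
      ext a b
      fin_cases a <;> fin_cases b <;> simp
      ring)
    (n := r) (fun hd => hq₁ (hd.mul_right M))
    (fun j => by
      show (gammaMat (1 : Gamma0 (r * (q * M))) * iotaMat r (q * M) (unitRep (j * uq⁻¹))).det = _
      rw [gammaMat_one, Matrix.one_mul, det_iotaMat])
    (fun j => by
      show (((gammaMat (1 : Gamma0 (r * (q * M))) * iotaMat r (q * M) (unitRep (j * uq⁻¹))) 1 0 : ℤ) :
        ZMod q) = 0
      rw [gammaMat_one, Matrix.one_mul]
      simp [iotaMat])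
    (θ uq : A) (fun j => by
      show (((θ (j * uq⁻¹))⁻¹ : Aˣ) : A) *
        ((((level0 Φ (r * (q * M)) hN₁).char (1 : Gamma0 (r * (q * M))))⁻¹ : Aˣ) : A) =
        (θ uq : A) * (((θ j)⁻¹ : Aˣ) : A)
      erw [map_one]
      simp [mul_comm])
  have k := key z
  erw [MixedFamily.opH1_reindex G hsepG, hiota] at k
  exact k

end Ops

end Fermat.Agent.RT.Systems

end
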