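import Fermat.Agent.RT.Systems.Depleted
import Fermat.Agent.RT.TW.MixedFamily
import Fermat.Agent.Periods.EigenSpace

/-!
# Classes killed by a sum over cosets come from orthogonal forms

A parabolic homomorphism is `P u + conj ∘ P v` for forms `u`, `v`. The sum over representatives of
`Γ₀(q D) \ Γ₀(D)` of the translates of a form has the transferred periods, so a class killed by
that transfer comes from forms orthogonal to level `D`.
-/

set_option autoImplicit false

noncomputable section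

namespace Fermat.Agent.RT.Systems

open CongruenceSubgroup UpperHalfPlane ModularCurve ModularCurve.Period ModularFormClass
open Fermat.Agent.Periods Fermat.Agent.RT.TW
open scoped MatrixGroups ModularForm Manifold ComplexConjugate

section Sum

variable {A : Type*} [CommRing A] {R D : ℕ} [NeZero R] [NeZero D] {χ₁ : Gamma0 R →* Aˣ}
  {χ₂ : Gamma0 D →* Aˣ} {ι : Type*} [Fintype ι] (E : MixedFamily χ₁ χ₂ ι) (r : ι → SL(2, ℤ))
  (hr : ∀ i, E.mat i = (r i).1)

omit [NeZero R] [NeZero D] [Fintype ι] in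
include hr in
theorem rep_mul_eq (γ : Gamma0 D) (i : ι) :
    r i * (γ : SL(2, ℤ)) = (E.elt γ i : SL(2, ℤ)) * r (E.perm γ i) := by
  refine Subtype.ext ?_
  rw [Matrix.SpecialLinearGroup.coe_mul, Matrix.SpecialLinearGroup.coe_mul, ← hr, ← hr]
  exact E.step γ i

omit [NeZero D] [NeZero R] in
theorem mdiff_sum_slash (f : CuspForm (Gamma0 R) 2) :
    MDiff (∑ i, ⇑f ∣[(2 : ℤ)] r i) := by
  classical
  refine Finset.sum_induction _ (fun g : ℍ → ℂ => MDiff g) (fun a b ha hb => ha.add hb)
    mdifferentiable_const fun i _ => ?_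
  rw [Hecke.slash_SL_eq]
  exact (ModularFormClass.holo f).slash 2 _

/-- The sum of the translates of a form by the representatives. -/
def familySum (f : CuspForm (Gamma0 R) 2) : CuspForm (Gamma0 D) 2 where
  toFun := ∑ i, ⇑f ∣[(2 : ℤ)] r i
  slash_action_eq' γ hγ := by
    obtain ⟨g, hg, rfl⟩ := Subgroup.mem_map.1 hγ
    rw [← Hecke.slash_SL_eq, SlashAction.sum_slash]
    conv_rhs => rw [← Equiv.sum_comp (E.perm ⟨g, hg⟩) (fun i => ⇑f ∣[(2 : ℤ)] r i)]
    refine Finset.sum_congr rfl fun i _ => ?_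
    rw [← SlashAction.slash_mul, show r i * g = _ from rep_mul_eq E r hr ⟨g, hg⟩ i,
      SlashAction.slash_mul, gamma0_slash f (E.elt ⟨g, hg⟩ i).2]
  holo' := mdiff_sum_slash r f
  zero_at_cusps' {c} hc := by
    rw [Subgroup.IsArithmetic.isCusp_iff_isCusp_SL2Z] at hc
    refine (OnePoint.isZeroAt_iff_forall_SL2Z hc).mpr fun γ _ => ?_
    have e : (∑ i, ⇑f ∣[(2 : ℤ)] r i) ∣[(2 : ℤ)] γ = ∑ i, ⇑f ∣[(2 : ℤ)] (r i * γ) := by
      rw [SlashAction.sum_slash]
      exact Finset.sum_congr rfl fun i _ => (SlashAction.slash_mul _ _ _ _).symm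
    show IsZeroAtImInfty _
    rw [e]
    classical
    refine Finset.sum_induction _ (fun g : ℍ → ℂ => IsZeroAtImInfty g) (fun a b ha hb => ?_) ?_
      fun i _ => CuspFormClass.zero_at_infty_slash f _
    · exact ha.add hb
    · exact (Filter.zero_zeroAtFilter _ : Filter.ZeroAtFilter _ (0 : ℍ → ℂ))

theorem coe_familySum (f : CuspForm (Gamma0 R) 2) :
    (familySum E r hr f : ℍ → ℂ) = ∑ i, ⇑f ∣[(2 : ℤ)] r i := rfl

/-- Its periods are the transferred periods. -/
theorem periodMap_familySum (f : CuspForm (Gamma0 R) 2) (γ : Gamma0 D) :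
    periodMap D (familySum E r hr f) (Additive.ofMul γ) =
      ∑ i, periodMap R f (Additive.ofMul (E.elt γ i)) := by
  obtain ⟨F, hF⟩ := exists_hasEquivariantPrimitive f
  have hG : IsPrimitive (familySum E r hr f) (fun τ => ∑ i, F (r i • τ)) := by
    intro τ
    have h := HasDerivAt.fun_sum (u := (Finset.univ : Finset ι)) fun i _ =>
      (IsPrimitive.comp_SL_smul (φ := ⇑f) hF.1 (r i)) τ
    simpa [coe_familySum, Function.comp_def] using h
  set z : ℍ := UpperHalfPlane.I
  rw [periodMap_apply _ hG γ z]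
  have e : ∀ i, periodMap R f (Additive.ofMul (E.elt γ i)) =
      F (r i • (γ : SL(2, ℤ)) • z) - F (r (E.perm γ i) • z) := fun i => by
    rw [periodMap_apply f hF.1 _ (r (E.perm γ i) • z), smul_smul, smul_smul, rep_mul_eq E r hr γ i]
  rw [Finset.sum_congr rfl fun i _ => e i, Finset.sum_sub_distrib,
    Equiv.sum_comp (E.perm γ) (fun i => F (r i • z))]

omit [NeZero R] in
/-- A form with vanishing sum over representatives in `Γ₀(D)` is orthogonal to level `D`. -/
theorem isOrth_of_familySum_eq_zero [NeZero R] [Nonempty ι] (hrD : ∀ i, r i ∈ Gamma0 D)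
    (f : CuspForm (Gamma0 R) 2) (h : familySum E r hr f = 0) : IsOrth D f := by
  intro g
  have hfa := Hecke.isAdmissible_cuspForm f
  have hga := Hecke.isAdmissible_cuspForm g
  have h0 : Hecke.petPair 2 (∑ i, ⇑f ∣[(2 : ℤ)] r i) (⇑g) = 0 := by
    rw [← coe_familySum E r hr, h]
    exact Hecke.petPair_zero_left hga
  rw [Hecke.petPair_sum_left _ (fun i _ => by
      rw [Hecke.slash_SL_eq]; exact hfa.slash (Hecke.isRatPos_mapGL _)) hga,
    Finset.sum_congr rfl fun i _ => show
      Hecke.petPair 2 (⇑f ∣[(2 : ℤ)] r i) (⇑g) = Hecke.petPair 2 (⇑f) (⇑g) by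
      conv_lhs => rw [← gamma0_slash g (hrD i)]
      exact Hecke.petPair_slash_SL hfa hga (r i)] at h0
  simpa [Fintype.card_ne_zero] using h0

end Sum

/-- Complex conjugation of values. -/
abbrev conjComp {G : Type*} [AddCommGroup G] (φ : G →+ ℂ) : G →+ ℂ :=
  (starRingEnd ℂ).toAddMonoidHom.comp φ

section Split

variable {N : ℕ} [NeZero N]

/-- A parabolic homomorphism is a period plus a conjugate period. -/
theorem exists_periods_of_parabolic {φ : Additive (Gamma0 N) →+ ℂ}
    (hφ : φ ∈ parabolicHoms ℂ (Gamma0 N) ℂ) :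
    ∃ u v : CuspForm (Gamma0 N) 2, ∀ γ : Gamma0 N, φ (Additive.ofMul γ) =
      periodMap N u (Additive.ofMul γ) + conj (periodMap N v (Additive.ofMul γ)) := by
  obtain ⟨⟨f, g⟩, rfl⟩ : φ ∈ LinearMap.range (periodHomPair N) := by
    rw [range_periodHomPair N]; exact hφ
  refine ⟨f + g, -conjForm (f - g), fun γ => ?_⟩
  have h := charInvolution_periodMap (f - g) γ
  have hsub : periodMap N (f - g) = periodMap N f - periodMap N g := map_sub (periodLin N) f g
  have hneg : periodMap N (-conjForm (f - g)) = -periodMap N (conjForm (f - g)) :=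
    map_neg (periodLin N) _
  have hadd : periodMap N (f + g) = periodMap N f + periodMap N g := map_add (periodLin N) f g
  rw [hneg, AddMonoidHom.neg_apply, map_neg, ← h, hsub, map_sub, periodHomPair_apply, hadd]
  simp only [AddMonoidHom.add_apply, AddMonoidHom.sub_apply]
  ring

/-- The decomposition is unique. -/
theorem periods_unique {u v u' v' : CuspForm (Gamma0 N) 2}
    (h : ∀ γ : Gamma0 N, periodMap N u (Additive.ofMul γ) + conj (periodMap N v (Additive.ofMul γ)) =
      periodMap N u' (Additive.ofMul γ) + conj (periodMap N v' (Additive.ofMul γ))) :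
    u = u' ∧ v = v' := by
  have e : ∀ a b : CuspForm (Gamma0 N) 2, periodMap N (a - b) = periodMap N a - periodMap N b :=
    fun a b => map_sub (periodLin N) a b
  obtain ⟨h1, h2⟩ := eq_zero_of_periodMap_add_conj_eq_zero (f := u - u') (g := v - v') fun γ => by
    rw [e, e, AddMonoidHom.sub_apply, AddMonoidHom.sub_apply, map_sub]
    linear_combination h γ
  exact ⟨sub_eq_zero.1 h1, sub_eq_zero.1 h2⟩

variable {p : ℕ} {T : Module.End ℂ (CuspForm (Gamma0 N) 2)}

omit [NeZero N] in
/-- An operator on periods acts on the two components. -/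
theorem heckeHom_periods (hp : p.Prime)
    (hT : ∀ w, heckeHom ℂ ℂ hp (periodMap N w) = periodMap N (T w))
    {φ : Additive (Gamma0 N) →+ ℂ} {u v : CuspForm (Gamma0 N) 2}
    (h : ∀ γ : Gamma0 N, φ (Additive.ofMul γ) =
      periodMap N u (Additive.ofMul γ) + conj (periodMap N v (Additive.ofMul γ))) (γ : Gamma0 N) :
    heckeHom ℂ ℂ hp φ (Additive.ofMul γ) =
      periodMap N (T u) (Additive.ofMul γ) + conj (periodMap N (T v) (Additive.ofMul γ)) := by
  rw [← hT, ← hT, heckeHom_apply, heckeHom_apply, heckeHom_apply, map_sum, ← Finset.sum_add_distrib]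
  exact Finset.sum_congr rfl fun i _ => h _

theorem heckeHom_periods_eigen (hp : p.Prime)
    (hT : ∀ w, heckeHom ℂ ℂ hp (periodMap N w) = periodMap N (T w))
    {φ : Additive (Gamma0 N) →+ ℂ} {u v : CuspForm (Gamma0 N) 2}
    (h : ∀ γ : Gamma0 N, φ (Additive.ofMul γ) =
      periodMap N u (Additive.ofMul γ) + conj (periodMap N v (Additive.ofMul γ))) {c : ℂ}
    (hc : heckeHom ℂ ℂ hp φ = c • φ) : T u = c • u ∧ T v = conj c • v := by
  refine periods_unique fun γ => ?_
  rw [← heckeHom_periods hp hT h γ, hc, AddMonoidHom.smul_apply, h, periodMap_smul, periodMap_smul]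
  simp [mul_add]

end Split

section Criterion

variable {q : ℕ} [Fact q.Prime] {D : ℕ} [NeZero D] [NeZero q] {A : Type*} [CommRing A]
  {χ₁ : Gamma0 (q * D) →* Aˣ} {χ₂ : Gamma0 D →* Aˣ} {ι : Type*} [Fintype ι] [Nonempty ι]

/-- A nonzero parabolic class whose translates by `U_q ^ n` are killed by the transfer to level `D`:
no eigenform of level dividing `D` has its eigenvalues. -/
theorem not_dvd_of_transfer_eq_zero (E : MixedFamily χ₁ χ₂ ι) (r : ι → SL(2, ℤ))
    (hr : ∀ i, E.mat i = (r i).1) (hrD : ∀ i, r i ∈ Gamma0 D)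
    {φ : Additive (Gamma0 (q * D)) →+ ℂ} (hφ : φ ∈ parabolicHoms ℂ (Gamma0 (q * D)) ℂ) (hφ0 : φ ≠ 0)
    (K : Finset ℕ) (c : ℕ → ℂ)
    (hT : ∀ (ℓ : ℕ) (hℓ : ℓ.Prime), ¬ ℓ ∣ q * D → ℓ ∉ K → heckeHom ℂ ℂ hℓ φ = c ℓ • φ)
    (hkill : ∀ (n : ℕ) (γ : Gamma0 D), ∑ i,
      ((heckeHom ℂ ℂ (Fact.out : q.Prime) ^ n : Module.End ℂ (Additive (Gamma0 (q * D)) →+ ℂ)) φ)
        (Additive.ofMul (E.elt γ i)) = 0)
    {L : ℕ} {g : CuspForm (Gamma0 L) 2} (hg : g.IsNormalizedEigenform)
    (hgc : ∀ ℓ : ℕ, ℓ.Prime → ℓ ∉ K → qCoeff g ℓ = c ℓ) : ¬ L ∣ D := by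
  have hq := (Fact.out : q.Prime)
  have hqR : q ∣ q * D := dvd_mul_right q D
  obtain ⟨u, v, huv⟩ := exists_periods_of_parabolic hφ
  set U : Module.End ℂ (CuspForm (Gamma0 (q * D)) 2) := CuspForm.heckeULin 2 hqR with hU
  have hn : ∀ (n : ℕ) (γ : Gamma0 (q * D)),
      ((heckeHom ℂ ℂ hq ^ n : Module.End ℂ (Additive (Gamma0 (q * D)) →+ ℂ)) φ) (Additive.ofMul γ) =
        periodMap (q * D) ((U ^ n) u) (Additive.ofMul γ) +
          conj (periodMap (q * D) ((U ^ n) v) (Additive.ofMul γ)) := by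
    intro n
    induction n with
    | zero => simpa using huv
    | succ n ih =>
      intro γ
      rw [pow_succ', Module.End.mul_apply, pow_succ', Module.End.mul_apply, Module.End.mul_apply]
      exact heckeHom_periods hq (fun w => heckeHom_periodMap_U hq hqR w) ih γ
  have horth : ∀ n, IsOrth D ((U ^ n) u) ∧ IsOrth D ((U ^ n) v) := fun n => by
    have h := periods_unique (N := D) (u := familySum E r hr ((U ^ n) u))
      (v := familySum E r hr ((U ^ n) v)) (u' := 0) (v' := 0) fun γ => by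
        rw [periodMap_familySum, periodMap_familySum, map_sum, ← Finset.sum_add_distrib,
          ← Finset.sum_congr rfl fun i _ => hn n (E.elt γ i), hkill n γ,
          show periodMap D (0 : CuspForm (Gamma0 D) 2) = 0 from map_zero (periodLin D)]
        simp
    exact ⟨isOrth_of_familySum_eq_zero E r hr hrD _ h.1, isOrth_of_familySum_eq_zero E r hr hrD _ h.2⟩
  have heig : ∀ (ℓ : ℕ) (hℓ : ℓ.Prime) (hℓN : ¬ ℓ ∣ q * D), ℓ ∉ K →
      CuspForm.heckeTLin 2 hℓ hℓN u = c ℓ • u ∧ CuspForm.heckeTLin 2 hℓ hℓN v = conj (c ℓ) • v :=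
    fun ℓ hℓ hℓN hK => heckeHom_periods_eigen hℓ (fun w => heckeHom_periodMap_T hℓ hℓN w) huv
      (hT ℓ hℓ hℓN hK)
  by_cases hu : u = 0
  · have hv : v ≠ 0 := by
      intro hv
      refine hφ0 (AddMonoidHom.ext fun x => ?_)
      obtain ⟨γ, rfl⟩ := Additive.ofMul.surjective x
      rw [huv, hu, hv,
        show periodMap (q * D) (0 : CuspForm (Gamma0 (q * D)) 2) = 0 from map_zero (periodLin _)]
      simp
    refine not_dvd_of_orth' hv (fun n => (horth n).2) K c (fun ℓ hℓ hℓN hK => ?_) hg hgc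
    have h := (heig ℓ hℓ hℓN hK).2
    have hc := Hecke.conj_eigenvalue_heckeTLin hℓ hℓN hv h
    rw [Complex.conj_conj] at hc
    rw [h, ← hc]
  · exact not_dvd_of_orth' hu (fun n => (horth n).1) K c (fun ℓ hℓ hℓN hK => (heig ℓ hℓ hℓN hK).1)
      hg hgc

end Criterion

end Fermat.Agent.RT.Systems

end
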