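import Fermat.Agent.RT.Systems.Push
import Fermat.Agent.RT.Systems.FormPeriods

/-!
# Trivial character: cohomology is homomorphisms

For the trivial character `H¹(Γ₀(R), A)` is `Hom(Γ₀(R), A)`, the Hecke operators are the transfers
and the push forward is the transfer from level `q X` to level `X`.
-/

set_option autoImplicit false

noncomputable section

namespace Fermat.Agent.RT.Systems

open scoped MatrixGroups
open Fermat.Agent.Periods Fermat.Agent.RT.TW CongruenceSubgroup

variable {A : Type} [CommRing A] {R : ℕ}

/-- The trivial character. -/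
abbrev trivChar (A : Type) [CommRing A] : MulChar (ZMod 1) A := 1

theorem level0_char_triv (γ : Gamma0 R) : (level0 (trivChar A) R (one_dvd R)).char γ = 1 :=
  Units.ext ((level0_char_apply (one_dvd R) γ).trans
    (MulChar.one_apply (isUnit_of_subsingleton _)))

/-- A cocycle for the trivial character as a homomorphism. -/
def homOfCocycle :
    twistedCocycles (level0 (trivChar A) R (one_dvd R)).char →ₗ[A] (Additive (Gamma0 R) →+ A) where
  toFun c := AddMonoidHom.mk' (fun x => c.1 (Additive.toMul x)) fun x y =>
    (twistedCocycle_mul c (Additive.toMul x) (Additive.toMul y)).trans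
      (by erw [level0_char_triv]; simp)
  map_add' _ _ := rfl
  map_smul' _ _ := rfl

theorem homOfCocycle_apply (c : twistedCocycles (level0 (trivChar A) R (one_dvd R)).char)
    (γ : Gamma0 R) : homOfCocycle c (Additive.ofMul γ) = c.1 γ := rfl

/-- A class for the trivial character as a homomorphism. -/
def homOfClass : heckeH1 (trivChar A) R (one_dvd R) →ₗ[A] (Additive (Gamma0 R) →+ A) :=
  Submodule.liftQ _ homOfCocycle (by
    rintro _ ⟨x, rfl⟩
    refine AddMonoidHom.ext fun g => ?_
    obtain ⟨γ, rfl⟩ := Additive.ofMul.surjective g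
    show (coboundary (level0 (trivChar A) R (one_dvd R)).char x).1 γ = 0
    rw [coboundary_apply]
    erw [level0_char_triv]
    simp)

theorem homOfClass_toH1 (c : twistedCocycles (level0 (trivChar A) R (one_dvd R)).char)
    (γ : Gamma0 R) :
    homOfClass (A := A) (R := R) (toH1 (level0 (trivChar A) R (one_dvd R)).char c) (Additive.ofMul γ) = c.1 γ := rfl

theorem homOfClass_injective : Function.Injective (homOfClass (A := A) (R := R)) := by
  rw [injective_iff_map_eq_zero]
  intro y hy
  obtain ⟨c, rfl⟩ := Submodule.mkQ_surjective _ y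
  have hc : c = 0 := Subtype.ext (funext fun γ => by
    rw [← homOfClass_toH1, hy]; rfl)
  rw [hc, map_zero]

theorem homOfClass_surjective : Function.Surjective (homOfClass (A := A) (R := R)) := fun φ =>
  ⟨toH1 (level0 (trivChar A) R (one_dvd R)).char ⟨fun γ => φ (Additive.ofMul γ), fun g h => by
    show φ (Additive.ofMul (g * h)) = _
    erw [level0_char_triv]
    rw [Units.val_one, one_mul]
    exact map_add φ _ _⟩, AddMonoidHom.ext fun _ => rfl⟩

theorem homOfClass_heckeOp (p : Nat.Primes) (y : heckeH1 (trivChar A) R (one_dvd R)) :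
    homOfClass (A := A) (R := R) (heckeOp (trivChar A) (one_dvd R) p y) = heckeHom A A p.2 (homOfClass (A := A) (R := R) y) := by
  obtain ⟨c, rfl⟩ := Submodule.mkQ_surjective _ y
  refine AddMonoidHom.ext fun x => ?_
  obtain ⟨γ, rfl⟩ := Additive.ofMul.surjective x
  show ((heckeFamily (trivChar A) (one_dvd R) p.2).op c).1 γ =
    heckeHom A A p.2 (homOfClass (A := A) (R := R) (toH1 (level0 (trivChar A) R (one_dvd R)).char c)) (Additive.ofMul γ)
  rw [(heckeFamily (trivChar A) (one_dvd R) p.2).op_apply_of_step c
    (σ := transferPerm p.2 γ) (g := transferElt p.2 γ) (fun i => transfer_spec p.2 γ i), heckeHom_apply]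
  refine Finset.sum_congr rfl fun i _ => ?_
  show trivChar A _ * _ = _
  rw [MulChar.one_apply (isUnit_of_subsingleton _), one_mul]
  rfl

variable {q X : ℕ} [Fact q.Prime]

/-- The family of the push forward for the trivial character. -/
abbrev trivPushFamily (hX : ¬ q ∣ X) :=
  pushFamily (trivChar A) (one_dvd X) hX (K := 1) (Fact.out : q.Prime).not_dvd_one

/-- Transfer of homomorphisms from level `q X` to level `X`. -/
theorem homOfClass_push (hX : ¬ q ∣ X)
    (y : heckeH1 (trivChar A) (q * X) (one_dvd (q * X))) (γ : Gamma0 X) :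
    homOfClass (A := A) (R := X) (push (trivChar A) (one_dvd X) hX y) (Additive.ofMul γ) =
      ∑ i, homOfClass (A := A) (R := q * X) y (Additive.ofMul ((trivPushFamily (A := A) hX).elt γ i)) := by
  obtain ⟨c, rfl⟩ := Submodule.mkQ_surjective _ y
  show ((trivPushFamily (A := A) hX).op c).1 γ = _
  rw [MixedFamily.op_apply]
  exact Finset.sum_congr rfl fun i _ => one_mul _

end Fermat.Agent.RT.Systems

end
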