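import Fermat.Agent.LevelRaise.CuspClass
import Fermat.Agent.LevelRaise.CrossingParabolic
import Fermat.Agent.Periods.Hecke
import Mathlib.Tactic.LinearCombination

/-!
# `T_ℓ` on the values at parabolic elements

For a prime `ℓ ≡ 1 (mod N)` and a homomorphism `φ` on `Γ₀(N)` with values in a group without
`2`-torsion, `(T_ℓ φ)(γ) = (ℓ + 1) φ(γ)` at every parabolic `γ`: the cusps are fixed and the sum of
the width factors over the `ℓ + 1` cosets is `ℓ + 1`. Hence non-Eisenstein classes are cuspidal.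
-/

set_option autoImplicit false

set_option linter.style.haveILetI false

noncomputable section

open CongruenceSubgroup ModularCurve.Period Matrix
open Fermat.Agent.Periods Fermat.Agent.LevelRaise
open scoped MatrixGroups

namespace Fermat.Agent.RT.Systems

variable {N : ℕ}

/-- The elements fixing the cusp `k ∞`. -/
def cuspStab (k : SL(2, ℤ)) : Subgroup (Gamma0 N) where
  carrier := {y | (k⁻¹ * (y : SL(2, ℤ)) * k).1 1 0 = 0}
  one_mem' := by
    show (k⁻¹ * (1 : SL(2, ℤ)) * k).1 1 0 = 0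
    rw [mul_one, inv_mul_cancel]
    simp
  mul_mem' := by
    intro x y hx hy
    have e : (k⁻¹ * ((x * y : Gamma0 N) : SL(2, ℤ)) * k) =
        (k⁻¹ * (x : SL(2, ℤ)) * k) * (k⁻¹ * (y : SL(2, ℤ)) * k) := by
      rw [Subgroup.coe_mul]; group
    show _ = (0 : ℤ)
    rw [e, Matrix.SpecialLinearGroup.coe_mul, Matrix.mul_apply, Fin.sum_univ_two]
    rw [show (k⁻¹ * (x : SL(2, ℤ)) * k).1 1 0 = 0 from hx,
      show (k⁻¹ * (y : SL(2, ℤ)) * k).1 1 0 = 0 from hy]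
    ring
  inv_mem' := by
    intro x hx
    have e : (k⁻¹ * ((x⁻¹ : Gamma0 N) : SL(2, ℤ)) * k) = (k⁻¹ * (x : SL(2, ℤ)) * k)⁻¹ := by
      rw [Subgroup.coe_inv]; group
    show _ = (0 : ℤ)
    rw [e, Matrix.SpecialLinearGroup.coe_inv, Matrix.adjugate_fin_two]
    simpa using hx

/-- The translation of an element fixing `k ∞`. -/
def cuspShift (k : SL(2, ℤ)) (y : Gamma0 N) : ℤ :=
  (k⁻¹ * (y : SL(2, ℤ)) * k).1 0 0 * (k⁻¹ * (y : SL(2, ℤ)) * k).1 0 1

theorem diag_of_mem {k : SL(2, ℤ)} {y : Gamma0 N} (hy : y ∈ cuspStab k) :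
    (k⁻¹ * (y : SL(2, ℤ)) * k).1 1 1 = (k⁻¹ * (y : SL(2, ℤ)) * k).1 0 0 ∧
      (k⁻¹ * (y : SL(2, ℤ)) * k).1 0 0 * (k⁻¹ * (y : SL(2, ℤ)) * k).1 0 0 = 1 := by
  have hd := (k⁻¹ * (y : SL(2, ℤ)) * k).2
  rw [Matrix.det_fin_two, show (k⁻¹ * (y : SL(2, ℤ)) * k).1 1 0 = 0 from hy, mul_zero,
    sub_zero] at hd
  rcases Int.mul_eq_one_iff_eq_one_or_neg_one.1 hd with ⟨h1, h2⟩ | ⟨h1, h2⟩ <;>
    rw [h1, h2] <;> simp

theorem cuspShift_mul {k : SL(2, ℤ)} {x y : Gamma0 N} (hx : x ∈ cuspStab k)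
    (hy : y ∈ cuspStab k) : cuspShift k (x * y) = cuspShift k x + cuspShift k y := by
  have e : (k⁻¹ * ((x * y : Gamma0 N) : SL(2, ℤ)) * k) =
      (k⁻¹ * (x : SL(2, ℤ)) * k) * (k⁻¹ * (y : SL(2, ℤ)) * k) := by
    rw [Subgroup.coe_mul]; group
  obtain ⟨hx1, hx2⟩ := diag_of_mem hx
  obtain ⟨hy1, hy2⟩ := diag_of_mem hy
  rw [cuspShift, cuspShift, cuspShift, e, Matrix.SpecialLinearGroup.coe_mul, Matrix.mul_apply,
    Matrix.mul_apply, Fin.sum_univ_two, Fin.sum_univ_two,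
    show (k⁻¹ * (y : SL(2, ℤ)) * k).1 1 0 = 0 from hy, hy1]
  linear_combination
    ((k⁻¹ * (y : SL(2, ℤ)) * k).1 0 0 * (k⁻¹ * (y : SL(2, ℤ)) * k).1 0 1) * hx2 +
    ((k⁻¹ * (x : SL(2, ℤ)) * k).1 0 0 * (k⁻¹ * (x : SL(2, ℤ)) * k).1 0 1) * hy2

variable {A : Type*} [AddCommGroup A]

theorem apply_eq_zero_of_cuspShift (hA : ∀ a : A, a + a = 0 → a = 0)
    (φ : Additive (Gamma0 N) →+ A) {k : SL(2, ℤ)} {y : Gamma0 N} (hy : y ∈ cuspStab k)
    (h0 : cuspShift k y = 0) : φ (Additive.ofMul y) = 0 := by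
  obtain ⟨h1, h2⟩ := diag_of_mem hy
  set Y := k⁻¹ * (y : SL(2, ℤ)) * k with hY
  have h01 : Y.1 0 1 = 0 := by
    refine (mul_eq_zero.1 h0).resolve_left fun h => ?_
    rw [h, mul_zero] at h2
    exact zero_ne_one h2
  have hcases : Y = 1 ∨ Y = -1 := by
    rcases mul_self_eq_one_iff.1 h2 with h | h
    · refine Or.inl (Subtype.ext ?_)
      rw [Matrix.eta_fin_two Y.1, h1, h, h01, show Y.1 1 0 = 0 from hy,
        Matrix.SpecialLinearGroup.coe_one, Matrix.one_fin_two]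
    · refine Or.inr (Subtype.ext ?_)
      rw [Matrix.eta_fin_two Y.1, h1, h, h01, show Y.1 1 0 = 0 from hy,
        Matrix.SpecialLinearGroup.coe_neg, Matrix.SpecialLinearGroup.coe_one, Matrix.one_fin_two]
      simp
  have hsq : y * y = 1 := by
    refine Subtype.ext ?_
    have e : (y : SL(2, ℤ)) = k * Y * k⁻¹ := by rw [hY]; group
    have hYY : Y * Y = 1 := by rcases hcases with h | h <;> simp [h]
    rw [Subgroup.coe_mul, Subgroup.coe_one, e,
      show k * Y * k⁻¹ * (k * Y * k⁻¹) = k * (Y * Y) * k⁻¹ by group, hYY]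
    group
  refine hA _ ?_
  rw [← map_add, ← ofMul_mul, hsq, ofMul_one, map_zero]

theorem exists_finset_sum (φ : Additive (Gamma0 N) →+ A) {k : SL(2, ℤ)} {ι : Type*}
    (s : Finset ι) (f : ι → Gamma0 N) (hf : ∀ i ∈ s, f i ∈ cuspStab k) :
    ∃ y ∈ cuspStab k, cuspShift k y = ∑ i ∈ s, cuspShift k (f i) ∧
      φ (Additive.ofMul y) = ∑ i ∈ s, φ (Additive.ofMul (f i)) := by
  classical
  induction s using Finset.induction_on with
  | empty => exact ⟨1, one_mem _, by simp [cuspShift], by simp⟩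
  | insert i s his ih =>
    obtain ⟨y, hy, h1, h2⟩ := ih fun j hj => hf j (Finset.mem_insert_of_mem hj)
    have hi := hf i (Finset.mem_insert_self i s)
    exact ⟨f i * y, mul_mem hi hy, by rw [cuspShift_mul hi hy, Finset.sum_insert his, h1],
      by rw [ofMul_mul, map_add, Finset.sum_insert his, h2]⟩

/-- Exactly one representative shrinks a given primitive vector by `ℓ`. -/
theorem existsUnique_heckeMat_dvd {ℓ : ℕ} (hℓ : ℓ.Prime) (hℓN : ¬ ℓ ∣ N) {a c : ℤ}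
    (hac : IsCoprime a c) :
    ∃! i : HeckeIdx N ℓ, (ℓ : ℤ) ∣ (heckeMat N ℓ i *ᵥ ![a, c]) 0 ∧
      (ℓ : ℤ) ∣ (heckeMat N ℓ i *ᵥ ![a, c]) 1 := by
  haveI : Fact ℓ.Prime := ⟨hℓ⟩
  have key : ∀ i : HeckeIdx N ℓ, ((ℓ : ℤ) ∣ (heckeMat N ℓ i *ᵥ ![a, c]) 0 ∧
      (ℓ : ℤ) ∣ (heckeMat N ℓ i *ᵥ ![a, c]) 1) ↔
      i.1.elim ((c : ZMod ℓ) = 0) (fun j => (a : ZMod ℓ) + (j : ℕ) * (c : ZMod ℓ) = 0) := by
    rintro ⟨_ | j, hi⟩ <;>
      simp [heckeMat, Matrix.mulVec, dotProduct, Fin.sum_univ_two,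
        ← ZMod.intCast_zmod_eq_zero_iff_dvd]
  simp_rw [key]
  by_cases hc : (c : ZMod ℓ) = 0
  · refine ⟨⟨none, fun _ => hℓN⟩, hc, ?_⟩
    rintro ⟨_ | j, hi⟩ hj
    · rfl
    · exfalso
      simp only [Option.elim_some, hc, mul_zero, add_zero] at hj
      obtain ⟨u, v, huv⟩ := hac
      have h := congrArg (Int.cast : ℤ → ZMod ℓ) huv
      push_cast at h
      rw [hj, hc] at h
      simp at h
  · refine ⟨⟨some ⟨(-(a : ZMod ℓ) * (c : ZMod ℓ)⁻¹).val, ZMod.val_lt _⟩, fun h => by simp at h⟩,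
      by simp [inv_mul_cancel₀ hc, mul_assoc], ?_⟩
    rintro ⟨_ | j, hi⟩ hj
    · exact absurd hj hc
    · refine Subtype.ext (congrArg some (Fin.ext ?_))
      simp only [Option.elim_some] at hj
      have hj' : ((j : ℕ) : ZMod ℓ) = -(a : ZMod ℓ) * (c : ZMod ℓ)⁻¹ := by
        field_simp
        linear_combination hj
      have h := congrArg ZMod.val hj'
      rw [ZMod.val_cast_of_lt j.2] at h
      exact h

/-- `T_ℓ` multiplies the values at parabolic elements by `ℓ + 1`. -/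
theorem heckeHom_apply_parabolic [NeZero N] (hA : ∀ a : A, a + a = 0 → a = 0) {ℓ : ℕ}
    (hℓ : ℓ.Prime) (hℓ1 : (ℓ : ZMod N) = 1) (φ : Additive (Gamma0 N) →+ A) (γ : Gamma0 N)
    (htr : ((γ : SL(2, ℤ)) : Matrix (Fin 2) (Fin 2) ℤ).trace ^ 2 = 4) :
    heckeHom ℤ A hℓ φ (Additive.ofMul γ) = (ℓ + 1) • φ (Additive.ofMul γ) := by
  classical
  have hℓN : ¬ ℓ ∣ N := fun h => by
    have h0 := congrArg (ZMod.castHom h (ZMod ℓ)) hℓ1
    rw [map_natCast, map_one, ZMod.natCast_self] at h0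
    haveI : Fact ℓ.Prime := ⟨hℓ⟩
    exact zero_ne_one h0
  obtain ⟨k, s, n, hs, hγk⟩ := exists_conj_eq_T_zpow (γ : SL(2, ℤ)) htr
  have hγ : γ ∈ cuspStab k := by
    show (k⁻¹ * (γ : SL(2, ℤ)) * k).1 1 0 = 0
    rw [hγk, show k⁻¹ * (k * (s * ModularGroup.T ^ n) * k⁻¹) * k = s * ModularGroup.T ^ n by group]
    rcases hs with rfl | rfl <;> simp [ModularGroup.coe_T_zpow]
  have hr : (k.1 *ᵥ ![1, 0]) ≠ 0 := by
    intro h
    have h2 := congrArg (fun v => (k⁻¹).1 *ᵥ v) h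
    simp only [Matrix.mulVec_mulVec, ← Matrix.SpecialLinearGroup.coe_mul, inv_mul_cancel,
      Matrix.SpecialLinearGroup.coe_one, Matrix.one_mulVec, Matrix.mulVec_zero] at h2
    simpa using congrFun h2 0
  choose g c c' hc hc' hg using fun i => exists_gamma0_heckeMat_mulVec (N := N) hℓ hℓ1 i _ hr
  let B : HeckeIdx N ℓ → Matrix (Fin 2) (Fin 2) ℤ := fun i =>
    ((g i : SL(2, ℤ)) * k)⁻¹.1 * heckeMat N ℓ i * k.1
  have hB10 : ∀ i, B i 1 0 = 0 := fun i => by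
    have h1 : c i • (B i *ᵥ ![1, 0]) = c' i • ![1, 0] := by
      show c i • ((((g i : SL(2, ℤ)) * k)⁻¹.1 * heckeMat N ℓ i * k.1) *ᵥ ![1, 0]) = _
      rw [← Matrix.mulVec_mulVec, ← Matrix.mulVec_mulVec, ← Matrix.mulVec_smul, hg i,
        Matrix.mulVec_smul, Matrix.mulVec_mulVec, Matrix.mulVec_mulVec,
        ← Matrix.SpecialLinearGroup.coe_mul, ← Matrix.SpecialLinearGroup.coe_mul,
        show ((g i : SL(2, ℤ)) * k)⁻¹ * (g i : SL(2, ℤ)) * k = 1 by group,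
        Matrix.SpecialLinearGroup.coe_one, Matrix.one_mulVec]
    have h2 := congrFun h1 1
    simp [Matrix.mulVec, dotProduct, Fin.sum_univ_two] at h2
    exact h2.resolve_left (hc i)
  have hBdet : ∀ i, B i 0 0 * B i 1 1 = (ℓ : ℤ) := fun i => by
    have h : (B i).det = (ℓ : ℤ) := by
      simp only [B, Matrix.det_mul, heckeMat_det, Matrix.SpecialLinearGroup.det_coe]
      simp
    rw [Matrix.det_fin_two, hB10, mul_zero, sub_zero] at h
    exact h
  have hB0 : ∀ i, B i 0 0 ≠ 0 := fun i h => by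
    have h' := hBdet i
    rw [h, zero_mul] at h'
    exact hℓ.ne_zero (by exact_mod_cast h'.symm)
  let σ := transferIdx hℓ γ
  let y : HeckeIdx N ℓ → Gamma0 N := fun i => (g i)⁻¹ * transferElt hℓ γ i * g (σ i)
  set E := k⁻¹ * (γ : SL(2, ℤ)) * k with hE
  have hstep : ∀ i, (k⁻¹ * (y i : SL(2, ℤ)) * k).1 * B (σ i) = B i * E.1 := fun i => by
    have h := transfer_spec hℓ γ i
    calc (k⁻¹ * (y i : SL(2, ℤ)) * k).1 * B (σ i)
        = ((k⁻¹ * (y i : SL(2, ℤ)) * k) * ((g (σ i) : SL(2, ℤ)) * k)⁻¹).1 *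
            (heckeMat N ℓ (σ i) * k.1) := by
          simp only [B, Matrix.SpecialLinearGroup.coe_mul, Matrix.mul_assoc]
      _ = ((g i : SL(2, ℤ)) * k)⁻¹.1 *
            ((transferElt hℓ γ i : SL(2, ℤ)).1 * heckeMat N ℓ (σ i)) * k.1 := by
          rw [show (k⁻¹ * (y i : SL(2, ℤ)) * k) * ((g (σ i) : SL(2, ℤ)) * k)⁻¹ =
            ((g i : SL(2, ℤ)) * k)⁻¹ * (transferElt hℓ γ i : SL(2, ℤ)) by
              simp only [y, Subgroup.coe_mul, Subgroup.coe_inv]; group]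
          simp only [Matrix.SpecialLinearGroup.coe_mul, Matrix.mul_assoc]
      _ = ((g i : SL(2, ℤ)) * k)⁻¹.1 * (heckeMat N ℓ i * (γ : SL(2, ℤ)).1) * k.1 := by rw [h]
      _ = B i * E.1 := by
          simp only [B, hE, Matrix.SpecialLinearGroup.coe_mul, Matrix.mul_assoc]
          congr 2
          rw [← Matrix.mul_assoc k.1 (k⁻¹).1,
            show k.1 * (k⁻¹).1 = 1 by
              rw [← Matrix.SpecialLinearGroup.coe_mul, mul_inv_cancel,
                Matrix.SpecialLinearGroup.coe_one],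
            Matrix.one_mul]
  obtain ⟨hE1, hE2⟩ := diag_of_mem hγ
  have hE10 : E.1 1 0 = 0 := hγ
  have hy : ∀ i, y i ∈ cuspStab k := fun i => by
    have h := congrFun (congrFun (hstep i) 1) 0
    simp only [Matrix.mul_apply, Fin.sum_univ_two, hB10, hE10, mul_zero, add_zero, zero_mul,
      zero_add] at h
    exact (mul_eq_zero.1 h).resolve_right (hB0 _)
  have hshift : ∀ i, B i 0 0 * B i 0 0 * cuspShift k γ + B i 0 0 * B i 0 1 =
      B (σ i) 0 0 * B (σ i) 0 1 + (ℓ : ℤ) * cuspShift k (y i) := fun i => by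
    obtain ⟨hY1, hY2⟩ := diag_of_mem (hy i)
    have h0 := congrFun (congrFun (hstep i) 0) 0
    have h1 := congrFun (congrFun (hstep i) 0) 1
    simp only [Matrix.mul_apply, Fin.sum_univ_two, hB10, hE10, mul_zero, add_zero] at h0 h1
    rw [cuspShift, cuspShift, ← hE]
    set Y := k⁻¹ * (y i : SL(2, ℤ)) * k
    rw [hE1] at h1
    linear_combination (-(Y.1 0 0) * B (σ i) 0 0) * h1 -
      (B i 0 0 * E.1 0 1 + B i 0 1 * E.1 0 0) * h0 + (Y.1 0 0 * Y.1 0 1) * hBdet (σ i) +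
      (B (σ i) 0 0 * B (σ i) 0 1) * hY2 - (B i 0 0 * B i 0 1) * hE2
  have hsum : ∑ i, cuspShift k (y i) = ((ℓ : ℤ) + 1) * cuspShift k γ := by
    have hd : ∀ i, B i 0 0 * B i 0 0 = 1 + if ((ℓ : ℤ) ∣ (heckeMat N ℓ i *ᵥ (k.1 *ᵥ ![1, 0])) 0 ∧
        (ℓ : ℤ) ∣ (heckeMat N ℓ i *ᵥ (k.1 *ᵥ ![1, 0])) 1) then (ℓ : ℤ) ^ 2 - 1 else 0 := by
      intro i
      have hv : heckeMat N ℓ i *ᵥ (k.1 *ᵥ ![1, 0]) =
          B i 0 0 • (((g i : SL(2, ℤ)) * k).1 *ᵥ ![1, 0]) := by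
        have hBe : B i *ᵥ ![1, 0] = B i 0 0 • ![1, 0] := by
          ext j
          fin_cases j <;> simp [Matrix.mulVec, dotProduct, Fin.sum_univ_two, hB10]
        rw [← Matrix.mulVec_smul, ← hBe, Matrix.mulVec_mulVec, Matrix.mulVec_mulVec]
        simp only [B]
        rw [← Matrix.mul_assoc, ← Matrix.mul_assoc, ← Matrix.SpecialLinearGroup.coe_mul,
          mul_inv_cancel, Matrix.SpecialLinearGroup.coe_one, Matrix.one_mul]
      have hcop : IsCoprime ((((g i : SL(2, ℤ)) * k).1 *ᵥ ![1, 0]) 0)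
          ((((g i : SL(2, ℤ)) * k).1 *ᵥ ![1, 0]) 1) := by
        have hd := ((g i : SL(2, ℤ)) * k).2
        rw [Matrix.det_fin_two] at hd
        refine ⟨((g i : SL(2, ℤ)) * k).1 1 1, -((g i : SL(2, ℤ)) * k).1 0 1, ?_⟩
        simp [Matrix.mulVec, dotProduct, Fin.sum_univ_two]
        linear_combination hd
      have hdvd : (B i 0 0).natAbs ∣ ℓ := ⟨(B i 1 1).natAbs, by
        rw [← Int.natAbs_mul, hBdet, Int.natAbs_natCast]⟩
      have hprime : Prime (ℓ : ℤ) := Nat.prime_iff_prime_int.1 hℓ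
      rw [← Int.natAbs_mul_self' (B i 0 0), hv]
      simp only [Pi.smul_apply, smul_eq_mul]
      rcases (Nat.dvd_prime hℓ).1 hdvd with h1 | hl
      · rw [h1, if_neg]
        · simp
        · rintro ⟨ha, hb⟩
          have hnd : ¬ (ℓ : ℤ) ∣ B i 0 0 := fun h => hℓ.ne_one (Nat.dvd_one.1 (h1 ▸
            Int.natCast_dvd.1 h))
          exact hprime.not_isUnit (hcop.isUnit_of_dvd' ((hprime.dvd_or_dvd ha).resolve_left hnd)
            ((hprime.dvd_or_dvd hb).resolve_left hnd))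
      · rw [hl, if_pos]
        · ring
        · have h : (ℓ : ℤ) ∣ B i 0 0 := Int.natCast_dvd.2 (by rw [hl])
          exact ⟨h.mul_right _, h.mul_right _⟩
    have hcard : (Finset.univ.filter fun i : HeckeIdx N ℓ =>
        ((ℓ : ℤ) ∣ (heckeMat N ℓ i *ᵥ (k.1 *ᵥ ![1, 0])) 0 ∧
          (ℓ : ℤ) ∣ (heckeMat N ℓ i *ᵥ (k.1 *ᵥ ![1, 0])) 1)).card = 1 := by
      have hk : k.1 *ᵥ ![1, 0] = ![k.1 0 0, k.1 1 0] := by
        ext j
        fin_cases j <;> simp [Matrix.mulVec, dotProduct, Fin.sum_univ_two]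
      have hkcop : IsCoprime (k.1 0 0) (k.1 1 0) := by
        have hd := k.2
        rw [Matrix.det_fin_two] at hd
        exact ⟨k.1 1 1, -k.1 0 1, by linear_combination hd⟩
      obtain ⟨i₀, hi₀, hu⟩ := existsUnique_heckeMat_dvd (N := N) hℓ hℓN hkcop
      rw [hk, Finset.card_eq_one]
      exact ⟨i₀, Finset.eq_singleton_iff_unique_mem.2
        ⟨Finset.mem_filter.2 ⟨Finset.mem_univ _, hi₀⟩, fun j hj => hu j (Finset.mem_filter.1 hj).2⟩⟩
    have hS : ∑ i, B i 0 0 * B i 0 0 = (ℓ : ℤ) * ((ℓ : ℤ) + 1) := by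
      simp_rw [hd]
      rw [Finset.sum_add_distrib, ← Finset.sum_filter, Finset.sum_const, Finset.sum_const, hcard,
        Finset.card_univ, Fintype.card_congr (Equiv.subtypeUnivEquiv fun _ _ => hℓN),
        Fintype.card_option, Fintype.card_fin]
      simp
      ring
    have h := Finset.sum_congr rfl fun i (_ : i ∈ Finset.univ) => hshift i
    simp only [Finset.sum_add_distrib, ← Finset.mul_sum, ← Finset.sum_mul, hS] at h
    rw [(transferIdx_bijective hℓ γ).sum_comp (fun i => B i 0 0 * B i 0 1)] at h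
    refine mul_left_cancel₀ (Int.natCast_ne_zero.2 hℓ.ne_zero : (ℓ : ℤ) ≠ 0) ?_
    linear_combination -h
  obtain ⟨Y, hY, hYs, hYφ⟩ := exists_finset_sum φ Finset.univ y fun i _ => hy i
  have hpow : ∀ m : ℕ, cuspShift k (γ ^ m) = (m : ℤ) * cuspShift k γ := fun m => by
    induction m with
    | zero => simp [cuspShift]
    | succ m ih => rw [pow_succ, cuspShift_mul (pow_mem hγ m) hγ, ih]; push_cast; ring
  have hz : φ (Additive.ofMul (Y * (γ ^ (ℓ + 1))⁻¹)) = 0 := by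
    have hp : γ ^ (ℓ + 1) ∈ cuspStab k := pow_mem hγ _
    refine apply_eq_zero_of_cuspShift hA φ (mul_mem hY (inv_mem hp)) ?_
    have h1 := cuspShift_mul hp (inv_mem hp)
    rw [mul_inv_cancel, show cuspShift k (1 : Gamma0 N) = 0 by simp [cuspShift], hpow] at h1
    rw [cuspShift_mul hY (inv_mem hp), hYs, hsum]
    push_cast at h1
    linear_combination -h1
  rw [ofMul_mul, map_add, ofMul_inv, map_neg, ← sub_eq_add_neg, sub_eq_zero, hYφ, ofMul_pow,
    map_nsmul] at hz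
  rw [heckeHom_apply, ← hz]
  simp only [y, ofMul_mul, ofMul_inv, map_add, map_neg, Finset.sum_add_distrib,
    Finset.sum_neg_distrib]
  rw [(transferIdx_bijective hℓ γ).sum_comp (fun i => φ (Additive.ofMul (g i)))]
  abel

/-- A non-Eisenstein eigen homomorphism is cuspidal. -/
theorem mem_cuspidalHoms_of_eigen [NeZero N] {k : Type*} [Field k]
    (h2 : (2 : k) ≠ 0) (h3 : (3 : k) ≠ 0) {ℓ : ℕ}
    (hℓ : ℓ.Prime) (hℓ1 : (ℓ : ZMod N) = 1) {a : ℤ} (ha : (a : k) ≠ (ℓ : k) + 1)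
    {φ : Additive (Gamma0 N) →+ k} (hφ : heckeHom ℤ k hℓ φ = a • φ) :
    φ ∈ cuspidalHoms ℤ (Gamma0 N) k := by
  intro γ hγ
  rcases eq_or_lt_of_le hγ with h | h
  · have hp := heckeHom_apply_parabolic (A := k)
      (fun x hx => by rw [← two_mul] at hx; exact (mul_eq_zero.1 hx).resolve_left h2) hℓ hℓ1 φ γ h
    rw [hφ, AddMonoidHom.smul_apply, zsmul_eq_mul, nsmul_eq_mul] at hp
    by_contra hne
    exact ha (by exact_mod_cast mul_right_cancel₀ hne hp)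
  · have h12 : γ ^ 12 = 1 := Subtype.ext (by
      rw [Subgroup.coe_pow, Subgroup.coe_one]
      exact pow_twelve_eq_one_of_trace _ h)
    have := congrArg (fun x => φ (Additive.ofMul x)) h12
    simp only [ofMul_pow, map_nsmul, ofMul_one, map_zero, nsmul_eq_mul] at this
    refine (mul_eq_zero.1 this).resolve_left ?_
    rw [show ((12 : ℕ) : k) = 2 * 2 * 3 by norm_num]
    exact mul_ne_zero (mul_ne_zero h2 h2) h3

end Fermat.Agent.RT.Systems
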