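import Fermat.Agent.LevelRaise.Eigen
import Fermat.Agent.LevelRaise.Main
import Fermat.Agent.RT.Assembly.Defs
import Fermat.Agent.RT.Systems.Parabolic

/-!
# Residual systems on `H¹(Γ₀(L), k)` and eigenforms

With trivial character the twisted cohomology is `Hom(Γ₀(L), k)`.  An eigenform congruent to an
integral system at the primes outside `S` gives the system; a non-Eisenstein integral system gives
a congruent eigenform.
-/

set_option autoImplicit false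
set_option linter.style.haveILetI false

noncomputable section

open CongruenceSubgroup ModularCurve.Period
open Fermat.Agent.Periods Fermat.Agent.LevelRaise
open scoped MatrixGroups IsMulCommutative

namespace Fermat.Agent.RT.Systems

/-- A maximal ideal of a finite torsion-free commutative ring lies under a point in `ℤ̄`. -/
theorem exists_integralPoint (T : Type) [CommRing T] [Module.Finite ℤ T]
    (htf : ∀ (n : ℤ) (u : T), n ≠ 0 → n • u = 0 → u = 0) (Q : Ideal T) (hQmax : Q.IsMaximal) :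
    ∃ (θ : T →+* integralClosure ℤ ℂ) (𝔪 : Ideal (integralClosure ℤ ℂ)), 𝔪.IsMaximal ∧
      ∀ t ∈ Q, θ t ∈ 𝔪 := by
  -- a prime of characteristic zero between `J` and `Q`
  let A : Submonoid T :=
    { carrier := {a | ∃ (n : ℤ) (u : T), n ≠ 0 ∧ u ∉ Q ∧ a = n • u}
      one_mem' := ⟨1, 1, one_ne_zero, (Ideal.ne_top_iff_one Q).mp hQmax.ne_top, (one_smul ℤ _).symm⟩
      mul_mem' := by
        rintro a b ⟨n, u, hn, hu, rfl⟩ ⟨m, v, hm, hv, rfl⟩
        exact ⟨n * m, u * v, mul_ne_zero hn hm,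
          fun h => (hQmax.isPrime.mem_or_mem h).elim hu hv, (smul_mul_smul_comm n u m v)⟩ }
  have hdis : Disjoint ((⊥ : Ideal T) : Set T) (A : Set T) := by
    rw [Set.disjoint_left]
    rintro a ha ⟨n, u, hn, hu, rfl⟩
    have hu0 : u = 0 := htf n u hn (Ideal.mem_bot.1 ha)
    exact hu (by rw [hu0]; exact Q.zero_mem)
  obtain ⟨P, hPprime, -, hPA⟩ := Ideal.exists_le_prime_disjoint ⊥ A hdis
  have hPQ : P ≤ Q := fun a ha => by
    by_contra h
    exact Set.disjoint_left.mp hPA ha ⟨1, a, one_ne_zero, h, (one_smul ℤ _).symm⟩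
  let B := T ⧸ P
  have hinj : Function.Injective (algebraMap ℤ B) := by
    rw [injective_iff_map_eq_zero]
    intro n hn
    by_contra h0
    rw [← Ideal.Quotient.mk_algebraMap, Ideal.Quotient.eq_zero_iff_mem,
      Algebra.algebraMap_eq_smul_one] at hn
    exact Set.disjoint_left.mp hPA hn
      ⟨n, 1, h0, (Ideal.ne_top_iff_one Q).mp hQmax.ne_top, rfl⟩
  have : Module.IsTorsionFree ℤ B := Module.isTorsionFree_iff_algebraMap_injective.mpr hinj
  have : Algebra.IsIntegral ℤ B := Algebra.IsIntegral.of_finite ℤ B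
  have : Module.IsTorsionFree ℤ ℂ :=
    Module.isTorsionFree_iff_algebraMap_injective.mpr Int.cast_injective
  let θ : B →ₐ[ℤ] ℂ := IsAlgClosed.lift
  let θ' : B →ₐ[ℤ] integralClosure ℤ ℂ :=
    θ.codRestrict _ fun b => (Algebra.IsIntegral.isIntegral b).map θ
  have hθ' : ∀ b : B, ((θ' b : integralClosure ℤ ℂ) : ℂ) = θ b := fun b => rfl
  -- the maximal ideal
  let Qb : Ideal B := Q.map (Ideal.Quotient.mk P)
  have hker : RingHom.ker (Ideal.Quotient.mk P) ≤ Q := by rwa [Ideal.mk_ker]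
  have hQb : Qb.IsMaximal :=
    (Ideal.map_eq_top_or_isMaximal_of_surjective _ Ideal.Quotient.mk_surjective hQmax).resolve_left
      fun h => hQmax.ne_top (by
        have h' := congrArg (Ideal.comap (Ideal.Quotient.mk P)) h
        rwa [Ideal.comap_map_of_surjective _ Ideal.Quotient.mk_surjective, Ideal.comap_top,
          ← RingHom.ker_eq_comap_bot, sup_eq_left.mpr hker] at h')
  let : Algebra B (integralClosure ℤ ℂ) := θ'.toRingHom.toAlgebra
  have : IsScalarTower ℤ B (integralClosure ℤ ℂ) := IsScalarTower.of_algHom θ'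
  have : Algebra.IsIntegral B (integralClosure ℤ ℂ) :=
    ⟨fun a => (Algebra.IsIntegral.isIntegral (R := ℤ) a).tower_top⟩
  have hθker : RingHom.ker (algebraMap B (integralClosure ℤ ℂ)) ≤ Qb := by
    have hθ : Function.Injective θ := by
      rw [injective_iff_map_eq_zero]
      intro b hb
      by_contra hb0
      obtain ⟨n, hn, hnb⟩ : ∃ n : ℤ, n ≠ 0 ∧ b ∣ algebraMap ℤ B n := by
        obtain ⟨q', hq', hdvd⟩ := (Algebra.IsIntegral.isIntegral (R := ℤ) b).isAlgebraic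
          |>.exists_nonzero_dvd (mem_nonZeroDivisors_of_ne_zero hb0)
        exact ⟨q', hq', hdvd⟩
      obtain ⟨b', hb'⟩ := hnb
      have := congrArg θ hb'
      rw [map_mul, hb, zero_mul, AlgHom.commutes] at this
      exact hn (Int.cast_injective (α := ℂ) (by simpa using this))
    intro b hb
    have : θ b = 0 := congrArg Subtype.val (RingHom.mem_ker.mp hb)
    rw [hθ (this.trans (map_zero θ).symm)]
    exact Qb.zero_mem
  obtain ⟨𝔪, hm, hmQ⟩ := Ideal.exists_ideal_over_maximal_of_isIntegral Qb hθker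
  have hmem : ∀ t : T, t ∈ Q → θ' (Ideal.Quotient.mk P t) ∈ 𝔪 := fun t ht => by
    have : Ideal.Quotient.mk P t ∈ 𝔪.comap (algebraMap B (integralClosure ℤ ℂ)) := by
      rw [hmQ]; exact Ideal.mem_map_of_mem _ ht
    exact this
  exact ⟨θ'.toRingHom.comp (Ideal.Quotient.mk P), 𝔪, hm, hmem⟩

/-- A non-zero cuspidal class modulo `p` with integral eigenvalues on a set of primes gives a
congruent normalised eigenform. -/
theorem exists_eigenform_of_modp_class {M : ℕ} [NeZero M] {p : ℕ} (hp : p.Prime)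
    (S : Set ℕ) (c : ℕ → ℤ)
    (x : cuspidalHoms ℤ (Gamma0 M) ℤ)
    (hx0 : ¬ ∃ w : cuspidalHoms ℤ (Gamma0 M) ℤ, x = (p : ℤ) • w)
    (heig : ∀ (ℓ : ℕ) (hℓ : ℓ.Prime), ℓ ∈ S →
      ∃ w : cuspidalHoms ℤ (Gamma0 M) ℤ, LevelRaise.heckeOp M hℓ x - c ℓ • x = (p : ℤ) • w) :
    ∃ (g : CuspForm (Gamma0 M) 2) (𝔪 : Ideal (integralClosure ℤ ℂ)),
      g.IsNormalizedEigenform ∧ 𝔪.IsMaximal ∧ (p : integralClosure ℤ ℂ) ∈ 𝔪 ∧
      ∀ ℓ ∈ S, ℓ.Prime → ∃ a : integralClosure ℤ ℂ, (a : ℂ) = ModularFormClass.qCoeff g ℓ ∧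
        a - (c ℓ : integralClosure ℤ ℂ) ∈ 𝔪 := by
  have := moduleFinite_opAlg M
  let T := opAlg M
  let I : Ideal T :=
    { carrier := {t | ∃ w : (cuspidalHoms ℤ (Gamma0 M) ℤ), (t : Module.End ℤ (cuspidalHoms ℤ (Gamma0 M) ℤ)) x = (p : ℤ) • w}
      zero_mem' := ⟨0, by simp⟩
      add_mem' := by
        rintro a b ⟨w, hw⟩ ⟨w', hw'⟩
        exact ⟨w + w', by
          show (a : Module.End ℤ (cuspidalHoms ℤ (Gamma0 M) ℤ)) x + (b : Module.End ℤ (cuspidalHoms ℤ (Gamma0 M) ℤ)) x = _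
          rw [hw, hw', smul_add]⟩
      smul_mem' := by
        rintro s t ⟨w, hw⟩
        exact ⟨(s : Module.End ℤ (cuspidalHoms ℤ (Gamma0 M) ℤ)) w, by
          show (s : Module.End ℤ (cuspidalHoms ℤ (Gamma0 M) ℤ)) ((t : Module.End ℤ (cuspidalHoms ℤ (Gamma0 M) ℤ)) x) = _
          rw [hw, map_zsmul]⟩ }
  have hI : I ≠ ⊤ := fun h => by
    obtain ⟨w, hw⟩ : (1 : T) ∈ I := h ▸ Submodule.mem_top
    exact hx0 ⟨w, hw⟩
  obtain ⟨Q, hQmax, hIQ⟩ := Ideal.exists_le_maximal I hI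
  have hpQ : (p : T) ∈ Q := hIQ ⟨x, by
    rw [← map_natCast (algebraMap ℤ T)]
    simp⟩
  have htf : ∀ (n : ℤ) (u : T), n ≠ 0 → n • u = 0 → u = 0 := fun n u hn h =>
    Subtype.ext (LinearMap.ext fun v => Subtype.ext (AddMonoidHom.ext fun g => by
      have h' := DFunLike.congr_fun (congrArg Subtype.val
        (LinearMap.congr_fun (congrArg Subtype.val h) v)) g
      change n • _ = (0 : ℤ) at h'
      exact (smul_eq_zero.mp h').resolve_left hn))
  obtain ⟨θ, 𝔪, hm, hmem⟩ := exists_integralPoint T htf Q hQmax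
  let χ : CuspForm.heckeAlgebra M 2 ∅ →+* ℂ :=
    ((integralClosure ℤ ℂ).val.toRingHom.comp θ).comp (toOpAlg M)
  obtain ⟨g₀, hg₀, hg₀χ⟩ := exists_eigenform_of_ringHom M (hasHeckeLattice M) χ
  obtain ⟨g, hg, -, hgT, hgU⟩ :=
    Hecke.exists_normalizedEigenform_of_eigenvector χ hg₀.ne_zero hg₀χ
  refine ⟨g, 𝔪, hg, hm, ?_, fun ℓ hℓS hℓ => ?_⟩
  · simpa using hmem _ hpQ
  · obtain ⟨t, ht, htg⟩ : ∃ t : T,
        (t : Module.End ℤ (cuspidalHoms ℤ (Gamma0 M) ℤ)) = LevelRaise.heckeOp M hℓ ∧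
        ModularFormClass.qCoeff g ℓ = (θ t : ℂ) := by
      by_cases hℓM : ℓ ∣ M
      · exact ⟨_, shadowOf_U hℓ hℓM, hgU ℓ hℓ hℓM⟩
      · exact ⟨_, shadowOf_T hℓ hℓM, hgT ℓ hℓ hℓM⟩
    refine ⟨θ t, htg.symm, ?_⟩
    have h1 : t - algebraMap ℤ T (c ℓ) ∈ Q := hIQ (by
      obtain ⟨w, hw⟩ := heig ℓ hℓ hℓS
      refine ⟨w, ?_⟩
      rw [AddSubgroupClass.coe_sub, LinearMap.sub_apply, ht, Subalgebra.coe_algebraMap,
        Module.algebraMap_end_apply, ← hw])
    simpa using hmem _ h1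

section Trivial

variable {k : Type} [CommRing k] {L : ℕ}

local notation "Φ₁" => (1 : MulChar (ZMod 1) k)

theorem level0_char_one (γ : (TW.level0 Φ₁ L (one_dvd L)).grp) :
    ((TW.level0 Φ₁ L (one_dvd L)).char γ : k) = 1 := by
  have h : IsUnit ((((TW.level0 Φ₁ L (one_dvd L)).toS γ⁻¹ : IntMat) 0 0 : ℤ) : ZMod 1) := by
    rw [Subsingleton.elim (((((TW.level0 Φ₁ L (one_dvd L)).toS γ⁻¹ : IntMat) 0 0 : ℤ) : ZMod 1)) 1]
    exact isUnit_one
  show Φ₁ _ = 1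
  exact MulChar.one_apply h

theorem heckeFamily_weight_one {p : ℕ} (hp : p.Prime) (i : HeckeIdx L p) :
    (TW.heckeFamily Φ₁ (one_dvd L) hp).weight i = 1 := by
  show Φ₁ _ = 1
  exact MulChar.one_apply (by
    rw [Subsingleton.elim ((((_ : IntMat) 0 0 : ℤ) : ZMod 1)) 1]; exact isUnit_one)

/-- A homomorphism as a cocycle with trivial twist. -/
def homToCocycle (φ : Additive (Gamma0 L) →+ k) : (TW.level0 Φ₁ L (one_dvd L)).Z1 :=
  ⟨fun γ => φ (Additive.ofMul γ), fun γ δ =>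
    (φ.map_add' (Additive.ofMul γ) (Additive.ofMul δ)).trans
      (by rw [level0_char_one, one_mul]; rfl)⟩

/-- A cocycle with trivial twist as a homomorphism. -/
def cocycleToHom (c : (TW.level0 Φ₁ L (one_dvd L)).Z1) : Additive (Gamma0 L) →+ k :=
  AddMonoidHom.mk' (fun γ => c.1 (Additive.toMul γ)) fun γ δ =>
    (TW.twistedCocycle_mul c (Additive.toMul γ) (Additive.toMul δ)).trans
      (by rw [level0_char_one, one_mul])

theorem homToCocycle_cocycleToHom (c : (TW.level0 Φ₁ L (one_dvd L)).Z1) :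
    homToCocycle (cocycleToHom c) = c :=
  Subtype.ext rfl

/-- The class of a cocycle with trivial twist. -/
abbrev toClass : (TW.level0 Φ₁ L (one_dvd L)).Z1 →ₗ[k] TW.heckeH1 Φ₁ L (one_dvd L) :=
  TW.toH1 (TW.level0 Φ₁ L (one_dvd L)).char

theorem op_homToCocycle {p : ℕ} (hp : p.Prime) (φ : Additive (Gamma0 L) →+ k) :
    (TW.heckeFamily Φ₁ (one_dvd L) hp).op (homToCocycle φ) =
      homToCocycle (heckeHom ℤ k hp φ) := by
  refine Subtype.ext (funext fun γ => ?_)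
  rw [TW.CosetFamily.op_apply_of_step _ _ (γ := γ)
    (σ := Equiv.ofBijective _ (transferIdx_bijective hp γ)) (g := transferElt hp γ)
    (fun i => transfer_spec hp γ i)]
  simp only [heckeFamily_weight_one, one_mul]
  rfl

theorem toH1_injective_one :
    Function.Injective (TW.toH1 (TW.level0 Φ₁ L (one_dvd L)).char) := by
  refine (injective_iff_map_eq_zero _).2 fun c hc => ?_
  obtain ⟨x, rfl⟩ := (Submodule.Quotient.mk_eq_zero _).1 hc
  refine Subtype.ext (funext fun γ => ?_)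
  rw [TW.coboundary_apply, level0_char_one, sub_self, zero_mul]
  rfl

/-- An integral eigenvalue on homomorphisms is one on cohomology. -/
theorem heckeOp_toH1_homToCocycle_iff (p : Nat.Primes) (φ : Additive (Gamma0 L) →+ k) (a : ℤ) :
    TW.heckeOp Φ₁ (one_dvd L) p (toClass (k := k) (L := L) (homToCocycle φ)) =
        (a : k) • toClass (k := k) (L := L) (homToCocycle φ) ↔
      heckeHom ℤ k p.2 φ = a • φ := by
  rw [TW.heckeOp_toH1, op_homToCocycle, ← map_smul, toH1_injective_one.eq_iff]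
  refine ⟨fun h => AddMonoidHom.ext fun γ => ?_, fun h => Subtype.ext (funext fun γ => ?_)⟩
  · rw [AddMonoidHom.smul_apply, zsmul_eq_mul]
    exact congrFun (congrArg Subtype.val h) (Additive.toMul γ)
  · show heckeHom ℤ k p.2 φ (Additive.ofMul γ) = (a : k) * φ (Additive.ofMul γ)
    rw [h, AddMonoidHom.smul_apply, zsmul_eq_mul]

end Trivial

variable {k : Type} [Field k] {L p : ℕ} [NeZero L] [Fact p.Prime] [CharP k p]

/-- An eigenform congruent to an integral system gives that system on cohomology over `k`. -/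
theorem hasSystem_of_eigenform {g : CuspForm (Gamma0 L) 2} (hg : g.IsNormalizedEigenform)
    {𝔪 : Ideal (integralClosure ℤ ℂ)} (hmax : 𝔪.IsMaximal) (hpm : (p : integralClosure ℤ ℂ) ∈ 𝔪)
    (S : Finset ℕ) (c : ℕ → ℤ)
    (hc : ∀ ℓ : ℕ, ℓ ∉ S → ℓ.Prime → ∃ a : integralClosure ℤ ℂ,
      (a : ℂ) = ModularFormClass.qCoeff g ℓ ∧ a - (c ℓ : integralClosure ℤ ℂ) ∈ 𝔪) :
    Assembly.HasSystem L S (fun ℓ : Nat.Primes => ((c ℓ : ℤ) : k)) := by
  obtain ⟨φ, -, hφ0, hφ⟩ := exists_modp_eigenclass (Fact.out : p.Prime) hg hmax hpm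
    {ℓ | ℓ ∉ S} c hc
  let f : ZMod p →+* k := ZMod.castHom dvd_rfl k
  let ψ : Additive (Gamma0 L) →+ k := f.toAddMonoidHom.comp φ
  refine ⟨toClass (k := k) (L := L) (homToCocycle ψ), fun h => hφ0 (AddMonoidHom.ext fun γ => f.injective ?_),
    fun ℓ hℓ => (heckeOp_toH1_homToCocycle_iff ℓ ψ (c ℓ)).2 ?_⟩
  · have h' := congrFun (congrArg Subtype.val (toH1_injective_one (h.trans (map_zero _).symm)))
      (Additive.toMul γ)
    rw [AddMonoidHom.zero_apply, map_zero]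
    exact h'
  · rw [show heckeHom ℤ k ℓ.2 ψ = f.toAddMonoidHom.comp (heckeHom ℤ (ZMod p) ℓ.2 φ) from
      heckeHom_comp ℓ.2 f.toAddMonoidHom φ, hφ ℓ hℓ ℓ.2]
    refine AddMonoidHom.ext fun γ => ?_
    show f ((c ℓ : ℤ) • φ γ) = (c ℓ : ℤ) • f (φ γ)
    rw [map_zsmul]

/-- A non-Eisenstein integral system on cohomology over `k` gives a congruent eigenform. -/
theorem exists_eigenform_of_hasSystem (hp2 : p ≠ 2) (hp3 : p ≠ 3) (S : Finset ℕ) (c : ℕ → ℤ)
    (h : Assembly.HasSystem L S (fun ℓ : Nat.Primes => ((c ℓ : ℤ) : k)))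
    (hEis : ∃ ℓ : ℕ, ℓ.Prime ∧ ℓ ∉ S ∧ (ℓ : ZMod L) = 1 ∧ (c ℓ : k) ≠ (ℓ : k) + 1) :
    ∃ (g : CuspForm (Gamma0 L) 2) (𝔪 : Ideal (integralClosure ℤ ℂ)),
      g.IsNormalizedEigenform ∧ 𝔪.IsMaximal ∧ (p : integralClosure ℤ ℂ) ∈ 𝔪 ∧
      ∀ ℓ : ℕ, ℓ ∉ S → ℓ.Prime → ∃ a : integralClosure ℤ ℂ,
        (a : ℂ) = ModularFormClass.qCoeff g ℓ ∧ a - (c ℓ : integralClosure ℤ ℂ) ∈ 𝔪 := by
  classical
  have hp : p.Prime := Fact.out
  obtain ⟨y, hy0, hy⟩ := h
  obtain ⟨z, rfl⟩ := Submodule.Quotient.mk_surjective _ y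
  set Φ := cocycleToHom z with hΦ
  have hzΦ : homToCocycle Φ = z := homToCocycle_cocycleToHom z
  have heig : ∀ (ℓ : ℕ) (hℓ : ℓ.Prime), ℓ ∉ S → heckeHom ℤ k hℓ Φ = c ℓ • Φ := by
    intro ℓ hℓ hℓS
    refine (heckeOp_toH1_homToCocycle_iff ⟨ℓ, hℓ⟩ Φ (c ℓ)).1 ?_
    rw [hzΦ]
    exact hy ⟨ℓ, hℓ⟩ hℓS
  have hne : ∀ q : ℕ, q.Prime → p ≠ q → (q : k) ≠ 0 := fun q hq hpq h0 =>
    hpq ((Nat.prime_dvd_prime_iff_eq hp hq).1 ((CharP.cast_eq_zero_iff k p q).1 h0))
  obtain ⟨ℓ₀, hℓ₀, hℓ₀S, hℓ₀1, hne₀⟩ := hEis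
  have hcusp : Φ ∈ cuspidalHoms ℤ (Gamma0 L) k :=
    mem_cuspidalHoms_of_eigen (by exact_mod_cast hne 2 Nat.prime_two hp2)
      (by exact_mod_cast hne 3 Nat.prime_three hp3) hℓ₀ hℓ₀1 hne₀ (heig ℓ₀ hℓ₀ hℓ₀S)
  have hΦ0 : Φ ≠ 0 := by
    intro h0
    apply hy0
    rw [show z = 0 by rw [← hzΦ, h0]; exact Subtype.ext (funext fun _ => rfl)]
    exact Submodule.Quotient.mk_zero _
  obtain ⟨γ, hγ⟩ : ∃ γ, Φ γ ≠ 0 := by
    by_contra! hall
    exact hΦ0 (AddMonoidHom.ext hall)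
  letI : Algebra (ZMod p) k := ZMod.algebra k p
  obtain ⟨lam, hlam⟩ : ∃ lam : Module.Dual (ZMod p) k, lam (Φ γ) ≠ 0 := by
    by_contra! hall
    exact hγ ((Module.forall_dual_apply_eq_zero_iff (ZMod p) _).1 hall)
  let φ : Additive (Gamma0 L) →+ ZMod p := lam.toAddMonoidHom.comp Φ
  have hφ : φ ∈ cuspidalHoms ℤ (Gamma0 L) (ZMod p) := fun g hg => by
    show lam (Φ (Additive.ofMul g)) = 0
    rw [hcusp g hg, map_zero]
  obtain ⟨x, hx, hxφ⟩ := exists_lift hφ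
  haveI : NeZero p := ⟨hp.ne_zero⟩
  refine exists_eigenform_of_modp_class hp {ℓ | ℓ ∉ S} c ⟨x, hx⟩ (fun ⟨w, hw⟩ => hlam ?_)
    fun ℓ hℓ hℓS => exists_eq_smul_of_cast_eq_zero _ ?_
  · have h1 := DFunLike.congr_fun (congrArg (redHom L p) (congrArg Subtype.val hw)) γ
    rw [hxφ] at h1
    show φ γ = 0
    refine h1.trans ?_
    simp
  · refine AddMonoidHom.ext fun g => ?_
    have e1 : redHom L p (heckeHom ℤ ℤ hℓ x) = c ℓ • φ := by
      rw [redHom_heckeHom, hxφ, show heckeHom ℤ (ZMod p) hℓ φ =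
        lam.toAddMonoidHom.comp (heckeHom ℤ k hℓ Φ) from heckeHom_comp hℓ _ Φ, heig ℓ hℓ hℓS]
      refine AddMonoidHom.ext fun g => ?_
      show lam (c ℓ • Φ g) = c ℓ • lam (Φ g)
      rw [map_zsmul]
    have e2 := DFunLike.congr_fun e1 g
    simp only [AddMonoidHom.comp_apply, AddMonoidHom.zero_apply, Submodule.coe_sub,
      SetLike.val_smul, AddMonoidHom.sub_apply, map_sub, coe_heckeOp, AddMonoidHom.smul_apply,
      map_zsmul, sub_eq_zero]
    rw [show (Int.castAddHom (ZMod p)) (x g) = φ g from DFunLike.congr_fun hxφ g]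
    exact e2

end Fermat.Agent.RT.Systems
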