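import Fermat.Agent.RT.Systems.Iota
import Fermat.Agent.BadPrime.Raise
import Fermat.Agent.Hecke.GoodSemisimple
import Fermat.Agent.Periods.HeckeCoeff
import Fermat.Agent.Periods.Hecke

/-!
# Systems orthogonal to the forms of level `D` do not descend

Let `f ≠ 0` have level `q D`, be orthogonal to the forms of level `D` and be an eigenvector of
`U_q` for a value `a` with `|a| ≠ q`. Then its good system is that of no eigenform of level dividing
`D`: after depleting both forms at all the other primes, `(1 - a V_q) f` is a combination of forms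
`h | V_q ^ i` of lower level, whose product with `f` vanishes, so `(1 - |a|² / q²) ⟨f, f⟩ = 0`.
-/

set_option autoImplicit false

noncomputable section

namespace Fermat.Agent.RT.Systems

open CongruenceSubgroup ModularFormClass Matrix.SpecialLinearGroup UpperHalfPlane
open scoped MatrixGroups ModularForm Pointwise Manifold

open scoped ComplexConjugate

theorem gamma0_slash {N : ℕ} (f : CuspForm (Gamma0 N) 2) {γ : SL(2, ℤ)} (hγ : γ ∈ Gamma0 N) :
    (⇑f) ∣[(2 : ℤ)] γ = ⇑f := by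
  rw [Hecke.slash_SL_eq]
  exact SlashInvariantFormClass.slash_action_eq f _ (Subgroup.mem_map_of_mem _ hγ)

section Raise

variable {N R d : ℕ} [NeZero d]

theorem isRatPos_diag : Hecke.IsRatPos (ModularForm.heckeDiagMatrix d) :=
  Hecke.isRatPos_heckeDiagMatrix (NeZero.ne d)

theorem slash_diag_gamma0 (h : N * d ∣ R) (f : CuspForm (Gamma0 N) 2) {γ : SL(2, ℤ)}
    (hγ : γ ∈ Gamma0 R) :
    (⇑f ∣[(2 : ℤ)] ModularForm.heckeDiagMatrix d) ∣[(2 : ℤ)] γ =
      ⇑f ∣[(2 : ℤ)] ModularForm.heckeDiagMatrix d := by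
  obtain ⟨a, b, c, e, hM, hdet, hc⟩ := Periods.gammaMat_entries (N := R) ⟨γ, hγ⟩
  obtain ⟨c', rfl⟩ : (d : ℤ) ∣ c :=
    (Int.natCast_dvd_natCast.2 ((dvd_mul_left d N).trans h)).trans hc
  have hc' : (N : ℤ) ∣ c' := by
    have : ((N * d : ℕ) : ℤ) ∣ (d : ℤ) * c' := (Int.natCast_dvd_natCast.2 h).trans hc
    push_cast at this
    rw [mul_comm (d : ℤ) c'] at this
    exact Int.dvd_of_mul_dvd_mul_right (Int.natCast_ne_zero.2 (NeZero.ne d)) this
  obtain ⟨g, hg⟩ := Periods.exists_gamma0_of_entries (N := N) (a := a) (b := d * b) (c := c') (d := e)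
    (by linear_combination hdet) hc'
  have hmat : ModularForm.heckeDiagMatrix d * (mapGL ℝ γ : GL (Fin 2) ℝ) =
      mapGL ℝ (g : SL(2, ℤ)) * ModularForm.heckeDiagMatrix d := by
    apply Units.ext
    rw [Units.val_mul, Units.val_mul, ModularForm.val_heckeDiagMatrix (NeZero.ne d)]
    ext i j
    simp only [Matrix.mul_apply, Fin.sum_univ_two, Hecke.mapGL_val_apply]
    have e1 : ∀ i j, (γ.1 i j : ℤ) = !![a, b; (d : ℤ) * c', e] i j := fun i j =>
      congrFun (congrFun hM i) j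
    have e2 : ∀ i j, ((g : SL(2, ℤ)).1 i j : ℤ) = !![a, (d : ℤ) * b; c', e] i j := fun i j =>
      congrFun (congrFun hg i) j
    simp only [e1, e2]
    fin_cases i <;> fin_cases j <;> simp [mul_comm]
  rw [Hecke.slash_SL_eq, ← SlashAction.slash_mul, hmat, SlashAction.slash_mul, ← Hecke.slash_SL_eq,
    gamma0_slash f g.2]

variable [NeZero N]

/-- `f(z) ↦ f(d z)`, from level `N` to a level divisible by `N d`, scaled by `d`. -/
def diagForm (h : N * d ∣ R) [NeZero R] (f : CuspForm (Gamma0 N) 2) : CuspForm (Gamma0 R) 2 where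
  toFun := ⇑f ∣[(2 : ℤ)] ModularForm.heckeDiagMatrix d
  slash_action_eq' γ hγ := by
    obtain ⟨γ₀, hγ₀, rfl⟩ := Subgroup.mem_map.1 hγ
    rw [← Hecke.slash_SL_eq]
    exact slash_diag_gamma0 h f hγ₀
  holo' := (ModularFormClass.holo f).slash 2 _
  zero_at_cusps' {c} hc := by
    obtain ⟨-, g, hg⟩ := isRatPos_diag (d := d)
    have : (ConjAct.toConjAct (ModularForm.heckeDiagMatrix d)⁻¹ •
        (Gamma0 N).map (mapGL ℝ)).IsArithmetic := by
      have := Subgroup.IsArithmetic.conj ((Gamma0 N).map (mapGL ℝ)) g⁻¹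
      rwa [map_inv, hg] at this
    refine (CuspForm.translate f (ModularForm.heckeDiagMatrix d)).zero_at_cusps' ?_
    rw [Subgroup.IsArithmetic.isCusp_iff_isCusp_SL2Z] at hc ⊢
    exact hc

@[simp] theorem coe_diagForm (h : N * d ∣ R) [NeZero R] (f : CuspForm (Gamma0 N) 2) :
    (diagForm h f : ℍ → ℂ) = ⇑f ∣[(2 : ℤ)] ModularForm.heckeDiagMatrix d := rfl

theorem qCoeff_diagForm (h : N * d ∣ R) [NeZero R] (f : CuspForm (Gamma0 N) 2) (n : ℕ) :
    qCoeff (diagForm h f) n = if d ∣ n then (d : ℂ) * qCoeff f (n / d) else 0 := by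
  symm
  refine ModularFormClass.qExpansion_coeff_unique (k := 2) (h := 1)
    (c := fun n => if d ∣ n then (d : ℂ) * qCoeff f (n / d) else 0) one_pos
    (one_mem_strictPeriods_Gamma0 R) (fun τ => ?_) n
  have hs := ModularForm.hasSum_qExpansion f (h := 1) one_pos (k := 2)
    (one_mem_strictPeriods_Gamma0 N) (ModularForm.heckeDiagMatrix d • τ)
  have hval : diagForm h f τ = (d : ℂ) * f (ModularForm.heckeDiagMatrix d • τ) := by
    show (⇑f ∣[(2 : ℤ)] ModularForm.heckeDiagMatrix d) τ = _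
    rw [ModularForm.slash_heckeDiagMatrix_apply _ (NeZero.ne d)]
    norm_num
  rw [hval]
  have hq : Function.Periodic.qParam 1 ((ModularForm.heckeDiagMatrix d • τ : ℍ) : ℂ) =
      Function.Periodic.qParam 1 (τ : ℂ) ^ d := by
    rw [ModularForm.coe_heckeDiagMatrix_smul (NeZero.ne d), Function.Periodic.qParam,
      Function.Periodic.qParam, ← Complex.exp_nat_mul]
    congr 1
    push_cast
    ring
  have hs' := hs.mul_left (d : ℂ)
  have hinj : Function.Injective fun m : ℕ => d * m :=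
    fun a b hab => Nat.eq_of_mul_eq_mul_left (NeZero.pos d) hab
  refine (hinj.hasSum_iff ?_).1 ?_
  · intro m hm
    rw [if_neg fun hd => hm ⟨m / d, Nat.mul_div_cancel' hd⟩, zero_smul]
  · refine hs'.congr_fun fun m => ?_
    simp only [Function.comp_apply, dvd_mul_right, if_true, Nat.mul_div_cancel_left _ (NeZero.pos d),
      smul_eq_mul, hq, ← pow_mul, qCoeff]
    ring

end Raise

section Orthogonal

variable {q D : ℕ}

/-- Orthogonal to all forms of level `D`. -/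
def IsOrth (D : ℕ) (f : ℍ → ℂ) : Prop :=
  ∀ h : CuspForm (Gamma0 D) 2, Hecke.petPair 2 f h = 0

theorem petPair_add_right' {a b b' : ℍ → ℂ} (ha : Hecke.IsAdmissible 2 a)
    (hb : Hecke.IsAdmissible 2 b) (hb' : Hecke.IsAdmissible 2 b') :
    Hecke.petPair 2 a (b + b') = Hecke.petPair 2 a b + Hecke.petPair 2 a b' := by
  rw [← Hecke.petPair_conj (hb.add hb') ha, Hecke.petPair_add_left hb hb' ha, map_add,
    Hecke.petPair_conj hb ha, Hecke.petPair_conj hb' ha]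

theorem petPair_sum_right' {ι : Type*} (t : Finset ι) {a : ℍ → ℂ} {b : ι → ℍ → ℂ}
    (ha : Hecke.IsAdmissible 2 a) (hb : ∀ i ∈ t, Hecke.IsAdmissible 2 (b i)) :
    Hecke.petPair 2 a (∑ i ∈ t, b i) = ∑ i ∈ t, Hecke.petPair 2 a (b i) := by
  rw [← Hecke.petPair_conj (Hecke.IsAdmissible.sum t hb) ha, Hecke.petPair_sum_left t hb ha,
    map_sum]
  exact Finset.sum_congr rfl fun i hi => Hecke.petPair_conj (hb i hi) ha

/-- `Γ₀(D) = Γ₀(D m) Γ₀(q D)` for `m` prime to the prime `q`. -/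
theorem exists_mul_decomp [Fact q.Prime] {m : ℕ} (hm : ¬ q ∣ m) {γ : SL(2, ℤ)}
    (hγ : γ ∈ Gamma0 D) : ∃ x ∈ Gamma0 (D * m), ∃ r ∈ Gamma0 (q * D), γ = x * r := by
  obtain ⟨a, b, c, d, hM, hdet, ⟨c, rfl⟩⟩ := Periods.gammaMat_entries (N := D) ⟨γ, hγ⟩
  have hdet' : (a : ZMod q) * d - b * (D * c) = 1 := by exact_mod_cast congrArg (Int.cast : ℤ → ZMod q) hdet
  obtain ⟨s, hs⟩ : ∃ s : ℤ, ((a + s * ((D : ℤ) * c) : ℤ) : ZMod q) ≠ 0 := by
    by_cases ha : (a : ZMod q) = 0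
    · refine ⟨1, fun h => ?_⟩
      push_cast at h
      rw [ha, one_mul, zero_add] at h
      rw [ha, h, zero_mul, mul_zero, sub_zero] at hdet'
      exact zero_ne_one hdet'
    · exact ⟨0, by simpa using ha⟩
  have hm' : (m : ZMod q) ≠ 0 := fun h => hm ((ZMod.natCast_eq_zero_iff _ _).1 h)
  obtain ⟨t, ht⟩ : ∃ t : ℤ, (q : ℤ) ∣ c + (m : ℤ) * t * (a + s * ((D : ℤ) * c)) := by
    refine ⟨((-(c : ZMod q) / ((m : ZMod q) * ((a + s * ((D : ℤ) * c) : ℤ) : ZMod q))).val : ℤ), ?_⟩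
    rw [← ZMod.intCast_zmod_eq_zero_iff_dvd]
    rw [Int.cast_add, Int.cast_mul, Int.cast_mul, Int.cast_natCast, Int.cast_natCast,
      ZMod.natCast_zmod_val]
    generalize ((a + s * ((D : ℤ) * c) : ℤ) : ZMod q) = A at hs ⊢
    field_simp
    ring
  let x' : SL(2, ℤ) := ⟨!![1, s; (D : ℤ) * m * t, (D : ℤ) * m * t * s + 1],
    by simp [Matrix.det_fin_two_of]; ring⟩
  refine ⟨x'⁻¹, inv_mem (mem_gamma0_iff_dvd.2 ?_), x' * γ, mem_gamma0_iff_dvd.2 ?_, by group⟩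
  · show ((D * m : ℕ) : ℤ) ∣ (D : ℤ) * m * t
    exact ⟨t, by push_cast; ring⟩
  · obtain ⟨k, hk⟩ := ht
    refine ⟨k, ?_⟩
    have e : ∀ i j, (γ.1 i j : ℤ) = !![a, b; (D : ℤ) * c, d] i j := fun i j =>
      congrFun (congrFun hM i) j
    show (x'.1 * γ.1) 1 0 = _
    simp [x', Matrix.mul_apply, Fin.sum_univ_two, e]
    linear_combination (D : ℤ) * hk

variable [Fact q.Prime] [NeZero D]

theorem IsOrth.raise {f : CuspForm (Gamma0 (q * D)) 2} (hf : IsOrth D f) {m : ℕ} [NeZero m]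
    (hm : ¬ q ∣ m) : IsOrth (D * m) f := by
  intro h
  haveI : NeZero q := ⟨(Fact.out : q.Prime).ne_zero⟩
  haveI : ((Gamma0 (D * m)).map (mapGL ℝ)).IsFiniteRelIndex ((Gamma0 D).map (mapGL ℝ)) :=
    Subgroup.isFiniteRelIndex_of_le_right _ (Subgroup.map_le_range _ _)
  have hfa := Hecke.isAdmissible_cuspForm f
  have hha := Hecke.isAdmissible_cuspForm h
  let H := CuspForm.trace ((Gamma0 D).map (mapGL ℝ)) h
  letI := Fintype.ofFinite (((Gamma0 D).map (mapGL ℝ)) ⧸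
    ((Gamma0 (D * m)).map (mapGL ℝ)).subgroupOf ((Gamma0 D).map (mapGL ℝ)))
  have hrep : ∀ i, ∃ r ∈ Gamma0 (q * D),
      SlashInvariantForm.quotientFunc (𝒢 := (Gamma0 (D * m)).map (mapGL ℝ))
        (ℋ := (Gamma0 D).map (mapGL ℝ)) (k := 2) h i = ⇑h ∣[(2 : ℤ)] r := by
    intro i
    induction i using Quotient.inductionOn with
    | h g =>
      obtain ⟨γ, hγ, hg⟩ := Subgroup.mem_map.1 g.2
      obtain ⟨x, hx, r, hr, hxr⟩ := exists_mul_decomp (q := q) (m := m) hm (inv_mem hγ)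
      refine ⟨r, hr, ?_⟩
      rw [SlashInvariantForm.quotientFunc_mk, ← hg, ← map_inv, hxr, ← Hecke.slash_SL_eq,
        SlashAction.slash_mul, gamma0_slash h hx]
  have e : Hecke.petPair 2 (⇑f) (⇑H) = (Fintype.card (((Gamma0 D).map (mapGL ℝ)) ⧸
      ((Gamma0 (D * m)).map (mapGL ℝ)).subgroupOf ((Gamma0 D).map (mapGL ℝ))) : ℂ) *
        Hecke.petPair 2 (⇑f) (⇑h) := by
    choose r hr1 hr2 using hrep
    have hH : (⇑H : ℍ → ℂ) = ∑ i, ⇑h ∣[(2 : ℤ)] r i := by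
      simp only [H, CuspForm.coe_trace]
      exact Finset.sum_congr (Finset.ext fun _ => by simp) fun i _ => hr2 i
    rw [hH, petPair_sum_right' _ hfa (fun i _ => by
      rw [Hecke.slash_SL_eq]; exact hha.slash (Hecke.isRatPos_mapGL _))]
    rw [Finset.sum_congr rfl fun i _ => show Hecke.petPair 2 (⇑f) (⇑h ∣[(2 : ℤ)] r i) =
        Hecke.petPair 2 (⇑f) (⇑h) by
      conv_lhs => rw [← gamma0_slash f (hr1 i)]
      exact Hecke.petPair_slash_SL hfa hha (r i)]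
    simp
  rw [hf H] at e
  exact (mul_eq_zero.1 e.symm).resolve_left (Nat.cast_ne_zero.2 Fintype.card_ne_zero)

theorem T_zpow_mem_gamma0 (L : ℕ) (j : ℤ) : ModularGroup.T ^ j ∈ Gamma0 L :=
  mem_gamma0_iff_dvd.2 (by rw [ModularGroup.coe_T_zpow]; simp)

omit [Fact q.Prime] [NeZero D] in
/-- `⟨U_ℓ f, h⟩ = ℓ ⟨f, h | V_ℓ⟩` for `h` invariant under translations. -/
theorem petPair_heckeU_left {ℓ : ℕ} (hℓ : ℓ ≠ 0) {f h : ℍ → ℂ} (hfa : Hecke.IsAdmissible 2 f)
    (hha : Hecke.IsAdmissible 2 h) (hh : ∀ j : ℤ, h ∣[(2 : ℤ)] (ModularGroup.T ^ j) = h) :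
    Hecke.petPair 2 (ModularForm.heckeU 2 ℓ f) h =
      (ℓ : ℂ) * Hecke.petPair 2 f (h ∣[(2 : ℤ)] ModularForm.heckeDiagMatrix ℓ) := by
  have key := Hecke.petPair_slash hfa (hha.slash (Hecke.isRatPos_heckeDiagMatrix hℓ))
    (Hecke.isRatPos_heckeMatrix hℓ 0)
  rw [Hecke.slash_diag_slash_matrix_zero 2 hℓ] at key
  simp only [sub_self, zpow_zero, one_smul, one_mul] at key
  have ha := hfa.slash (Hecke.isRatPos_heckeMatrix hℓ 0)
  rw [ModularForm.heckeU_def, Hecke.petPair_sum_left _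
      (fun j _ => hfa.slash (Hecke.isRatPos_heckeMatrix hℓ j)) hha, ← key,
    Finset.sum_congr rfl fun j _ => show
      Hecke.petPair 2 (f ∣[(2 : ℤ)] ModularForm.heckeMatrix ℓ j) h =
        Hecke.petPair 2 (f ∣[(2 : ℤ)] ModularForm.heckeMatrix ℓ 0) h by
      rw [Hecke.slash_matrix_eq 2 hℓ]
      conv_lhs => rw [← hh (j : ℤ)]
      exact Hecke.petPair_slash_SL ha hha _]
  simp

omit [Fact q.Prime] [NeZero D] in
theorem petPair_heckeU_right {ℓ : ℕ} (hℓ : ℓ ≠ 0) {f h : ℍ → ℂ} (hfa : Hecke.IsAdmissible 2 f)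
    (hha : Hecke.IsAdmissible 2 h) (hf : ∀ j : ℤ, f ∣[(2 : ℤ)] (ModularGroup.T ^ j) = f) :
    Hecke.petPair 2 f (ModularForm.heckeU 2 ℓ h) =
      (ℓ : ℂ) * Hecke.petPair 2 (f ∣[(2 : ℤ)] ModularForm.heckeDiagMatrix ℓ) h := by
  have hU : Hecke.IsAdmissible 2 (ModularForm.heckeU 2 ℓ h) := by
    rw [ModularForm.heckeU_def]
    exact Hecke.IsAdmissible.sum _ fun j _ => hha.slash (Hecke.isRatPos_heckeMatrix hℓ j)
  rw [← Hecke.petPair_conj hU hfa, petPair_heckeU_left hℓ hha hfa hf, map_mul, map_natCast,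
    Hecke.petPair_conj hha (hfa.slash (Hecke.isRatPos_heckeDiagMatrix hℓ))]

/-- `U_ℓ` preserves orthogonality to level `D` for `ℓ ∣ D`, `ℓ ≠ q`. -/
theorem IsOrth.heckeU {f : CuspForm (Gamma0 (q * D)) 2} (hf : IsOrth D f) {ℓ : ℕ} (hℓ : ℓ.Prime)
    (hℓq : ℓ ≠ q) : IsOrth D (ModularForm.heckeU 2 ℓ f) := by
  intro h
  haveI : NeZero ℓ := ⟨hℓ.ne_zero⟩
  rw [petPair_heckeU_left hℓ.ne_zero (Hecke.isAdmissible_cuspForm f) (Hecke.isAdmissible_cuspForm h)
    (fun j => gamma0_slash h (T_zpow_mem_gamma0 D j))]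
  rw [show ⇑h ∣[(2 : ℤ)] ModularForm.heckeDiagMatrix ℓ = ⇑(diagForm (dvd_refl (D * ℓ)) h) from rfl,
    hf.raise (fun hd => hℓq ((Nat.prime_dvd_prime_iff_eq Fact.out hℓ).1 hd).symm) _, mul_zero]

/-- `V_ℓ` preserves orthogonality, at level `D ℓ`. -/
theorem IsOrth.diag {f : CuspForm (Gamma0 (q * D)) 2} (hf : IsOrth D f) {ℓ : ℕ} (hℓ : ℓ.Prime)
    (hℓq : ℓ ≠ q) : IsOrth (D * ℓ) (⇑f ∣[(2 : ℤ)] ModularForm.heckeDiagMatrix ℓ) := by
  intro h
  haveI : NeZero ℓ := ⟨hℓ.ne_zero⟩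
  haveI : NeZero q := ⟨(Fact.out : q.Prime).ne_zero⟩
  have e := petPair_heckeU_right hℓ.ne_zero (Hecke.isAdmissible_cuspForm f)
    (Hecke.isAdmissible_cuspForm h) (fun j => gamma0_slash f (T_zpow_mem_gamma0 _ j))
  rw [← CuspForm.coe_heckeULin_apply 2 (dvd_mul_left ℓ D) h,
    hf.raise (fun hd => hℓq ((Nat.prime_dvd_prime_iff_eq Fact.out hℓ).1 hd).symm) _] at e
  exact (mul_eq_zero.1 e.symm).resolve_left (Nat.cast_ne_zero.2 hℓ.ne_zero)

omit [Fact q.Prime] [NeZero D] in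
theorem IsOrth.add {f g : ℍ → ℂ} (hf : IsOrth D f) (hg : IsOrth D g) [NeZero D]
    (hfa : Hecke.IsAdmissible 2 f) (hga : Hecke.IsAdmissible 2 g) : IsOrth D (f + g) := fun h => by
  rw [Hecke.petPair_add_left hfa hga (Hecke.isAdmissible_cuspForm h), hf h, hg h, add_zero]

omit [Fact q.Prime] [NeZero D] in
theorem IsOrth.smul {f : ℍ → ℂ} (hf : IsOrth D f) [NeZero D] (hfa : Hecke.IsAdmissible 2 f)
    (c : ℂ) : IsOrth D (c • f) := fun h => by
  rw [Hecke.petPair_smul_left hfa (Hecke.isAdmissible_cuspForm h), hf h, mul_zero]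

end Orthogonal

section Main

variable {q : ℕ} [Fact q.Prime]

/-- Depleting a pair of forms at the primes of `P`. -/
theorem exists_depleted (P : Finset ℕ) (hP : ∀ ℓ ∈ P, ℓ.Prime ∧ ℓ ≠ q) :
    ∀ (D : ℕ) [NeZero D] (F : CuspForm (Gamma0 (q * D)) 2) (h : CuspForm (Gamma0 D) 2),
      (∀ ℓ ∈ P, ∃ c : ℂ, ∀ n, qCoeff F (n * ℓ) = c * qCoeff F n) →
      (∀ ℓ ∈ P, ∃ c : ℂ, ∀ n, qCoeff h (n * ℓ) = c * qCoeff h n) → IsOrth D F →
      ∃ (D' : ℕ) (_ : NeZero D') (F' : CuspForm (Gamma0 (q * D')) 2)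
        (h' : CuspForm (Gamma0 D') 2), IsOrth D' F' ∧ (q ∣ D' ↔ q ∣ D) ∧
        (∀ n, qCoeff F' n = if ∀ ℓ ∈ P, ¬ ℓ ∣ n then qCoeff F n else 0) ∧
        (∀ n, qCoeff h' n = if ∀ ℓ ∈ P, ¬ ℓ ∣ n then qCoeff h n else 0) := by
  induction P using Finset.induction_on with
  | empty =>
    intro D _ F h _ _ hF
    exact ⟨D, ‹_›, F, h, hF, Iff.rfl, fun n => by simp, fun n => by simp⟩
  | insert ℓ P hℓP ih =>
    intro D _ F h hcF hch hF
    obtain ⟨hℓ, hℓq⟩ := hP ℓ (Finset.mem_insert_self ℓ P)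
    haveI : NeZero ℓ := ⟨hℓ.ne_zero⟩
    haveI : NeZero q := ⟨(Fact.out : q.Prime).ne_zero⟩
    have hqℓ : ¬ q ∣ ℓ := fun hd => hℓq ((Nat.prime_dvd_prime_iff_eq Fact.out hℓ).1 hd).symm
    have hq1 : q * D * ℓ = q * (D * ℓ) := mul_assoc _ _ _
    obtain ⟨c, hc⟩ := hcF ℓ (Finset.mem_insert_self ℓ P)
    obtain ⟨c', hc'⟩ := hch ℓ (Finset.mem_insert_self ℓ P)
    let F₁ : CuspForm (Gamma0 (q * (D * ℓ))) 2 :=
      BadPrime.levelIncl (hq1 ▸ dvd_mul_right _ _) F + (-(c / ℓ)) • diagForm (dvd_of_eq hq1) F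
    let h₁ : CuspForm (Gamma0 (D * ℓ)) 2 :=
      BadPrime.levelIncl (dvd_mul_right _ _) h + (-(c' / ℓ)) • diagForm (dvd_refl _) h
    have hℓ0 : (ℓ : ℂ) ≠ 0 := Nat.cast_ne_zero.2 hℓ.ne_zero
    have hF₁ : ∀ n, qCoeff F₁ n = if ℓ ∣ n then 0 else qCoeff F n := fun n => by
      rw [Periods.qCoeff_add, Periods.qCoeff_smul, qCoeff_diagForm, BadPrime.coe_levelIncl]
      split_ifs with hn
      · obtain ⟨m, rfl⟩ := hn
        rw [Nat.mul_div_cancel_left _ hℓ.pos, mul_comm ℓ m, hc m]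
        field_simp
        ring
      · simp
    have hh₁ : ∀ n, qCoeff h₁ n = if ℓ ∣ n then 0 else qCoeff h n := fun n => by
      rw [Periods.qCoeff_add, Periods.qCoeff_smul, qCoeff_diagForm, BadPrime.coe_levelIncl]
      split_ifs with hn
      · obtain ⟨m, rfl⟩ := hn
        rw [Nat.mul_div_cancel_left _ hℓ.pos, mul_comm ℓ m, hc' m]
        field_simp
        ring
      · simp
    have hmult : ∀ (a b : ℕ → ℂ), (∀ n, a n = if ℓ ∣ n then 0 else b n) →
        ∀ r ∈ P, (∃ c : ℂ, ∀ n, b (n * r) = c * b n) → ∃ c : ℂ, ∀ n, a (n * r) = c * a n := by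
      intro a b hab r hr ⟨d, hd⟩
      have hr' := hP r (Finset.mem_insert_of_mem hr)
      have hne : ¬ ℓ ∣ r := fun h => hℓP ((Nat.prime_dvd_prime_iff_eq hℓ hr'.1).1 h ▸ hr)
      refine ⟨d, fun n => ?_⟩
      simp only [hab, hℓ.dvd_mul, hne, or_false, hd]
      split_ifs <;> simp
    have hdiag : Hecke.IsAdmissible 2 (⇑F ∣[(2 : ℤ)] ModularForm.heckeDiagMatrix ℓ) :=
      (Hecke.isAdmissible_cuspForm F).slash (Hecke.isRatPos_heckeDiagMatrix hℓ.ne_zero)
    have htr : IsOrth (D * ℓ) F₁ := by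
      have e : (F₁ : ℍ → ℂ) = ⇑F + (-(c / ℓ)) • (⇑F ∣[(2 : ℤ)] ModularForm.heckeDiagMatrix ℓ) := rfl
      rw [e]
      exact (hF.raise hqℓ).add ((hF.diag hℓ hℓq).smul hdiag _)
        (Hecke.isAdmissible_cuspForm F) (hdiag.smul _)
    obtain ⟨D', i, F', h', h1, h2, h3, h4⟩ := ih (fun r hr => hP r (Finset.mem_insert_of_mem hr))
      (D * ℓ) F₁ h₁
      (fun r hr => hmult _ _ hF₁ r hr (hcF r (Finset.mem_insert_of_mem hr)))
      (fun r hr => hmult _ _ hh₁ r hr (hch r (Finset.mem_insert_of_mem hr))) htr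
    refine ⟨D', i, F', h', h1, h2.trans ?_, fun n => ?_, fun n => ?_⟩
    · rw [(Fact.out : q.Prime).dvd_mul, or_iff_left hqℓ]
    · rw [h3, hF₁]; simp only [Finset.forall_mem_insert]; split_ifs <;> simp_all
    · rw [h4, hh₁]; simp only [Finset.forall_mem_insert]; split_ifs <;> simp_all

/-- Normalised eigenforms agreeing at the primes prime to `K` agree at all `n` prime to `K`. -/
theorem qCoeff_eq_of_coprime {N N' : ℕ} [NeZero N] [NeZero N'] {f : CuspForm (Gamma0 N) 2}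
    (hf : f.IsNormalizedEigenform) {g : CuspForm (Gamma0 N') 2} (hg : g.IsNormalizedEigenform)
    {K : ℕ} (hN : ∀ p : ℕ, p.Prime → ¬ p ∣ K → ¬ p ∣ N ∧ ¬ p ∣ N')
    (h : ∀ p : ℕ, p.Prime → ¬ p ∣ K → qCoeff f p = qCoeff g p) (n : ℕ) (hn : n.Coprime K) :
    qCoeff f n = qCoeff g n := by
  induction n using Periods.prime_mul_induction with
  | h0 => rw [Periods.qCoeff_zero_eq_zero, Periods.qCoeff_zero_eq_zero]
  | h1 => rw [hf.qCoeff_one, hg.qCoeff_one]
  | hmul p m hp hm ih =>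
    have hpK : ¬ p ∣ K := hp.coprime_iff_not_dvd.1 (Nat.Coprime.coprime_mul_left hn)
    have hmK : m.Coprime K := Nat.Coprime.coprime_mul_right hn
    obtain ⟨h1, h2⟩ := hN p hp hpK
    rw [(Periods.isEigen_of_isNormalizedEigenform hf).qCoeff_mul hp,
      (Periods.isEigen_of_isNormalizedEigenform hg).qCoeff_mul hp, h p hp hpK, ih m le_rfl hmK]
    simp only [h1, h2, not_false_eq_true, true_and]
    split_ifs with hd
    · rw [ih _ (Nat.div_le_self m p) (hmK.coprime_dvd_left (Nat.div_dvd_of_dvd hd))]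
    · rfl

variable {D : ℕ} [NeZero D]

/-- A normalised eigenform orthogonal to level `D` with `|a_q| ≠ q` does not have the good
eigen-system of any eigenform of level dividing `D`. -/
theorem not_goodEigensystemOccursAt_of_orth {f : CuspForm (Gamma0 (q * D)) 2}
    (hf : f.IsNormalizedEigenform) (hfa : conj (qCoeff f q) * qCoeff f q ≠ (q : ℂ) ^ 2)
    (horth : IsOrth D f) {L : ℕ} (hL : L ∣ D) : ¬ CuspForm.GoodEigensystemOccursAt f L := by
  classical
  rintro ⟨g, hg, hgf⟩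
  have hq := (Fact.out : q.Prime)
  haveI : NeZero q := ⟨hq.ne_zero⟩
  haveI : NeZero L := ⟨fun h0 => by subst h0; exact NeZero.ne D (zero_dvd_iff.1 hL)⟩
  obtain ⟨h, hh, hhg⟩ := BadPrime.exists_eigenform_level_of_dvd hL hg
  have hEf := Periods.isEigen_of_isNormalizedEigenform hf
  have hEh := Periods.isEigen_of_isNormalizedEigenform hh
  set P := D.primeFactors.erase q
  have hP : ∀ ℓ ∈ P, ℓ.Prime ∧ ℓ ≠ q := fun ℓ hℓ =>
    ⟨Nat.prime_of_mem_primeFactors (Finset.mem_of_mem_erase hℓ), Finset.ne_of_mem_erase hℓ⟩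
  have hPD : ∀ ℓ ∈ P, ℓ ∣ D := fun ℓ hℓ =>
    Nat.dvd_of_mem_primeFactors (Finset.mem_of_mem_erase hℓ)
  obtain ⟨D', _, F', h', horth', hqD', hF', hh'⟩ := exists_depleted P hP D f h
    (fun ℓ hℓ => ⟨qCoeff f ℓ, fun n => by
      rw [hEf.qCoeff_mul (hP ℓ hℓ).1, if_neg fun hc => hc.1 (dvd_mul_of_dvd_right (hPD ℓ hℓ) _),
        sub_zero]⟩)
    (fun ℓ hℓ => ⟨qCoeff h ℓ, fun n => by
      rw [hEh.qCoeff_mul (hP ℓ hℓ).1, if_neg fun hc => hc.1 (hPD ℓ hℓ), sub_zero]⟩) horth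
  have hdq : ∀ (n : ℕ), (∀ ℓ ∈ P, ¬ ℓ ∣ n * q) ↔ ∀ ℓ ∈ P, ¬ ℓ ∣ n := fun n => by
    refine forall₂_congr fun ℓ hℓ => not_congr ?_
    rw [(hP ℓ hℓ).1.dvd_mul, or_iff_left fun hc =>
      (hP ℓ hℓ).2 ((Nat.prime_dvd_prime_iff_eq (hP ℓ hℓ).1 hq).1 hc)]
  set a := qCoeff f q
  set b := qCoeff h q
  have hqR : q ∣ q * D' := dvd_mul_right q D'
  have hF'q : ∀ n, qCoeff F' (n * q) = a * qCoeff F' n := fun n => by
    simp only [hF', hdq, hEf.qCoeff_mul hq, dvd_mul_right, not_true_eq_false, false_and, if_false,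
      sub_zero]
    split_ifs <;> simp [a]
  have hU : CuspForm.heckeULin 2 hqR F' = a • F' := Periods.ext_qCoeff fun n => by
    rw [Periods.qCoeff_heckeULin hq hqR, Periods.qCoeff_smul, hF'q]
  have ha := Hecke.isAdmissible_cuspForm F'
  have hq0 : (q : ℂ) ≠ 0 := Nat.cast_ne_zero.2 hq.ne_zero
  -- pairing with `V_q`
  have hVq : ∀ x : CuspForm (Gamma0 (q * D')) 2,
      Hecke.petPair 2 (⇑F') (⇑x ∣[(2 : ℤ)] ModularForm.heckeDiagMatrix q) =
        conj a / q * Hecke.petPair 2 (⇑F') (⇑x) := fun x => by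
    have e := petPair_heckeU_left hq.ne_zero ha (Hecke.isAdmissible_cuspForm x)
      (fun j => gamma0_slash x (T_zpow_mem_gamma0 _ j))
    rw [← CuspForm.coe_heckeULin_apply 2 hqR F', hU,
      show (⇑(a • F') : ℍ → ℂ) = a • ⇑F' from rfl,
      Hecke.petPair_smul_left ha (Hecke.isAdmissible_cuspForm x)] at e
    field_simp
    linear_combination -e
  -- `U_q` of `h'` at level `q D'`
  obtain ⟨u, hu, hu0⟩ : ∃ u : CuspForm (Gamma0 (q * D')) 2,
      (∀ n, qCoeff u n = qCoeff h' (n * q)) ∧ Hecke.petPair 2 (⇑F') (⇑u) = 0 := by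
    refine ⟨CuspForm.heckeULin 2 hqR (BadPrime.levelIncl (dvd_mul_left D' q) h'), fun n => by
      rw [Periods.qCoeff_heckeULin hq hqR, BadPrime.coe_levelIncl], ?_⟩
    by_cases hd : q ∣ D'
    · rw [CuspForm.coe_heckeULin_apply, BadPrime.coe_levelIncl,
        ← CuspForm.coe_heckeULin_apply 2 hd h']
      exact horth' _
    · have hqD : ¬ q ∣ D := fun hc => hd (hqD'.2 hc)
      have e : CuspForm.heckeULin 2 hqR (BadPrime.levelIncl (dvd_mul_left D' q) h') =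
          b • BadPrime.levelIncl (dvd_mul_left D' q) h' +
            (-1 : ℂ) • diagForm (dvd_of_eq (mul_comm D' q)) h' := by
        refine Periods.ext_qCoeff fun n => ?_
        rw [Periods.qCoeff_heckeULin hq hqR, Periods.qCoeff_add, Periods.qCoeff_smul,
          Periods.qCoeff_smul, BadPrime.coe_levelIncl, qCoeff_diagForm]
        by_cases hn : q ∣ n
        · obtain ⟨m, rfl⟩ := hn
          have hm : (∀ ℓ ∈ P, ¬ ℓ ∣ q * m) ↔ ∀ ℓ ∈ P, ¬ ℓ ∣ m := by rw [mul_comm]; exact hdq m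
          simp only [hh', hdq, hm, hEh.qCoeff_mul hq, hqD, not_false_eq_true, true_and,
            dvd_mul_right, if_true, Nat.mul_div_cancel_left _ hq.pos]
          split_ifs
          · simp only [b]; ring
          · simp
        · simp only [hh', hdq, hEh.qCoeff_mul hq, hn, and_false, if_false, mul_zero, add_zero,
            sub_zero]
          split_ifs <;> simp [b]
      rw [e, show (⇑(b • BadPrime.levelIncl (dvd_mul_left D' q) h' +
            (-1 : ℂ) • diagForm (dvd_of_eq (mul_comm D' q)) h') : ℍ → ℂ) =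
          b • ⇑h' + (-1 : ℂ) • (⇑h' ∣[(2 : ℤ)] ModularForm.heckeDiagMatrix q) from rfl,
        petPair_add_right' ha ((Hecke.isAdmissible_cuspForm h').smul _)
          (((Hecke.isAdmissible_cuspForm h').slash
            (Hecke.isRatPos_heckeDiagMatrix hq.ne_zero)).smul _),
        Hecke.petPair_smul_right ha (Hecke.isAdmissible_cuspForm h'),
        Hecke.petPair_smul_right ha ((Hecke.isAdmissible_cuspForm h').slash
            (Hecke.isRatPos_heckeDiagMatrix hq.ne_zero))]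
      have := hVq (BadPrime.levelIncl (dvd_mul_left D' q) h')
      rw [BadPrime.coe_levelIncl] at this
      rw [this, horth' h']
      ring
  have hlev : q * D' * q ∣ q * D' * q := dvd_rfl
  have hagree : ∀ n, ¬ q ∣ n → qCoeff F' n = qCoeff h' n := fun n hn => by
    rw [hF', hh']
    split_ifs with hav
    · refine qCoeff_eq_of_coprime hf hh (K := q * D)
        (fun p hp hpK => ⟨hpK, fun hc => hpK (dvd_mul_of_dvd_right hc q)⟩)
        (fun p hp hpK => by rw [hhg p hp fun hc => hpK (dvd_mul_of_dvd_right hc q), hgf p hp hpK])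
        n ?_
      refine Nat.coprime_of_dvd fun p hp hpn hpK => ?_
      by_cases hpq : p = q
      · exact hn (hpq ▸ hpn)
      · refine hav p (Finset.mem_erase.2 ⟨hpq, Nat.mem_primeFactors.2 ⟨hp, ?_, NeZero.ne D⟩⟩) hpn
        exact (hp.dvd_mul.1 hpK).resolve_left
          fun hc => hpq ((Nat.prime_dvd_prime_iff_eq hp hq).1 hc)
    · rfl
  let X₁ : CuspForm (Gamma0 (q * D' * q)) 2 :=
    BadPrime.levelIncl (dvd_mul_right _ _) F' + (-(a / q)) • diagForm hlev F'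
  let X₂ : CuspForm (Gamma0 (q * D' * q)) 2 :=
    BadPrime.levelIncl ((dvd_mul_left D' q).trans (dvd_mul_right _ _)) h' +
      (-(q : ℂ)⁻¹) • diagForm hlev u
  have hX : X₁ = X₂ := Periods.ext_qCoeff fun n => by
    simp only [X₁, X₂]
    rw [Periods.qCoeff_add, Periods.qCoeff_add, Periods.qCoeff_smul, Periods.qCoeff_smul,
      BadPrime.coe_levelIncl, BadPrime.coe_levelIncl, qCoeff_diagForm, qCoeff_diagForm]
    split_ifs with hn
    · obtain ⟨m, rfl⟩ := hn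
      rw [Nat.mul_div_cancel_left _ hq.pos, hu, mul_comm q m, hF'q]
      field_simp
      ring
    · rw [mul_zero, mul_zero, add_zero, add_zero, hagree n hn]
  have hd1 := (Hecke.isAdmissible_cuspForm F').slash (Hecke.isRatPos_heckeDiagMatrix hq.ne_zero)
  have hd2 := (Hecke.isAdmissible_cuspForm u).slash (Hecke.isRatPos_heckeDiagMatrix hq.ne_zero)
  have hpair := congrArg (fun x : CuspForm (Gamma0 (q * D' * q)) 2 =>
    Hecke.petPair 2 (⇑F') (⇑x)) hX
  rw [show (⇑X₁ : ℍ → ℂ) = ⇑F' + (-(a / q)) • (⇑F' ∣[(2 : ℤ)] ModularForm.heckeDiagMatrix q)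
      from rfl,
    show (⇑X₂ : ℍ → ℂ) = ⇑h' + (-(q : ℂ)⁻¹) • (⇑u ∣[(2 : ℤ)] ModularForm.heckeDiagMatrix q)
      from rfl,
    petPair_add_right' ha ha (hd1.smul _),
    petPair_add_right' ha (Hecke.isAdmissible_cuspForm h') (hd2.smul _),
    Hecke.petPair_smul_right ha hd1, Hecke.petPair_smul_right ha hd2, hVq, hVq, hu0,
    horth' h'] at hpair
  have h0 : ((q : ℂ) ^ 2 - conj a * a) * Hecke.petPair 2 (⇑F') (⇑F') = 0 := by
    field_simp at hpair
    linear_combination hpair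
  have hz : F' = 0 := Hecke.petInner_self_eq_zero
    ((mul_eq_zero.1 h0).resolve_left (sub_ne_zero.2 (Ne.symm hfa)))
  have h1 := hF' 1
  rw [hz, if_pos fun ℓ hℓ hd => (hP ℓ hℓ).1.not_dvd_one hd, hf.qCoeff_one, Hecke.qCoeff_zero] at h1
  exact zero_ne_one h1

/-- For a normalised eigenform of level divisible by `q` the `q`-th coefficient does not have
absolute value `q`: otherwise `f | V_q` would be a multiple of `f`. -/
theorem conj_qCoeff_mul_ne {R : ℕ} [NeZero R] (hqR : q ∣ R) {f : CuspForm (Gamma0 R) 2}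
    (hf : f.IsNormalizedEigenform) : conj (qCoeff f q) * qCoeff f q ≠ (q : ℂ) ^ 2 := by
  intro h
  have hq := (Fact.out : q.Prime)
  haveI : NeZero q := ⟨hq.ne_zero⟩
  set a := qCoeff f q
  have hq0 : (q : ℂ) ≠ 0 := Nat.cast_ne_zero.2 hq.ne_zero
  have hd : R * q ∣ R * q := dvd_rfl
  have hfa := Hecke.isAdmissible_cuspForm f
  have hda := hfa.slash (Hecke.isRatPos_heckeDiagMatrix hq.ne_zero)
  have hU := (Periods.isEigen_of_isNormalizedEigenform hf).2 q hqR hq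
  -- the pairings of `f` and `f | V_q`
  have e1 : Hecke.petPair 2 (⇑f) (⇑f ∣[(2 : ℤ)] ModularForm.heckeDiagMatrix q) =
      conj a / q * Hecke.petPair 2 (⇑f) (⇑f) := by
    have e := petPair_heckeU_left hq.ne_zero hfa hfa
      (fun j => gamma0_slash f (T_zpow_mem_gamma0 _ j))
    rw [← CuspForm.coe_heckeULin_apply 2 hqR f, hU,
      show (⇑(a • f) : ℍ → ℂ) = a • ⇑f from rfl, Hecke.petPair_smul_left hfa hfa] at e
    field_simp
    linear_combination -e
  have e2 : Hecke.petPair 2 (⇑f ∣[(2 : ℤ)] ModularForm.heckeDiagMatrix q) (⇑f) =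
      a / q * Hecke.petPair 2 (⇑f) (⇑f) := by
    rw [← Hecke.petPair_conj hfa hda, e1, map_mul, map_div₀, Complex.conj_conj, map_natCast,
      Hecke.petPair_conj hfa hfa]
  have e3 : Hecke.petPair 2 (⇑f ∣[(2 : ℤ)] ModularForm.heckeDiagMatrix q)
      (⇑f ∣[(2 : ℤ)] ModularForm.heckeDiagMatrix q) = Hecke.petPair 2 (⇑f) (⇑f) := by
    rw [Hecke.petPair_slash hfa hfa (Hecke.isRatPos_heckeDiagMatrix hq.ne_zero)]
    simp
  let w : CuspForm (Gamma0 (R * q)) 2 :=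
    diagForm hd f + (-(conj a / q)) • BadPrime.levelIncl (dvd_mul_right R q) f
  have hw : w = 0 := by
    refine Hecke.petInner_self_eq_zero ?_
    show Hecke.petPair 2 (⇑w) (⇑w) = 0
    rw [show (⇑w : ℍ → ℂ) = ⇑f ∣[(2 : ℤ)] ModularForm.heckeDiagMatrix q +
        (-(conj a / q)) • ⇑f from rfl,
      Hecke.petPair_add_left hda (hfa.smul _) (hda.add (hfa.smul _)),
      petPair_add_right' hda hda (hfa.smul _), Hecke.petPair_smul_left hfa (hda.add (hfa.smul _)),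
      petPair_add_right' hfa hda (hfa.smul _), Hecke.petPair_smul_right hda hfa,
      Hecke.petPair_smul_right hfa hfa, e1, e2, e3]
    field_simp
    linear_combination -(Hecke.petPair 2 (⇑f) (⇑f)) * h
  have h1 : qCoeff w 1 = -(conj a / q) := by
    rw [show qCoeff w 1 = qCoeff (diagForm hd f) 1 + (-(conj a / q)) *
        qCoeff (BadPrime.levelIncl (dvd_mul_right R q) f) 1 by
      rw [Periods.qCoeff_add, Periods.qCoeff_smul],
      qCoeff_diagForm, if_neg (Nat.Prime.not_dvd_one hq), BadPrime.coe_levelIncl, hf.qCoeff_one]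
    ring
  rw [hw, Hecke.qCoeff_zero] at h1
  have ha : conj a = 0 := by
    field_simp at h1
    linear_combination h1
  rw [ha, zero_mul] at h
  exact pow_ne_zero 2 hq0 h.symm

/-- A nonzero form orthogonal to level `D`, eigen for `U_q` and for the `T_ℓ` outside
a finite set `K`: no eigenform of level dividing `D` has these eigenvalues outside `K`. -/
theorem not_dvd_of_orth {f : CuspForm (Gamma0 (q * D)) 2} (hf0 : f ≠ 0) (horth : IsOrth D f)
    {a : ℂ}
    (hUq : ∀ n, qCoeff f (n * q) = a * qCoeff f n) (K : Finset ℕ) (c : ℕ → ℂ)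
    (hT : ∀ (ℓ : ℕ) (hℓ : ℓ.Prime) (hℓN : ¬ ℓ ∣ q * D), ℓ ∉ K →
      CuspForm.heckeTLin 2 hℓ hℓN f = c ℓ • f)
    {L : ℕ} {g : CuspForm (Gamma0 L) 2} (hg : g.IsNormalizedEigenform)
    (hgc : ∀ ℓ : ℕ, ℓ.Prime → ℓ ∉ K → qCoeff g ℓ = c ℓ) : ¬ L ∣ D := by
  classical
  intro hL
  have hq := (Fact.out : q.Prime)
  haveI : NeZero q := ⟨hq.ne_zero⟩
  set m := ∏ p ∈ K.filter (fun p => p.Prime ∧ p ≠ q), p
  haveI : NeZero m := ⟨Finset.prod_ne_zero_iff.2 fun p hp => (Finset.mem_filter.1 hp).2.1.ne_zero⟩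
  have hqm : ¬ q ∣ m := fun hd => by
    obtain ⟨p, hp, hqp⟩ := (Prime.dvd_finsetProd_iff hq.prime _).1 hd
    exact (Finset.mem_filter.1 hp).2.2 ((Nat.prime_dvd_prime_iff_eq hq (Finset.mem_filter.1 hp).2.1).1 hqp).symm
  have hassoc : q * D ∣ q * (D * m) := ⟨m, by ring⟩
  set f₁ := BadPrime.levelIncl hassoc f
  have hqR : q ∣ q * (D * m) := dvd_mul_right q _
  have hgood : ∀ ℓ : ℕ, ℓ.Prime → ¬ ℓ ∣ q * (D * m) → ℓ ∉ K ∧ ¬ ℓ ∣ q * D := fun ℓ hℓ hd =>
    ⟨fun hK => hd (dvd_mul_of_dvd_right (dvd_mul_of_dvd_right (Finset.dvd_prod_of_mem _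
        (Finset.mem_filter.2 ⟨hK, hℓ, fun he => hd (he ▸ hqR)⟩)) _) _),
      fun hc => hd (hc.trans hassoc)⟩
  let W : Submodule ℂ (CuspForm (Gamma0 (q * (D * m))) 2) :=
    { carrier := {x | IsOrth (D * m) x ∧ CuspForm.heckeULin 2 hqR x = a • x ∧
        ∀ (ℓ : ℕ) (hℓ : ℓ.Prime) (hℓN : ¬ ℓ ∣ q * (D * m)),
          CuspForm.heckeTLin 2 hℓ hℓN x = c ℓ • x}
      add_mem' := fun {x y} hx hy => ⟨hx.1.add hy.1 (Hecke.isAdmissible_cuspForm x)
          (Hecke.isAdmissible_cuspForm y),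
        by rw [map_add, hx.2.1, hy.2.1, smul_add],
        fun ℓ hℓ hℓN => by rw [map_add, hx.2.2 ℓ hℓ hℓN, hy.2.2 ℓ hℓ hℓN, smul_add]⟩
      zero_mem' := ⟨fun h => Hecke.petPair_zero_left (Hecke.isAdmissible_cuspForm h),
        by simp, fun ℓ hℓ hℓN => by simp⟩
      smul_mem' := fun z x hx => ⟨hx.1.smul (Hecke.isAdmissible_cuspForm x) z,
        by rw [map_smul, hx.2.1, smul_comm],
        fun ℓ hℓ hℓN => by rw [map_smul, hx.2.2 ℓ hℓ hℓN, smul_comm]⟩ }
  have hW : W ≠ ⊥ := by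
    refine Submodule.ne_bot_iff _ |>.2 ⟨f₁, ⟨horth.raise hqm, Periods.ext_qCoeff fun n => ?_,
      fun ℓ hℓ hℓN => ?_⟩, fun h0 => hf0 ?_⟩
    · rw [Periods.qCoeff_heckeULin hq hqR, Periods.qCoeff_smul]
      exact hUq n
    · obtain ⟨hK, hN⟩ := hgood ℓ hℓ hℓN
      rw [BadPrime.heckeTLin_levelIncl, hT ℓ hℓ hN hK, map_smul]
    · exact DFunLike.coe_injective
        (congrArg (fun x : CuspForm (Gamma0 (q * (D * m))) 2 => (x : ℍ → ℂ)) h0)
  have := BadPrime.finiteDimensional_cuspForm (q * (D * m))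
  obtain ⟨v, hvW, hv0, hv⟩ := Hecke.exists_common_eigenvector
    (CuspForm.heckeAlgebra (q * (D * m)) 2 ∅).val.toRingHom W hW (fun t => by
      obtain ⟨t, ht⟩ := t
      show ∀ x ∈ W, t x ∈ W
      induction ht using Algebra.adjoin_induction with
      | mem y hy =>
        intro x hx
        rcases hy with ⟨ℓ, hℓ, hℓN, -, rfl⟩ | ⟨p, hpN, hp, -, rfl⟩
        · rw [hx.2.2 ℓ hℓ hℓN]; exact W.smul_mem _ hx
        · by_cases hpq : p = q
          · subst hpq; rw [hx.2.1]; exact W.smul_mem _ hx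
          · refine ⟨?_, ?_, fun ℓ hℓ hℓN => ?_⟩
            · rw [CuspForm.coe_heckeULin_apply]
              exact hx.1.heckeU hp hpq
            · rw [← Module.End.mul_apply, (CuspForm.heckeULin_comm 2 hqR hpN).eq,
                Module.End.mul_apply, hx.2.1, map_smul]
            · rw [← Module.End.mul_apply, (CuspForm.heckeTLin_heckeULin_comm 2 hℓ hℓN hpN).eq,
                Module.End.mul_apply, hx.2.2 ℓ hℓ hℓN, map_smul]
      | algebraMap r =>
        intro x hx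
        rw [Module.algebraMap_end_apply, ← Int.cast_smul_eq_zsmul ℂ]
        exact W.smul_mem _ hx
      | add y z _ _ hy hz => exact fun x hx => W.add_mem (hy x hx) (hz x hx)
      | mul y z _ _ hy hz => exact fun x hx => hy _ (hz x hx))
  obtain ⟨φ, hφ⟩ := Hecke.exists_eigenchar _ hv0 hv
  obtain ⟨f₂, hf₂, -, hT₂, hU₂⟩ := Hecke.exists_normalizedEigenform_of_eigenvector φ hv0 hφ
  obtain ⟨horth₂, hUv, hTv⟩ := hvW
  have hEv : Periods.IsEigen v (fun p => qCoeff f₂ p) :=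
    ⟨fun p hp hpN => by simp only []; rw [hT₂ p hp hpN]; exact hφ (CuspForm.heckeAlgebra.T hp hpN _),
      fun p hpN hp => by simp only []; rw [hU₂ p hp hpN]; exact hφ (CuspForm.heckeAlgebra.U hp hpN _)⟩
  have hv1 := hEv.qCoeff_one_ne_zero hv0
  have he : f₂ = (qCoeff v 1)⁻¹ • v := by
    conv_rhs => arg 2; rw [(Periods.isEigen_of_isNormalizedEigenform hf₂).eq_smul hEv hf₂.qCoeff_one]
    rw [smul_smul, inv_mul_cancel₀ hv1, one_smul]
  refine not_goodEigensystemOccursAt_of_orth hf₂ (conj_qCoeff_mul_ne hqR hf₂) ?_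
    (hL.trans (dvd_mul_right D m)) ⟨g, hg, fun ℓ hℓ hℓN => ?_⟩
  · rw [he]
    exact horth₂.smul (Hecke.isAdmissible_cuspForm v) _
  · rw [hgc ℓ hℓ (hgood ℓ hℓ hℓN).1]
    exact smul_left_injective ℂ hv0 ((hTv ℓ hℓ hℓN).symm.trans (hEv.1 ℓ hℓ hℓN))

/-- A nonzero form whose translates by all powers of `U_q` are orthogonal to level `D`, eigen for
the `T_ℓ` outside a finite set `K`: no eigenform of level dividing `D` has these eigenvalues. -/
theorem not_dvd_of_orth' {f : CuspForm (Gamma0 (q * D)) 2} (hf0 : f ≠ 0)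
    (horth : ∀ n : ℕ, IsOrth D ((CuspForm.heckeULin 2 (dvd_mul_right q D) ^ n :
      Module.End ℂ (CuspForm (Gamma0 (q * D)) 2)) f))
    (K : Finset ℕ) (c : ℕ → ℂ)
    (hT : ∀ (ℓ : ℕ) (hℓ : ℓ.Prime) (hℓN : ¬ ℓ ∣ q * D), ℓ ∉ K →
      CuspForm.heckeTLin 2 hℓ hℓN f = c ℓ • f)
    {L : ℕ} {g : CuspForm (Gamma0 L) 2} (hg : g.IsNormalizedEigenform)
    (hgc : ∀ ℓ : ℕ, ℓ.Prime → ℓ ∉ K → qCoeff g ℓ = c ℓ) : ¬ L ∣ D := by
  have hq := (Fact.out : q.Prime)
  haveI : NeZero q := ⟨hq.ne_zero⟩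
  set U : Module.End ℂ (CuspForm (Gamma0 (q * D)) 2) := CuspForm.heckeULin 2 (dvd_mul_right q D)
  let W : Submodule ℂ (CuspForm (Gamma0 (q * D)) 2) :=
    { carrier := {x | (∀ n : ℕ, IsOrth D ((U ^ n) x)) ∧
        ∀ (ℓ : ℕ) (hℓ : ℓ.Prime) (hℓN : ¬ ℓ ∣ q * D), ℓ ∉ K →
          CuspForm.heckeTLin 2 hℓ hℓN x = c ℓ • x}
      add_mem' := fun {x y} hx hy => ⟨fun n => by
          rw [map_add]
          exact (hx.1 n).add (hy.1 n) (Hecke.isAdmissible_cuspForm ((U ^ n) x))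
            (Hecke.isAdmissible_cuspForm ((U ^ n) y)),
        fun ℓ hℓ hℓN hK => by rw [map_add, hx.2 ℓ hℓ hℓN hK, hy.2 ℓ hℓ hℓN hK, smul_add]⟩
      zero_mem' := ⟨fun n h => by
          rw [map_zero]; exact Hecke.petPair_zero_left (Hecke.isAdmissible_cuspForm h),
        fun ℓ hℓ hℓN hK => by simp⟩
      smul_mem' := fun z x hx => ⟨fun n => by
          rw [map_smul]
          exact (hx.1 n).smul (Hecke.isAdmissible_cuspForm ((U ^ n) x)) z,
        fun ℓ hℓ hℓN hK => by rw [map_smul, hx.2 ℓ hℓ hℓN hK, smul_comm]⟩ }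
  have hUW : ∀ x ∈ W, U x ∈ W := fun x hx => ⟨fun n => by
      rw [← Module.End.mul_apply, ← pow_succ]
      exact hx.1 (n + 1),
    fun ℓ hℓ hℓN hK => by
      rw [← Module.End.mul_apply,
        (CuspForm.heckeTLin_heckeULin_comm 2 hℓ hℓN (dvd_mul_right q D)).eq, Module.End.mul_apply,
        hx.2 ℓ hℓ hℓN hK, map_smul]⟩
  have := BadPrime.finiteDimensional_cuspForm (q * D)
  haveI : Nontrivial W := ⟨⟨⟨f, horth, hT⟩, 0, fun h => hf0 (congrArg Subtype.val h :)⟩⟩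
  obtain ⟨a, ha⟩ := Module.End.exists_eigenvalue (U.restrict hUW)
  obtain ⟨⟨v, hv⟩, hv'⟩ := ha.exists_hasEigenvector
  have hv0 : v ≠ 0 := fun h => hv'.2 (Subtype.ext h)
  have hUv : U v = a • v := congrArg Subtype.val hv'.apply_eq_smul
  refine not_dvd_of_orth (a := a) hv0 (by simpa using hv.1 0) (fun n => ?_) K c hv.2 hg hgc
  rw [← Periods.qCoeff_heckeULin hq (dvd_mul_right q D), ← Periods.qCoeff_smul]
  exact congrArg (fun x : CuspForm (Gamma0 (q * D)) 2 => qCoeff x n) hUv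

end Main

end Fermat.Agent.RT.Systems
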