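import Mathlib.Algebra.Field.ZMod
import Mathlib.NumberTheory.MulChar.Basic
import Mathlib.NumberTheory.ModularForms.CongruenceSubgroups
import Fermat.Agent.RT.TW.MixedFamily

/-!
# Removing a character at `q` from twisted cohomology

Let `q` be a prime not dividing `M`, let `ε` be a character modulo `M` and `θ` one modulo `q`.
The matrices `(1 0; i M 1) (q 0; 0 1)` with weights `θ(i)⁻¹` give
`ι : H¹(Γ₀(qM), ε θ(d)²) → H¹(Γ₀(q²M), ε)`; note `θ(d)² = θ(d/a)` is the twist of the symmetric
weighting `θ(a/d)`. The map has a left inverse up to the scalar `q (q - 1) θ(-1)` when `θ² ≠ 1`,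
and both trace maps down to level `qM` kill its image when `θ ≠ 1`.
-/

set_option autoImplicit false

noncomputable section

namespace Fermat.Agent.RT.Systems

open scoped MatrixGroups
open Fermat.Agent.Periods Fermat.Agent.RT.TW CongruenceSubgroup

theorem mem_gamma0_iff_dvd {L : ℕ} {g : SL(2, ℤ)} : g ∈ Gamma0 L ↔ (L : ℤ) ∣ g 1 0 := by
  rw [Gamma0_mem, ZMod.intCast_zmod_eq_zero_iff_dvd]

/-- An element of `Γ₀(L)` from its matrix. -/
def mkGamma0 (L : ℕ) (a b c d : ℤ) (hdet : a * d - b * c = 1) (hc : (L : ℤ) ∣ c) : Gamma0 L :=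
  ⟨⟨!![a, b; c, d], by rw [Matrix.det_fin_two_of, hdet]⟩, mem_gamma0_iff_dvd.2 hc⟩

@[simp] theorem gammaMat_mkGamma0 {L : ℕ} {a b c d : ℤ} (hdet : a * d - b * c = 1)
    (hc : (L : ℤ) ∣ c) : gammaMat (mkGamma0 L a b c d hdet hc) = !![a, b; c, d] := rfl

theorem gamma0_det {L : ℕ} (γ : Gamma0 L) :
    gammaMat γ 0 0 * gammaMat γ 1 1 - gammaMat γ 0 1 * gammaMat γ 1 0 = 1 :=
  (Matrix.det_fin_two _).symm.trans (γ : SL(2, ℤ)).det_coe

theorem gamma0_dvd {L : ℕ} (γ : Gamma0 L) : (L : ℤ) ∣ gammaMat γ 1 0 := mem_gamma0_iff_dvd.1 γ.2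

theorem gamma0_cast_eq_zero {L N : ℕ} (h : N ∣ L) (γ : Gamma0 L) :
    (gammaMat γ 1 0 : ZMod N) = 0 :=
  (ZMod.intCast_zmod_eq_zero_iff_dvd _ _).2 ((Int.natCast_dvd_natCast.2 h).trans (gamma0_dvd γ))

/-- The lower right entry modulo a divisor of the level, as a unit. -/
def dHom {L N : ℕ} (h : N ∣ L) : Gamma0 L →* (ZMod N)ˣ where
  toFun γ := ⟨(gammaMat γ 1 1 : ZMod N), (gammaMat γ 0 0 : ZMod N),
    by
      have := congrArg (fun x : ℤ => (x : ZMod N)) (gamma0_det γ)
      push_cast at this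
      rw [gamma0_cast_eq_zero h γ, mul_zero, sub_zero] at this
      rw [mul_comm]; exact this,
    by
      have := congrArg (fun x : ℤ => (x : ZMod N)) (gamma0_det γ)
      push_cast at this
      rw [gamma0_cast_eq_zero h γ, mul_zero, sub_zero] at this
      exact this⟩
  map_one' := Units.ext (by simp [gammaMat_one])
  map_mul' γ δ := Units.ext (by
    simp only [Units.val_mul, gammaMat_mul, Matrix.mul_apply, Fin.sum_univ_two]
    push_cast
    rw [gamma0_cast_eq_zero h γ, zero_mul, zero_add])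

@[simp] theorem dHom_val {L N : ℕ} (h : N ∣ L) (γ : Gamma0 L) :
    ((dHom h γ : (ZMod N)ˣ) : ZMod N) = (gammaMat γ 1 1 : ZMod N) := rfl

theorem dHom_inv_val {L N : ℕ} (h : N ∣ L) (γ : Gamma0 L) :
    (((dHom h γ)⁻¹ : (ZMod N)ˣ) : ZMod N) = (gammaMat γ 0 0 : ZMod N) := rfl

theorem dHom_congr {L L' N : ℕ} (h : N ∣ L) (h' : N ∣ L') {γ : Gamma0 L} {δ : Gamma0 L'}
    (e : (gammaMat γ 1 1 : ZMod N) = (gammaMat δ 1 1 : ZMod N)) : dHom h γ = dHom h' δ :=
  Units.ext e

variable {A : Type*} [CommRing A] {q M : ℕ}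

/-- The character `γ ↦ ε(d)` of `Γ₀(L)`. -/
def tgtChar (ε : (ZMod M)ˣ →* Aˣ) {L : ℕ} (h : M ∣ L) : Gamma0 L →* Aˣ := ε.comp (dHom h)

/-- The character `γ ↦ ε(d) θ(d)²` of `Γ₀(L)`. -/
def srcChar (ε : (ZMod M)ˣ →* Aˣ) (θ : (ZMod q)ˣ →* Aˣ) {L : ℕ} (hM : M ∣ L) (hq : q ∣ L) :
    Gamma0 L →* Aˣ :=
  tgtChar ε hM * (θ ^ 2).comp (dHom hq)

theorem srcChar_apply (ε : (ZMod M)ˣ →* Aˣ) (θ : (ZMod q)ˣ →* Aˣ) {L : ℕ} (hM : M ∣ L)
    (hq : q ∣ L) (γ : Gamma0 L) :
    srcChar ε θ hM hq γ = ε (dHom hM γ) * θ (dHom hq γ) ^ 2 := rfl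

section Levels

variable (q M)

theorem dvd_level_one : M ∣ q * M := dvd_mul_left M q
theorem prime_dvd_level_one : q ∣ q * M := dvd_mul_right q M
theorem dvd_level_two : M ∣ q ^ 2 * M := dvd_mul_left M (q ^ 2)
theorem prime_dvd_level_two : q ∣ q ^ 2 * M := dvd_mul_of_dvd_left (dvd_pow_self q two_ne_zero) M

end Levels

section Families

variable [Fact q.Prime] (M) (ε : (ZMod M)ˣ →* Aˣ) (θ : (ZMod q)ˣ →* Aˣ)

theorem intCast_q_ne_zero : (q : ℤ) ≠ 0 := Int.natCast_ne_zero.2 (Fact.out : q.Prime).ne_zero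

/-- `(1 0; n M 1) (q 0; 0 1)`. -/
def iotaMat (q M : ℕ) (n : ℤ) : IntMat := !![(q : ℤ), 0; n * ((q : ℤ) * M), 1]

theorem det_iotaMat (n : ℤ) : (iotaMat q M n).det = q := by
  simp [iotaMat, Matrix.det_fin_two_of]

theorem iotaMat_coset [NeZero M] {g : Gamma0 (q * M)} {n n' : ℤ}
    (h : iotaMat q M n = gammaMat g * iotaMat q M n') : (n : ZMod q) = (n' : ZMod q) := by
  have h10 := congrFun (congrFun h 1) 0
  have h11 := congrFun (congrFun h 1) 1
  simp [iotaMat, Matrix.mul_apply, Fin.sum_univ_two] at h10 h11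
  obtain ⟨t, ht⟩ := gamma0_dvd g
  rw [← h11, ht, one_mul] at h10
  push_cast at h10
  have h' : n = n' + q * t := by
    apply mul_right_cancel₀ (mul_ne_zero (intCast_q_ne_zero (q := q))
      (Int.natCast_ne_zero.2 (NeZero.ne M)))
    linear_combination h10
  rw [h']; simp

theorem isSepFamily_iotaMat [NeZero M] {ι : Type*} (r : ι → ℤ)
    (hr : Function.Injective fun i => (r i : ZMod q)) :
    IsSepFamily (Gamma0 (q * M)) (fun i => iotaMat q M (r i)) :=
  ⟨fun i => by rw [det_iotaMat]; exact intCast_q_ne_zero,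
    fun _ _ _ h => hr (iotaMat_coset M h)⟩

theorem iota_step [NeZero M] (r : (ZMod q)ˣ → ℤ) (hr : ∀ i, (r i : ZMod q) = i)
    (γ : Gamma0 (q ^ 2 * M)) (i : (ZMod q)ˣ) :
    ∃ (j : (ZMod q)ˣ) (g : Gamma0 (q * M)),
      iotaMat q M (r i) * gammaMat γ = gammaMat g * iotaMat q M (r j) ∧
      (((θ i)⁻¹ : Aˣ) : A) *
          (srcChar ε θ (dvd_level_one q M) (prime_dvd_level_one q M) g : A) =
        (tgtChar ε (dvd_level_two q M) γ : A) * (((θ j)⁻¹ : Aˣ) : A) := by
  set u := dHom (prime_dvd_level_two q M) γ with hu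
  refine ⟨i * (u⁻¹) ^ 2, ?_⟩
  set j := i * (u⁻¹) ^ 2 with hj
  obtain ⟨c1, hc1⟩ := gamma0_dvd γ
  set a := gammaMat γ 0 0 with ha
  set b := gammaMat γ 0 1 with hb
  set c := gammaMat γ 1 0 with hc
  set d := gammaMat γ 1 1 with hd
  have hdet : a * d - b * c = 1 := gamma0_det γ
  push_cast at hc1
  have hdvd : ((q * M : ℕ) : ℤ) ∣ r i * M * a + q * M * c1 -
      r j * M * (r i * M * (q * b) + d) := by
    obtain ⟨t, ht⟩ : (q : ℤ) ∣ r i * a - r j * d := by
      rw [← ZMod.intCast_zmod_eq_zero_iff_dvd]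
      push_cast
      rw [hr, hr, hj, Units.val_mul, Units.val_pow_eq_pow_val]
      show (i : ZMod q) * (((u⁻¹ : (ZMod q)ˣ)) : ZMod q) -
        (i : ZMod q) * (((u⁻¹ : (ZMod q)ˣ)) : ZMod q) ^ 2 * (u : ZMod q) = 0
      linear_combination -((i : ZMod q) * (((u⁻¹ : (ZMod q)ˣ)) : ZMod q)) * u.inv_mul
    exact ⟨c1 + t - r j * r i * M * b, by push_cast; linear_combination (M : ℤ) * ht⟩
  refine ⟨mkGamma0 _ (a - (q * b) * (r j * M)) (q * b) _ (r i * M * (q * b) + d)
    (by linear_combination hdet + b * hc1) hdvd, ?_, ?_⟩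
  · have e : gammaMat γ = !![a, b; c, d] := Matrix.eta_fin_two _
    rw [e, gammaMat_mkGamma0, iotaMat, iotaMat, hc1]
    ext k l
    fin_cases k <;> fin_cases l <;> simp [Matrix.mul_apply, Fin.sum_univ_two] <;> ring
  · rw [srcChar_apply, dHom_congr (dvd_level_one q M) (dvd_level_two q M) (δ := γ) (by
        simp [← hd]),
      dHom_congr (prime_dvd_level_one q M) (prime_dvd_level_two q M) (δ := γ) (by simp [← hd]),
      ← hu, ← Units.val_mul]
    show _ = (ε (dHom _ γ) : A) * _
    rw [← Units.val_mul, hj, map_mul, map_pow, map_inv]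
    refine congrArg Units.val ?_
    rw [mul_inv, inv_pow, inv_inv]
    ac_rfl

/-- The family defining `ι`, for any choice of representatives. -/
def iotaFamily [NeZero M] (r : (ZMod q)ˣ → ℤ) (hr : ∀ i, (r i : ZMod q) = i) :
    MixedFamily (srcChar ε θ (dvd_level_one q M) (prime_dvd_level_one q M))
      (tgtChar ε (dvd_level_two q M)) (ZMod q)ˣ :=
  MixedFamily.ofSep (fun i => iotaMat q M (r i)) (fun i => (((θ i)⁻¹ : Aˣ) : A))
    (isSepFamily_iotaMat M r (fun i j h => Units.ext (by
      simp only at h; rw [hr, hr] at h; exact h)))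
    (iota_step M ε θ r hr)

/-- The standard representatives. -/
def unitRep (i : (ZMod q)ˣ) : ℤ := ((i : ZMod q).val : ℤ)

theorem unitRep_cast (i : (ZMod q)ˣ) : (unitRep i : ZMod q) = i := by simp [unitRep]

/-- `ι : H¹(Γ₀(qM), ε θ(d)²) → H¹(Γ₀(q²M), ε)`. -/
def iota [NeZero M] :
    twistedH1 (srcChar ε θ (dvd_level_one q M) (prime_dvd_level_one q M)) →ₗ[A]
      twistedH1 (tgtChar ε (dvd_level_two q M)) :=
  (iotaFamily M ε θ unitRep unitRep_cast).opH1

theorem iotaFamily_opH1 [NeZero M] (r : (ZMod q)ˣ → ℤ) (hr : ∀ i, (r i : ZMod q) = i) :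
    (iotaFamily M ε θ r hr).opH1 = iota M ε θ := by
  have hdvd : ∀ i : (ZMod q)ˣ, ((q * M : ℕ) : ℤ) ∣ M * (r i - unitRep i) := fun i => by
    rw [Nat.cast_mul, mul_comm (q : ℤ)]
    refine mul_dvd_mul_left _ ?_
    rw [← ZMod.intCast_zmod_eq_zero_iff_dvd]; simp [hr, unitRep_cast]
  refine MixedFamily.opH1_eq_of_collapse _ _
    (isSepFamily_iotaMat M unitRep (fun i j h => Units.ext (by
      simp only [unitRep_cast] at h; exact h))) id
    (fun i => mkGamma0 _ 1 0 (M * (r i - unitRep i)) 1 (by ring) (hdvd i)) (fun i => ?_)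
    (fun k => ?_)
  · show iotaMat q M (r i) = _
    rw [gammaMat_mkGamma0]
    ext k l
    fin_cases k <;> fin_cases l <;>
      simp [iotaFamily, iotaMat, Matrix.mul_apply, Fin.sum_univ_two] <;> ring
  · rw [show Finset.univ.filter (fun i => id i = k) = {k} from by ext; simp, Finset.sum_singleton]
    show _ * _ = (((θ k)⁻¹ : Aˣ) : A)
    rw [srcChar_apply]
    have h1 : dHom (dvd_level_one q M) (mkGamma0 (q * M) 1 0 (M * (r k - unitRep k)) 1 (by ring)
        (hdvd k)) = 1 := Units.ext (by simp)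
    have h2 : dHom (prime_dvd_level_one q M) (mkGamma0 (q * M) 1 0 (M * (r k - unitRep k)) 1
        (by ring) (hdvd k)) = 1 := Units.ext (by simp)
    rw [h1, h2, map_one, map_one, one_pow, one_mul, Units.val_one, mul_one]
    rfl

theorem back_step [NeZero M] (γ : Gamma0 (q ^ 2 * M)) (i : (ZMod q)ˣ) :
    ∃ (j : (ZMod q)ˣ) (g : Gamma0 (q ^ 2 * M)),
      !![1, 0; unitRep i * ((q : ℤ) * M), 1] * gammaMat γ =
          gammaMat g * !![1, 0; unitRep j * ((q : ℤ) * M), 1] ∧
      (θ i : A) * (tgtChar ε (dvd_level_two q M) g : A) =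
        (srcChar ε θ (dvd_level_two q M) (prime_dvd_level_two q M) γ : A) * (θ j : A) := by
  set u := dHom (prime_dvd_level_two q M) γ with hu
  refine ⟨i * (u⁻¹) ^ 2, ?_⟩
  set j := i * (u⁻¹) ^ 2 with hj
  obtain ⟨c1, hc1⟩ := gamma0_dvd γ
  set a := gammaMat γ 0 0 with ha
  set b := gammaMat γ 0 1 with hb
  set c := gammaMat γ 1 0 with hc
  set d := gammaMat γ 1 1 with hd
  set i' := unitRep i
  set j' := unitRep j
  have hdet : a * d - b * c = 1 := gamma0_det γ
  push_cast at hc1
  have hdvd : ((q ^ 2 * M : ℕ) : ℤ) ∣ i' * (q * M) * a + c -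
      j' * (q * M) * (i' * (q * M) * b + d) := by
    obtain ⟨t, ht⟩ : (q : ℤ) ∣ i' * a - j' * d := by
      rw [← ZMod.intCast_zmod_eq_zero_iff_dvd]
      push_cast
      rw [unitRep_cast, unitRep_cast, hj, Units.val_mul, Units.val_pow_eq_pow_val]
      show (i : ZMod q) * (((u⁻¹ : (ZMod q)ˣ)) : ZMod q) -
        (i : ZMod q) * (((u⁻¹ : (ZMod q)ˣ)) : ZMod q) ^ 2 * (u : ZMod q) = 0
      linear_combination -((i : ZMod q) * (((u⁻¹ : (ZMod q)ˣ)) : ZMod q)) * u.inv_mul
    exact ⟨t + c1 - j' * i' * M * b, by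
      push_cast; linear_combination ((q : ℤ) * M) * ht + hc1⟩
  refine ⟨mkGamma0 _ (a - b * (j' * (q * M))) b _ (i' * (q * M) * b + d)
    (by linear_combination hdet) hdvd, ?_, ?_⟩
  · have e : gammaMat γ = !![a, b; c, d] := Matrix.eta_fin_two _
    rw [e, gammaMat_mkGamma0]
    ext k l
    fin_cases k <;> fin_cases l <;> simp [Matrix.mul_apply, Fin.sum_univ_two] <;> ring
  · show (θ i : A) * (ε (dHom _ _) : A) = _
    rw [srcChar_apply, dHom_congr (dvd_level_two q M) (dvd_level_two q M) (δ := γ) (by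
        simp [← hd]), ← hu, ← Units.val_mul, ← Units.val_mul]
    rw [hj, map_mul, map_pow, map_inv]
    refine congrArg Units.val ?_
    rw [mul_assoc, mul_comm (θ i), inv_pow, mul_comm (θ u ^ 2), mul_assoc, inv_mul_cancel, mul_one]

theorem isSepFamily_backMat [NeZero M] : IsSepFamily (Gamma0 (q ^ 2 * M))
    (fun i : (ZMod q)ˣ => !![(1 : ℤ), 0; unitRep i * ((q : ℤ) * M), 1]) := by
  refine ⟨fun i => by simp [Matrix.det_fin_two_of], fun i j g h => ?_⟩
  have h10 := congrFun (congrFun h 1) 0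
  have h11 := congrFun (congrFun h 1) 1
  simp [Matrix.mul_apply, Fin.sum_univ_two] at h10 h11
  obtain ⟨t, ht⟩ := gamma0_dvd g
  rw [← h11, ht, one_mul] at h10
  push_cast at h10
  have h' : unitRep i = unitRep j + q * t := by
    apply mul_right_cancel₀ (mul_ne_zero (intCast_q_ne_zero (q := q))
      (Int.natCast_ne_zero.2 (NeZero.ne M)))
    linear_combination h10
  have := congrArg (fun x : ℤ => (x : ZMod q)) h'
  simpa [unitRep_cast, Units.val_inj] using this

/-- The twisting operator back, at level `q²M`. -/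
def backFamily [NeZero M] : MixedFamily (tgtChar ε (dvd_level_two q M))
    (srcChar ε θ (dvd_level_two q M) (prime_dvd_level_two q M)) (ZMod q)ˣ :=
  MixedFamily.ofSep (fun i => !![(1 : ℤ), 0; unitRep i * ((q : ℤ) * M), 1]) (fun i => (θ i : A))
    (isSepFamily_backMat M) (back_step M ε θ)

/-- `(1 b; 0 q)`. -/
def traceMat (q : ℕ) (b : ZMod q) : IntMat := !![1, (b.val : ℤ); 0, (q : ℤ)]

theorem isSepFamily_traceMat : IsSepFamily (Gamma0 (q ^ 2 * M)) (traceMat q) := by
  refine ⟨fun b => by simp [traceMat, Matrix.det_fin_two_of, (Fact.out : q.Prime).ne_zero],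
    fun b b' g h => ?_⟩
  have h00 := congrFun (congrFun h 0) 0
  have h01 := congrFun (congrFun h 0) 1
  simp [traceMat, Matrix.mul_apply, Fin.sum_univ_two, -ZMod.natCast_val] at h00 h01
  rw [← h00, one_mul] at h01
  have := congrArg (fun x : ℤ => (x : ZMod q)) h01
  simpa using this

theorem trace_step [NeZero M] (γ : Gamma0 (q * M)) (b : ZMod q) :
    ∃ (b' : ZMod q) (g : Gamma0 (q ^ 2 * M)),
      traceMat q b * gammaMat γ = gammaMat g * traceMat q b' ∧
      ∀ (L : ℕ) (hL : L ∣ q * M) (hL' : L ∣ q ^ 2 * M), dHom hL' g = dHom hL γ := by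
  obtain ⟨c1, hc1⟩ := gamma0_dvd γ
  set a := gammaMat γ 0 0 with ha
  set β := gammaMat γ 0 1 with hβ
  set c := gammaMat γ 1 0 with hc
  set d := gammaMat γ 1 1 with hd
  have hdet : a * d - β * c = 1 := gamma0_det γ
  push_cast at hc1
  have hu : ((gammaMat γ 0 0 : ℤ) : ZMod q) * (gammaMat γ 1 1 : ℤ) = 1 :=
    (dHom (prime_dvd_level_one q M) γ).inv_mul
  refine ⟨((β : ZMod q) + b * d) * (d : ZMod q), ?_⟩
  set b' := ((β : ZMod q) + b * d) * (d : ZMod q) with hb'
  obtain ⟨t, ht⟩ : (q : ℤ) ∣ β + b.val * d - b'.val * (a + b.val * c) := by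
    rw [← ZMod.intCast_zmod_eq_zero_iff_dvd]
    push_cast
    rw [ZMod.natCast_zmod_val, ZMod.natCast_zmod_val, hc1]
    push_cast
    rw [ZMod.natCast_self, hb']
    linear_combination -((β : ZMod q) + b * d) * hu
  refine ⟨mkGamma0 _ (a + b.val * c) t (q * c) (d - b'.val * c) ?_ ?_, ?_, ?_⟩
  · linear_combination hdet + c * ht
  · exact ⟨c1, by rw [hc1]; push_cast; ring⟩
  · have e : gammaMat γ = !![a, β; c, d] := Matrix.eta_fin_two _
    rw [e, gammaMat_mkGamma0, traceMat, traceMat]
    ext k l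
    fin_cases k <;> fin_cases l <;> simp [Matrix.mul_apply, Fin.sum_univ_two, -ZMod.natCast_val]
    · linear_combination ht
    · ring
  · intro L hL hL'
    refine dHom_congr hL' hL ?_
    have h0 : (c : ZMod L) = 0 := gamma0_cast_eq_zero hL γ
    simp [h0, ← hd]

/-- The trace `(1 b; 0 q)` from level `q²M` to level `qM`, with the character `ε θ(d)²`. -/
def traceTwistFamily [NeZero M] :
    MixedFamily (srcChar ε θ (dvd_level_two q M) (prime_dvd_level_two q M))
      (srcChar ε θ (dvd_level_one q M) (prime_dvd_level_one q M)) (ZMod q) :=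
  MixedFamily.ofSep (traceMat q) (fun _ => 1) (isSepFamily_traceMat M) (fun γ b => by
    obtain ⟨b', g, h, hd⟩ := trace_step M γ b
    exact ⟨b', g, h, by rw [srcChar_apply, srcChar_apply, hd M (dvd_level_one q M) _,
      hd q (prime_dvd_level_one q M) _, one_mul, mul_one]⟩)

/-- The trace `(1 b; 0 q)` from level `q²M` to level `qM`, with the character `ε`. -/
def traceFamily [NeZero M] :
    MixedFamily (tgtChar ε (dvd_level_two q M)) (tgtChar ε (dvd_level_one q M)) (ZMod q) :=
  MixedFamily.ofSep (traceMat q) (fun _ => 1) (isSepFamily_traceMat M) (fun γ b => by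
    obtain ⟨b', g, h, hd⟩ := trace_step M γ b
    exact ⟨b', g, h, by
      show (1 : A) * (ε (dHom _ g) : A) = (ε (dHom _ γ) : A) * 1
      rw [hd M (dvd_level_one q M) _, one_mul, mul_one]⟩)

/-- `(1 0; k q M 1)`. -/
def coresMat (q M : ℕ) (k : ZMod q) : IntMat := !![1, 0; (k.val : ℤ) * ((q : ℤ) * M), 1]

theorem isSepFamily_coresMat [NeZero M] : IsSepFamily (Gamma0 (q ^ 2 * M)) (coresMat q M) := by
  refine ⟨fun b => by simp [coresMat, Matrix.det_fin_two_of], fun i j g h => ?_⟩
  have h10 := congrFun (congrFun h 1) 0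
  have h11 := congrFun (congrFun h 1) 1
  simp [coresMat, Matrix.mul_apply, Fin.sum_univ_two, -ZMod.natCast_val] at h10 h11
  obtain ⟨t, ht⟩ := gamma0_dvd g
  rw [← h11, ht, one_mul] at h10
  push_cast at h10
  have h' : (i.val : ℤ) = j.val + q * t := by
    apply mul_right_cancel₀ (mul_ne_zero (intCast_q_ne_zero (q := q))
      (Int.natCast_ne_zero.2 (NeZero.ne M)))
    linear_combination h10
  have := congrArg (fun x : ℤ => (x : ZMod q)) h'
  simpa using this

theorem cores_step [NeZero M] (γ : Gamma0 (q * M)) (k : ZMod q) :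
    ∃ (k' : ZMod q) (g : Gamma0 (q ^ 2 * M)),
      coresMat q M k * gammaMat γ = gammaMat g * coresMat q M k' ∧
      (1 : A) * (tgtChar ε (dvd_level_two q M) g : A) =
        (tgtChar ε (dvd_level_one q M) γ : A) * 1 := by
  obtain ⟨c1, hc1⟩ := gamma0_dvd γ
  set a := gammaMat γ 0 0 with ha
  set b := gammaMat γ 0 1 with hb
  set c := gammaMat γ 1 0 with hc
  set d := gammaMat γ 1 1 with hd
  have hdet : a * d - b * c = 1 := gamma0_det γ
  push_cast at hc1
  have hu : ((gammaMat γ 0 0 : ℤ) : ZMod q) * (gammaMat γ 1 1 : ℤ) = 1 :=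
    (dHom (prime_dvd_level_one q M) γ).inv_mul
  refine ⟨(k * a + c1) * (a : ZMod q), ?_⟩
  set k' := (k * (a : ZMod q) + c1) * (a : ZMod q) with hk'
  have hdvd : ((q ^ 2 * M : ℕ) : ℤ) ∣ k.val * (q * M) * a + c -
      k'.val * (q * M) * (k.val * (q * M) * b + d) := by
    obtain ⟨t, ht⟩ : (q : ℤ) ∣ k.val * a + c1 - k'.val * d := by
      rw [← ZMod.intCast_zmod_eq_zero_iff_dvd]
      push_cast
      rw [ZMod.natCast_zmod_val, ZMod.natCast_zmod_val, hk']
      linear_combination -(k * (a : ZMod q) + c1) * hu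
    exact ⟨t - k'.val * k.val * M * b, by
      push_cast; linear_combination ((q : ℤ) * M) * ht + hc1⟩
  refine ⟨mkGamma0 _ (a - b * (k'.val * (q * M))) b _ (k.val * (q * M) * b + d)
    (by linear_combination hdet) hdvd, ?_, ?_⟩
  · have e : gammaMat γ = !![a, b; c, d] := Matrix.eta_fin_two _
    rw [e, gammaMat_mkGamma0, coresMat, coresMat]
    ext i l
    fin_cases i <;> fin_cases l <;> simp [Matrix.mul_apply, Fin.sum_univ_two] <;> ring
  · show (1 : A) * (ε (dHom _ _) : A) = (ε (dHom _ γ) : A) * 1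
    rw [dHom_congr (dvd_level_two q M) (dvd_level_one q M) (δ := γ) (by simp [← hd]), one_mul,
      mul_one]

/-- The corestriction from level `q²M` to level `qM`. -/
def coresFamily [NeZero M] :
    MixedFamily (tgtChar ε (dvd_level_two q M)) (tgtChar ε (dvd_level_one q M)) (ZMod q) :=
  MixedFamily.ofSep (coresMat q M) (fun _ => 1) (isSepFamily_coresMat M) (cores_step M ε)

end Families

theorem sum_fibre_eq_zero_of_scale {ι κ : Type*} [Fintype ι] [DecidableEq κ] [IsDomain A]
    (σ : Equiv.Perm ι) (e : ι → κ) (he : ∀ x, e (σ x) = e x) (f : ι → A) (k : κ) {a : A}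
    (ha : a ≠ 1) (hf : ∀ x, e x = k → f (σ x) = a * f x) :
    ∑ x ∈ Finset.univ.filter (fun x => e x = k), f x = 0 := by
  have h : ∑ x ∈ Finset.univ.filter (fun x => e x = k), f x =
      a * ∑ x ∈ Finset.univ.filter (fun x => e x = k), f x := by
    rw [Finset.mul_sum]
    refine (Finset.sum_equiv σ (fun x => ?_) fun x hx => ?_).symm
    · simp [he]
    · rw [hf x (Finset.mem_filter.1 hx).2]
  have h' : (a - 1) * ∑ x ∈ Finset.univ.filter (fun x => e x = k), f x = 0 := by
    linear_combination -h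
  exact (mul_eq_zero.1 h').resolve_left (sub_ne_zero.2 ha)

section Classes

variable [Fact q.Prime] (M)

/-- The class in `Γ₀(qM) \ Γ₀(M)` of `(1 b; sM 1 + sMb)`. -/
def borelClass (s b : ZMod q) : Option (ZMod q) :=
  if 1 + s * M * b = 0 then none else some (s / (1 + s * M * b))

/-- The representative `(s, b)` of a class. -/
def classRep : Option (ZMod q) → ℤ × ℤ
  | none => (1, ((-(M : ZMod q)⁻¹).val : ℤ))
  | some r => ((r.val : ℤ), 0)

/-- The lower right entry modulo `q` of the matrix relating `(s, b)` to its class. -/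
def borelScale (s b : ZMod q) : ZMod q := if 1 + s * M * b = 0 then s else 1 + s * M * b

/-- `q (1 b; sM 1 + sMb)`. -/
def classMat (q M : ℕ) (s b : ℤ) : IntMat :=
  !![(q : ℤ), q * b; q * (s * M), q * (1 + s * M * b)]

variable {M}

theorem borelClass_spec (hM : (M : ZMod q) ≠ 0) (s b : ZMod q) :
    s - ((classRep M (borelClass M s b)).1 : ZMod q) +
        s * ((classRep M (borelClass M s b)).1 : ZMod q) * M *
          (((classRep M (borelClass M s b)).2 : ZMod q) - b) = 0 ∧
      1 + s * M * (b - ((classRep M (borelClass M s b)).2 : ZMod q)) = borelScale M s b := by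
  unfold borelClass borelScale
  split_ifs with h
  · simp only [classRep, Int.cast_natCast, ZMod.natCast_zmod_val, Int.cast_one]
    constructor
    · field_simp
      linear_combination -h
    · field_simp
      linear_combination h
  · simp only [classRep, Int.cast_natCast, ZMod.natCast_zmod_val, Int.cast_zero]
    refine ⟨?_, by simp⟩
    have hu := div_mul_cancel₀ s h
    linear_combination -hu

variable (M)

theorem classMat_collapse {s b s' b' : ℤ}
    (hdvd : ((q * M : ℕ) : ℤ) ∣ M * (s - s' + s * s' * M * (b' - b))) :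
    classMat q M s b = gammaMat (mkGamma0 (q * M) (1 + s' * M * (b' - b)) (b - b')
      (M * (s - s' + s * s' * M * (b' - b))) (1 + s * M * (b - b')) (by ring) hdvd) *
        classMat q M s' b' := by
  rw [gammaMat_mkGamma0]
  ext i j
  fin_cases i <;> fin_cases j <;>
    simp [classMat, Matrix.mul_apply, Fin.sum_univ_two] <;> ring

theorem isSepFamily_classMat [NeZero M] (hM : (M : ZMod q) ≠ 0) :
    IsSepFamily (Gamma0 (q * M))
      (fun k => classMat q M (classRep M k).1 (classRep (q := q) M k).2) := by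
  refine ⟨fun k => ?_, fun k k' g h => ?_⟩
  · have hq := intCast_q_ne_zero (q := q)
    have : (classMat q M (classRep M k).1 (classRep (q := q) M k).2).det = q * q := by
      simp [classMat, Matrix.det_fin_two_of]; ring
    rw [this]; exact mul_ne_zero hq hq
  · set s := (classRep (q := q) M k).1
    set b := (classRep (q := q) M k).2
    set s' := (classRep (q := q) M k').1 with hs'
    set b' := (classRep (q := q) M k').2 with hb'
    have h10 := congrFun (congrFun h 1) 0
    have h11 := congrFun (congrFun h 1) 1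
    simp [classMat, Matrix.mul_apply, Fin.sum_univ_two] at h10 h11
    obtain ⟨t, ht⟩ := gamma0_dvd g
    push_cast at ht
    have hq := intCast_q_ne_zero (q := q)
    have hM0 : (M : ℤ) ≠ 0 := Int.natCast_ne_zero.2 (NeZero.ne M)
    have key : s - s' + s * s' * M * (b' - b) = q * t := by
      apply mul_left_cancel₀ (mul_ne_zero hq hM0)
      linear_combination (1 + s' * M * b') * h10 - s' * M * h11 + (q : ℤ) * ht
    have hz : (s : ZMod q) - s' + s * s' * M * (b' - b) = 0 := by
      have := congrArg (fun x : ℤ => (x : ZMod q)) key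
      simpa using this
    have hb0 : ((-(M : ZMod q)⁻¹).val : ZMod q) = -(M : ZMod q)⁻¹ := ZMod.natCast_zmod_val _
    cases k with
    | none =>
      cases k' with
      | none => rfl
      | some r' =>
        exfalso
        simp [s, b, hs', hb', classRep, hb0] at hz
        field_simp at hz
        first
          | exact one_ne_zero (α := ZMod q) (by linear_combination hz)
          | exact one_ne_zero (α := ZMod q) (by linear_combination -hz)
    | some r =>
      cases k' with
      | none =>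
        exfalso
        simp [s, b, hs', hb', classRep, hb0] at hz
        field_simp at hz
        first
          | exact one_ne_zero (α := ZMod q) (by linear_combination hz)
          | exact one_ne_zero (α := ZMod q) (by linear_combination -hz)
      | some r' =>
        simp [s, b, hs', hb', classRep] at hz
        rw [sub_eq_zero] at hz
        rw [hz]

end Classes

section Main

variable [Fact q.Prime] [NeZero M] [IsDomain A] (ε : (ZMod M)ˣ →* Aˣ) (θ : (ZMod q)ˣ →* Aˣ)

/-- The relevant element of `Γ₀(qM)` between `(s, b)` and its class. -/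
def classShift (hM : (M : ZMod q) ≠ 0) (s b : ℤ) : Gamma0 (q * M) :=
  mkGamma0 (q * M)
    (1 + (classRep M (borelClass (q := q) M s b)).1 * M *
      ((classRep M (borelClass (q := q) M s b)).2 - b))
    (b - (classRep M (borelClass (q := q) M s b)).2)
    (M * (s - (classRep M (borelClass (q := q) M s b)).1 + s *
      (classRep M (borelClass (q := q) M s b)).1 * M *
        ((classRep M (borelClass (q := q) M s b)).2 - b)))
    (1 + s * M * (b - (classRep M (borelClass (q := q) M s b)).2)) (by ring) (by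
      rw [Nat.cast_mul, mul_comm (q : ℤ)]
      refine mul_dvd_mul_left _ ?_
      rw [← ZMod.intCast_zmod_eq_zero_iff_dvd]
      push_cast
      exact (borelClass_spec hM (s : ZMod q) (b : ZMod q)).1)

omit [IsDomain A] in
theorem srcChar_classShift (hM : (M : ZMod q) ≠ 0) (s b : ℤ) :
    (srcChar ε θ (dvd_level_one q M) (prime_dvd_level_one q M) (classShift hM s b) : A) =
      MulChar.ofUnitHom θ (borelScale M (s : ZMod q) (b : ZMod q)) ^ 2 := by
  rw [srcChar_apply]
  have h1 : dHom (dvd_level_one q M) (classShift hM s b) = 1 := Units.ext (by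
    simp [classShift])
  have h2 : ((dHom (prime_dvd_level_one q M) (classShift hM s b) : (ZMod q)ˣ) : ZMod q) =
      borelScale M (s : ZMod q) (b : ZMod q) := by
    rw [← (borelClass_spec hM (s : ZMod q) (b : ZMod q)).2]
    simp [classShift]
  rw [h1, map_one, one_mul, Units.val_pow_eq_pow_val, ← h2, MulChar.ofUnitHom_coe]

omit [IsDomain A] in
theorem borelClass_scale (hM : (M : ZMod q) ≠ 0) (t : (ZMod q)ˣ) (s b : ZMod q) :
    borelClass M ((t : ZMod q) * s) (b + ((t : ZMod q) - 1) * ((t : ZMod q) * M * s)⁻¹) = borelClass M s b ∧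
      (s ≠ 0 → borelScale M ((t : ZMod q) * s) (b + ((t : ZMod q) - 1) * ((t : ZMod q) * M * s)⁻¹) =
        (t : ZMod q) * borelScale M s b) := by
  rcases eq_or_ne s 0 with rfl | hs
  · simp [borelClass]
  · have ht := t.ne_zero
    have key : 1 + (t : ZMod q) * s * M * (b + ((t : ZMod q) - 1) * ((t : ZMod q) * M * s)⁻¹) =
        t * (1 + s * M * b) := by
      field_simp
      ring
    constructor
    · unfold borelClass
      rw [key]
      by_cases h : 1 + s * (M : ZMod q) * b = 0
      · simp [h]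
      · rw [if_neg (mul_ne_zero ht h), if_neg h, mul_div_mul_left _ _ ht]
    · intro _
      unfold borelScale
      rw [key]
      by_cases h : 1 + s * (M : ZMod q) * b = 0
      · simp [h]
      · rw [if_neg (mul_ne_zero ht h), if_neg h]

/-- Scaling `(i, b)`. -/
def scalePerm₂ (hM : (M : ZMod q) ≠ 0) (t : (ZMod q)ˣ) : Equiv.Perm ((ZMod q)ˣ × ZMod q) where
  toFun x := (t * x.1, x.2 + ((t : ZMod q) - 1) * ((t : ZMod q) * M * (x.1 : ZMod q))⁻¹)
  invFun x := (t⁻¹ * x.1,
    x.2 - ((t : ZMod q) - 1) * ((t : ZMod q) * M * ((t⁻¹ * x.1 : (ZMod q)ˣ) : ZMod q))⁻¹)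
  left_inv x := by simp only [inv_mul_cancel_left, add_sub_cancel_right]
  right_inv x := by simp only [mul_inv_cancel_left, sub_add_cancel]

/-- Scaling `(i, k, b)`. -/
def scalePerm₃ (hM : (M : ZMod q) ≠ 0) (t : (ZMod q)ˣ) :
    Equiv.Perm (((ZMod q)ˣ × (ZMod q)ˣ) × ZMod q) where
  toFun x := ((t * x.1.1, t * x.1.2),
    x.2 + ((t : ZMod q) - 1) * ((t : ZMod q) * M * ((x.1.1 : ZMod q) + x.1.2))⁻¹)
  invFun x := ((t⁻¹ * x.1.1, t⁻¹ * x.1.2), x.2 - ((t : ZMod q) - 1) *
    ((t : ZMod q) * M * (((t⁻¹ * x.1.1 : (ZMod q)ˣ) : ZMod q) + (t⁻¹ * x.1.2 : (ZMod q)ˣ)))⁻¹)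
  left_inv x := by simp only [inv_mul_cancel_left, add_sub_cancel_right]
  right_inv x := by simp only [mul_inv_cancel_left, sub_add_cancel]

/-- The composite `trace ∘ back` from level `q²M`. -/
def iotaInv : twistedH1 (tgtChar ε (dvd_level_two q M)) →ₗ[A]
    twistedH1 (srcChar ε θ (dvd_level_one q M) (prime_dvd_level_one q M)) :=
  (traceTwistFamily M ε θ).opH1 ∘ₗ (backFamily M ε θ).opH1

/-- `ι` has a left inverse up to the scalar `q (q - 1) θ(-1)`. -/
theorem iotaInv_comp_iota (hM : ¬ q ∣ M) (hθ : θ ^ 2 ≠ 1) :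
    iotaInv ε θ ∘ₗ iota M ε θ = ((q * (q - 1) : ℕ) * (θ (-1) : A)) • LinearMap.id := by
  have hM' : (M : ZMod q) ≠ 0 := fun h => hM ((ZMod.natCast_eq_zero_iff _ _).1 h)
  rw [iotaInv, iota, LinearMap.comp_assoc, MixedFamily.opH1_comp, MixedFamily.opH1_comp]
  set Θ := MulChar.ofUnitHom θ
  let e : ((ZMod q)ˣ × (ZMod q)ˣ) × ZMod q → Option (ZMod q) :=
    fun x => borelClass M ((x.1.1 : ZMod q) + x.1.2) x.2
  have hcast : ∀ x : ((ZMod q)ˣ × (ZMod q)ˣ) × ZMod q,
      ((unitRep x.1.1 + unitRep x.1.2 : ℤ) : ZMod q) = (x.1.1 : ZMod q) + x.1.2 ∧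
      (((x.2.val : ℕ) : ℤ) : ZMod q) = x.2 := fun x => by
    constructor
    · push_cast [unitRep_cast]; rfl
    · simp
  refine MixedFamily.opH1_eq_smul_of_collapse _ (P := fun k => classMat q M (classRep M k).1
    (classRep (q := q) M k).2) (isSepFamily_classMat M hM') (some 0) ?_ e
    (fun x => classShift hM' (unitRep x.1.1 + unitRep x.1.2) (x.2.val : ℕ)) (fun x => ?_) _
    (fun k => ?_)
  · intro γ
    ext i j
    fin_cases i <;> fin_cases j <;>
      simp [classRep, classMat, Matrix.mul_apply, Fin.sum_univ_two] <;> ring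
  · have := classMat_collapse (q := q) M (s := unitRep x.1.1 + unitRep x.1.2) (b := (x.2.val : ℕ))
      (s' := (classRep M (e x)).1) (b' := (classRep M (e x)).2) (by
        rw [Nat.cast_mul, mul_comm (q : ℤ)]
        refine mul_dvd_mul_left _ ?_
        rw [← ZMod.intCast_zmod_eq_zero_iff_dvd]
        have h := (borelClass_spec hM' ((x.1.1 : ZMod q) + x.1.2) x.2).1
        push_cast [unitRep_cast, ZMod.natCast_zmod_val]
        exact h)
    simp only [classShift, (hcast x).1, (hcast x).2]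
    rw [← this]
    ext i j
    fin_cases i <;> fin_cases j <;>
      simp [iotaFamily, backFamily, traceTwistFamily, iotaMat, traceMat, classMat,
        Matrix.mul_apply, Fin.sum_univ_two] <;> ring
  · have hval : ∀ x : ((ZMod q)ˣ × (ZMod q)ˣ) × ZMod q,
        (((iotaFamily M ε θ unitRep unitRep_cast).comp (backFamily M ε θ)).comp
          (traceTwistFamily M ε θ)).wt x *
        (srcChar ε θ (dvd_level_one q M) (prime_dvd_level_one q M)
          (classShift hM' (unitRep x.1.1 + unitRep x.1.2) (x.2.val : ℕ)) : A) =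
        (((θ x.1.1)⁻¹ : Aˣ) : A) * (θ x.1.2 : A) *
          Θ (borelScale M ((x.1.1 : ZMod q) + x.1.2) x.2) ^ 2 := fun x => by
      rw [srcChar_classShift, (hcast x).1, (hcast x).2]
      simp [iotaFamily, backFamily, traceTwistFamily, Θ]
    simp only [hval]
    by_cases hk : k = some 0
    · subst hk
      rw [if_pos rfl]
      have hzero : ∀ x, e x = some 0 ↔ (x.1.2 : ZMod q) = -(x.1.1 : ZMod q) := fun x => by
        simp only [e, borelClass]
        constructor
        · intro h
          split_ifs at h with h'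
          simp [h'] at h
          linear_combination h
        · intro h; simp [h]
      rw [Finset.sum_congr rfl (g := fun _ => (θ (-1) : A)) fun x hx => ?_, Finset.sum_const,
        nsmul_eq_mul]
      · congr 1
        refine congrArg Nat.cast ?_
        rw [show Finset.univ.filter (fun x => e x = some 0) = Finset.univ.map
          ⟨fun y : (ZMod q)ˣ × ZMod q => ((y.1, -y.1), y.2), fun y z h =>
            Prod.ext (congrArg (fun w => w.1.1) h) (congrArg Prod.snd h :)⟩ from ?_]
        · rw [Finset.card_map, Finset.card_univ, Fintype.card_prod, Fintype.card_units, ZMod.card,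
            mul_comm]
        · ext x
          simp only [Finset.mem_filter, Finset.mem_univ, true_and, hzero, Finset.mem_map,
            Function.Embedding.coeFn_mk]
          constructor
          · intro h
            refine ⟨(x.1.1, x.2), ?_⟩
            exact Prod.ext (Prod.ext rfl (Units.ext ((Units.val_neg x.1.1).trans h.symm))) rfl
          · rintro ⟨y, rfl⟩
            show ((-y.1 : (ZMod q)ˣ) : ZMod q) = -(y.1 : ZMod q)
            exact Units.val_neg _
      · have h := (hzero x).1 (Finset.mem_filter.1 hx).2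
        have h' : x.1.2 = -1 * x.1.1 := Units.ext (by simp [h])
        rw [h, add_neg_cancel, h', map_mul, Units.val_mul]
        simp [borelScale, mul_comm]
        rw [mul_comm (θ x.1.1 : A), mul_assoc, Units.mul_inv, mul_one]
    · rw [if_neg hk]
      obtain ⟨t, ht⟩ : ∃ t, θ t ^ 2 ≠ 1 := by
        by_contra h; push_neg at h; exact hθ (MonoidHom.ext fun t => h t)
      refine sum_fibre_eq_zero_of_scale (scalePerm₃ hM' t) e (fun x => ?_) _ k
        (a := (θ t : A) ^ 2) (fun h => ht (Units.ext (by simpa using h))) (fun x hx => ?_)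
      · simp only [e, scalePerm₃, Equiv.coe_fn_mk, Units.val_mul, ← mul_add]
        exact (borelClass_scale hM' t _ _).1
      · have hs : (x.1.1 : ZMod q) + x.1.2 ≠ 0 := fun h => hk (by
          rw [← hx]; simp [e, borelClass, h])
        simp only [scalePerm₃, Equiv.coe_fn_mk, Units.val_mul, ← mul_add]
        rw [(borelClass_scale hM' t _ _).2 hs]
        simp only [Θ, map_mul, mul_inv, Units.val_mul, MulChar.ofUnitHom_coe]
        have : (((θ t)⁻¹ : Aˣ) : A) * (θ t : A) = 1 := (θ t).inv_mul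
        linear_combination ((θ t : A) ^ 2 * (((θ x.1.1)⁻¹ : Aˣ) : A) * (θ x.1.2 : A) *
          Θ (borelScale M ((x.1.1 : ZMod q) + x.1.2) x.2) ^ 2) * this

/-- `ι` is injective up to torsion. -/
theorem iota_eq_zero (hM : ¬ q ∣ M) (hθ : θ ^ 2 ≠ 1)
    {y : twistedH1 (srcChar ε θ (dvd_level_one q M) (prime_dvd_level_one q M))}
    (hy : iota M ε θ y = 0) : ((q * (q - 1) : ℕ) : A) • y = 0 := by
  have h := LinearMap.congr_fun (iotaInv_comp_iota ε θ hM hθ) y
  rw [LinearMap.comp_apply, hy, map_zero, LinearMap.smul_apply, LinearMap.id_apply, mul_smul] at h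
  have h2 := congrArg (fun z => (((θ (-1))⁻¹ : Aˣ) : A) • z) h
  simp only [smul_zero, smul_smul] at h2
  rw [mul_left_comm, (θ (-1)).inv_mul, mul_one] at h2
  exact h2.symm

/-- The corestriction kills the image of `ι`. -/
theorem coresFamily_comp_iota (hθ : θ ≠ 1) :
    (coresFamily M ε).opH1 ∘ₗ iota M ε θ = 0 := by
  rw [iota, MixedFamily.opH1_comp]
  let e : (ZMod q)ˣ × ZMod q → ZMod q := fun x => (x.1 : ZMod q) + x.2
  have hdvd : ∀ x : (ZMod q)ˣ × ZMod q,
      ((q * M : ℕ) : ℤ) ∣ M * (unitRep x.1 + x.2.val - ((e x).val : ℤ)) := fun x => by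
    rw [Nat.cast_mul, mul_comm (q : ℤ)]
    refine mul_dvd_mul_left _ ?_
    rw [← ZMod.intCast_zmod_eq_zero_iff_dvd]
    simp [e, unitRep_cast]
  refine MixedFamily.opH1_eq_zero_of_collapse _
    (isSepFamily_iotaMat M (fun k : ZMod q => (k.val : ℤ)) (fun k l h => by simpa using h)) e
    (fun x => mkGamma0 _ 1 0 _ 1 (by ring) (hdvd x)) (fun x => ?_) (fun k => ?_)
  · rw [gammaMat_mkGamma0]
    ext i j
    fin_cases i <;> fin_cases j <;>
      simp [iotaFamily, coresFamily, iotaMat, coresMat, Matrix.mul_apply, Fin.sum_univ_two] <;>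
      ring
  · have hval : ∀ x : (ZMod q)ˣ × ZMod q,
        ((iotaFamily M ε θ unitRep unitRep_cast).comp (coresFamily M ε)).wt x *
        (srcChar ε θ (dvd_level_one q M) (prime_dvd_level_one q M)
          (mkGamma0 _ 1 0 _ 1 (by ring) (hdvd x)) : A) = (((θ x.1)⁻¹ : Aˣ) : A) := fun x => by
      rw [srcChar_apply]
      have h1 : dHom (dvd_level_one q M) (mkGamma0 (q * M) 1 0 _ 1 (by ring) (hdvd x)) = 1 :=
        Units.ext (by simp)
      have h2 : dHom (prime_dvd_level_one q M) (mkGamma0 (q * M) 1 0 _ 1 (by ring) (hdvd x))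
          = 1 := Units.ext (by simp)
      rw [h1, h2]
      simp [iotaFamily, coresFamily]
    simp only [hval]
    obtain ⟨t, ht⟩ : ∃ t, θ t ≠ 1 := by
      by_contra h; push_neg at h; exact hθ (MonoidHom.ext fun t => h t)
    refine sum_fibre_eq_zero_of_scale
      { toFun := fun x => (t * x.1, x.2 + (1 - (t : ZMod q)) * x.1)
        invFun := fun x => (t⁻¹ * x.1, x.2 - (1 - (t : ZMod q)) * (t⁻¹ * x.1 : (ZMod q)ˣ))
        left_inv := fun x => by simp only [inv_mul_cancel_left, add_sub_cancel_right]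
        right_inv := fun x => by simp only [mul_inv_cancel_left, sub_add_cancel] } e (fun x => ?_) _ k (a := (((θ t)⁻¹ : Aˣ) : A))
      (fun h => ht (inv_eq_one.1 (Units.ext h))) (fun x _ => ?_)
    · simp only [e, Equiv.coe_fn_mk, Units.val_mul]; ring
    · simp only [Equiv.coe_fn_mk, map_mul, mul_inv, Units.val_mul]

/-- The other trace kills the image of `ι`. -/
theorem traceFamily_comp_iota (hM : ¬ q ∣ M) (hθ : θ ≠ 1) :
    (traceFamily M ε).opH1 ∘ₗ iota M ε θ = 0 := by
  have hM' : (M : ZMod q) ≠ 0 := fun h => hM ((ZMod.natCast_eq_zero_iff _ _).1 h)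
  rw [iota, MixedFamily.opH1_comp]
  set Θ := MulChar.ofUnitHom θ
  let e : (ZMod q)ˣ × ZMod q → Option (ZMod q) := fun x => borelClass M (x.1 : ZMod q) x.2
  refine MixedFamily.opH1_eq_zero_of_collapse _ (isSepFamily_classMat M hM') e
    (fun x => classShift hM' (unitRep x.1) (x.2.val : ℕ)) (fun x => ?_) (fun k => ?_)
  · have := classMat_collapse (q := q) M (s := unitRep x.1) (b := (x.2.val : ℕ))
      (s' := (classRep M (e x)).1) (b' := (classRep M (e x)).2) (by
        rw [Nat.cast_mul, mul_comm (q : ℤ)]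
        refine mul_dvd_mul_left _ ?_
        rw [← ZMod.intCast_zmod_eq_zero_iff_dvd]
        have h := (borelClass_spec hM' (x.1 : ZMod q) x.2).1
        push_cast [unitRep_cast, ZMod.natCast_zmod_val]
        exact h)
    simp only [classShift, unitRep_cast, Int.cast_natCast, ZMod.natCast_zmod_val]
    rw [← this]
    ext i j
    fin_cases i <;> fin_cases j <;>
      simp [iotaFamily, traceFamily, iotaMat, traceMat, classMat,
        Matrix.mul_apply, Fin.sum_univ_two] <;> ring
  · have hval : ∀ x : (ZMod q)ˣ × ZMod q,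
        ((iotaFamily M ε θ unitRep unitRep_cast).comp (traceFamily M ε)).wt x *
        (srcChar ε θ (dvd_level_one q M) (prime_dvd_level_one q M)
          (classShift hM' (unitRep x.1) (x.2.val : ℕ)) : A) =
        (((θ x.1)⁻¹ : Aˣ) : A) * Θ (borelScale M (x.1 : ZMod q) x.2) ^ 2 := fun x => by
      rw [srcChar_classShift]
      simp [iotaFamily, traceFamily, Θ, unitRep_cast]
    simp only [hval]
    obtain ⟨t, ht⟩ : ∃ t, θ t ≠ 1 := by
      by_contra h; push_neg at h; exact hθ (MonoidHom.ext fun t => h t)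
    refine sum_fibre_eq_zero_of_scale (scalePerm₂ hM' t) e (fun x => ?_) _ k
      (a := (θ t : A)) (fun h => ht (Units.ext h)) (fun x _ => ?_)
    · simp only [e, scalePerm₂, Equiv.coe_fn_mk, Units.val_mul]
      exact (borelClass_scale hM' t _ _).1
    · simp only [scalePerm₂, Equiv.coe_fn_mk, Units.val_mul]
      rw [(borelClass_scale hM' t _ _).2 x.1.ne_zero]
      simp only [Θ, map_mul, mul_inv, Units.val_mul, MulChar.ofUnitHom_coe]
      have : (((θ t)⁻¹ : Aˣ) : A) * (θ t : A) = 1 := (θ t).inv_mul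
      linear_combination ((θ t : A) * (((θ x.1)⁻¹ : Aˣ) : A) *
        Θ (borelScale M (x.1 : ZMod q) x.2) ^ 2) * this

end Main

end Fermat.Agent.RT.Systems

end
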