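import Fermat.Agent.RT.Systems.Iota
import Fermat.Agent.RT.TW.Gamma0
import Fermat.Agent.RT.TW.MixedConvert
import Mathlib.Data.ZMod.Units

/-!
# `ι` and the Hecke operators

For triangular families `ι ∘ F = s • (E ∘ ι)`; in particular for `p ≠ q` and characters with
`Φ(d) = Ψ(d) θ(d)²` we get `ι ∘ T_p = θ(p) • (T_p ∘ ι)`, and the same for `U_p`.
-/

set_option autoImplicit false

noncomputable section

namespace Fermat.Agent.RT.Systems

open scoped MatrixGroups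
open Fermat.Agent.Periods Fermat.Agent.RT.TW CongruenceSubgroup

variable {A : Type*} [CommRing A] {q M : ℕ} [Fact q.Prime] [NeZero M]

theorem iota_comm_of_triangular (ε : (ZMod M)ˣ →* Aˣ) (θ : (ZMod q)ˣ →* Aˣ)
    {κ : Type*} [Fintype κ] [DecidableEq κ] (a b d : κ → ℤ) (n : ℤ)
    (hn : (n : ZMod q) ≠ 0) (had : ∀ k, a k * d k = n)
    (F : MixedFamily (srcChar ε θ (dvd_level_one q M) (prime_dvd_level_one q M))
      (srcChar ε θ (dvd_level_one q M) (prime_dvd_level_one q M)) κ)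
    (E : MixedFamily (tgtChar ε (dvd_level_two q M)) (tgtChar ε (dvd_level_two q M)) κ)
    (hF : ∀ k, F.mat k = !![a k, q * b k; 0, d k])
    (hE : ∀ k, E.mat k = !![a k, b k; 0, d k])
    (hsep : ∀ k k' (g : Gamma0 M), F.mat k = gammaMat g * F.mat k' → k = k') (s : A)
    (hw : ∀ k (ua ud : (ZMod q)ˣ), (ua : ZMod q) = a k → (ud : ZMod q) = d k →
      F.wt k * (((θ ua)⁻¹ : Aˣ) : A) * (θ ud : A) = s * E.wt k) :
    iota M ε θ ∘ₗ F.opH1 = s • (E.opH1 ∘ₗ iota M ε θ) := by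
  set r : (ZMod q)ˣ → ℤ := fun i => n * (((i : ZMod q) * (n : ZMod q)⁻¹).val : ℤ) with hrdef
  set t : (ZMod q)ˣ → ℤ := fun i => (((i : ZMod q) * (n : ZMod q)⁻¹).val : ℤ) with htdef
  have hr : ∀ i, (r i : ZMod q) = i := fun i => by
    simp only [hrdef, Int.cast_mul, Int.cast_natCast, ZMod.natCast_zmod_val]
    field_simp
  have ha : ∀ k, ((a k : ℤ) : ZMod q) ≠ 0 ∧ ((d k : ℤ) : ZMod q) ≠ 0 := fun k => by
    rw [← had k, Int.cast_mul] at hn; exact mul_ne_zero_iff.1 hn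
  set ua : κ → (ZMod q)ˣ := fun k => Units.mk0 _ (ha k).1 with hua
  set ud : κ → (ZMod q)ˣ := fun k => Units.mk0 _ (ha k).2 with hud
  rw [← iotaFamily_opH1 M ε θ r hr, MixedFamily.opH1_comp, MixedFamily.opH1_comp,
    ← MixedFamily.opH1_scale]
  symm
  have hq := intCast_q_ne_zero (q := q)
  have hn0 : n ≠ 0 := fun h => hn (by simp [h])
  refine MixedFamily.opH1_eq_of_collapse _ _ ⟨fun x => ?_, fun x y g hxy => ?_⟩
    (fun x => (x.2, x.1 * ua x.2 * (ud x.2)⁻¹))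
    (fun x => mkGamma0 (q * M)
      (1 - q * b x.2 * d x.2 * t (x.1 * ua x.2 * (ud x.2)⁻¹) * M)
      ((q * b x.2) ^ 2 * t (x.1 * ua x.2 * (ud x.2)⁻¹) * M)
      (M * (n * t x.1 - n * t x.1 * M * (q * b x.2) * d x.2 * t (x.1 * ua x.2 * (ud x.2)⁻¹)
        - d x.2 ^ 2 * t (x.1 * ua x.2 * (ud x.2)⁻¹)))
      (1 + d x.2 * (q * b x.2) * t (x.1 * ua x.2 * (ud x.2)⁻¹) * M
        + n * t x.1 * (q * b x.2) ^ 2 * t (x.1 * ua x.2 * (ud x.2)⁻¹) * M ^ 2)
      (by ring) ?_) (fun x => ?_) (fun x => ?_)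
  · show ((F.mat x.1) * iotaMat q M (r x.2)).det ≠ 0
    rw [Matrix.det_mul, det_iotaMat, hF, Matrix.det_fin_two_of, mul_zero, sub_zero, had]
    exact mul_ne_zero hn0 hq
  · obtain ⟨k, i⟩ := x
    obtain ⟨k', i'⟩ := y
    replace hxy : F.mat k * iotaMat q M (r i) = gammaMat g * (F.mat k' * iotaMat q M (r i')) := hxy
    -- move the lower unipotents to the left
    have hG : ∀ k i, ∃ G : Gamma0 M,
        F.mat k * iotaMat q M (r i) = gammaMat G * (F.mat k * !![(q : ℤ), 0; 0, 1]) := by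
      intro k i
      refine ⟨mkGamma0 M (1 + q * b k * t i * d k * M) (-((q * b k) ^ 2 * t i * M))
        (d k ^ 2 * t i * M) (1 - q * b k * d k * t i * M) (by ring) (dvd_mul_left _ _), ?_⟩
      rw [hF, gammaMat_mkGamma0, iotaMat, show r i = a k * d k * t i by rw [had]]
      ext u v
      fin_cases u <;> fin_cases v <;> simp [Matrix.mul_apply, Fin.sum_univ_two] <;> ring
    obtain ⟨G, hG1⟩ := hG k i
    obtain ⟨G', hG2⟩ := hG k' i'
    have hgM : (g : SL(2, ℤ)) ∈ Gamma0 M := mem_gamma0_iff_dvd.2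
      ((Int.natCast_dvd_natCast.2 (dvd_level_one q M)).trans (gamma0_dvd g))
    have hk : k = k' := by
      refine hsep k k' (G⁻¹ * ⟨(g : SL(2, ℤ)), hgM⟩ * G')
        (intMat_mul_right_cancel (M := !![(q : ℤ), 0; 0, 1]) (by simp [(Fact.out : q.Prime).ne_zero]) ?_)
      have e : gammaMat G * (F.mat k * !![(q : ℤ), 0; 0, 1]) =
          gammaMat g * (gammaMat G' * (F.mat k' * !![(q : ℤ), 0; 0, 1])) := by
        rw [← hG1, ← hG2]; exact hxy
      have e' := congrArg (gammaMat G⁻¹ * ·) e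
      simp only [← Matrix.mul_assoc, ← gammaMat_mul, inv_mul_cancel, gammaMat_one,
        Matrix.one_mul] at e'
      rw [gammaMat_mul, gammaMat_mul]
      simpa [Matrix.mul_assoc] using e'
    subst hk
    refine Prod.ext rfl (Units.ext ?_)
    show (i : ZMod q) = i'
    have h10 := congrFun (congrFun hxy 1) 0
    have h11 := congrFun (congrFun hxy 1) 1
    obtain ⟨u, hu⟩ := gamma0_dvd g
    simp [hF, iotaMat, Matrix.mul_apply, Fin.sum_univ_two] at h10 h11
    push_cast at hu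
    have key : d k * (r i - r i') = q * (u * a k) := by
      apply mul_right_cancel₀ (mul_ne_zero hq (Int.natCast_ne_zero.2 (NeZero.ne M)))
      linear_combination h10 - r i' * (q * M) * h11 + (a k * q) * hu
    have := congrArg (fun x : ℤ => (x : ZMod q)) key
    push_cast at this
    rw [ZMod.natCast_self, zero_mul, hr, hr, mul_eq_zero, or_iff_right (ha k).2, sub_eq_zero] at this
    exact this
  · rw [Nat.cast_mul, mul_comm (q : ℤ)]
    refine mul_dvd_mul_left _ ?_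
    rw [← ZMod.intCast_zmod_eq_zero_iff_dvd]
    push_cast
    simp only [htdef, Int.cast_natCast, ZMod.natCast_zmod_val, ZMod.natCast_self, Units.val_mul,
      Units.val_inv_eq_inv_val, hua, hud, Units.val_mk0, ← had x.2, Int.cast_mul]
    have h1 := (ha x.2).1
    have h2 := (ha x.2).2
    field_simp
    ring
  · show iotaMat q M (r x.1) * E.mat x.2 =
      _ * (F.mat x.2 * iotaMat q M (r (x.1 * ua x.2 * (ud x.2)⁻¹)))
    rw [hE, hF, gammaMat_mkGamma0, iotaMat, iotaMat,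
      show r x.1 = a x.2 * d x.2 * t x.1 by rw [had],
      show r (x.1 * ua x.2 * (ud x.2)⁻¹) = a x.2 * d x.2 * t (x.1 * ua x.2 * (ud x.2)⁻¹) by
        rw [had], ← had x.2]
    ext u v
    fin_cases u <;> fin_cases v <;> simp [Matrix.mul_apply, Fin.sum_univ_two] <;> ring
  · rw [show Finset.univ.filter (fun y : (ZMod q)ˣ × κ =>
        (y.2, y.1 * ua y.2 * (ud y.2)⁻¹) = x) = {(x.2 * ud x.1 * (ua x.1)⁻¹, x.1)} by
      ext ⟨i, k⟩
      obtain ⟨k', j⟩ := x
      simp only [Finset.mem_filter, Finset.mem_univ, true_and, Finset.mem_singleton, Prod.mk.injEq]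
      constructor
      · rintro ⟨rfl, rfl⟩; simp
      · rintro ⟨rfl, rfl⟩; simp, Finset.sum_singleton, srcChar_apply]
    have h1 : ∀ {p : ℕ} (hp : p ∣ q * M) (γ : Gamma0 (q * M)),
        ((gammaMat γ 1 1 : ℤ) : ZMod p) = 1 → dHom hp γ = 1 := fun hp γ h => Units.ext h
    rw [h1 (dvd_level_one q M) _ (by simp), h1 (prime_dvd_level_one q M) _ (by simp), map_one,
      map_one, one_pow, one_mul, Units.val_one, mul_one]
    obtain ⟨k, j⟩ := x
    show s * ((((θ (j * ud k * (ua k)⁻¹))⁻¹ : Aˣ) : A) * E.wt k) = F.wt k * (((θ j)⁻¹ : Aˣ) : A)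
    rw [map_mul, map_mul, map_inv, mul_inv, mul_inv, inv_inv, Units.val_mul, Units.val_mul]
    have hk := hw k (ua k) (ud k) rfl rfl
    have hd' : (((θ (ud k))⁻¹ : Aˣ) : A) * (θ (ud k) : A) = 1 := (θ (ud k)).inv_mul
    have ha' : (((θ (ua k))⁻¹ : Aˣ) : A) * (θ (ua k) : A) = 1 := (θ (ua k)).inv_mul
    linear_combination (-((((θ j)⁻¹ : Aˣ) : A) * (((θ (ud k))⁻¹ : Aˣ) : A) * (θ (ua k) : A))) * hk
      + F.wt k * (((θ j)⁻¹ : Aˣ) : A) * (θ (ud k) : A) * (((θ (ud k))⁻¹ : Aˣ) : A) * ha'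
      + F.wt k * (((θ j)⁻¹ : Aˣ) : A) * hd'

/-- The same with renamed characters. -/
theorem iota_comm_of_triangular' (ε : (ZMod M)ˣ →* Aˣ) (θ : (ZMod q)ˣ →* Aˣ)
    {χ₁ : Gamma0 (q * M) →* Aˣ} {χ₂ : Gamma0 (q ^ 2 * M) →* Aˣ}
    (h₁ : χ₁ = srcChar ε θ (dvd_level_one q M) (prime_dvd_level_one q M))
    (h₂ : χ₂ = tgtChar ε (dvd_level_two q M))
    {κ : Type*} [Fintype κ] [DecidableEq κ] (a b d : κ → ℤ) (n : ℤ)
    (hn : (n : ZMod q) ≠ 0) (had : ∀ k, a k * d k = n)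
    (F : MixedFamily χ₁ χ₁ κ) (E : MixedFamily χ₂ χ₂ κ)
    (hF : ∀ k, F.mat k = !![a k, q * b k; 0, d k])
    (hE : ∀ k, E.mat k = !![a k, b k; 0, d k])
    (hsep : ∀ k k' (g : Gamma0 M), F.mat k = gammaMat g * F.mat k' → k = k') (s : A)
    (hw : ∀ k (ua ud : (ZMod q)ˣ), (ua : ZMod q) = a k → (ud : ZMod q) = d k →
      F.wt k * (((θ ua)⁻¹ : Aˣ) : A) * (θ ud : A) = s * E.wt k) :
    ((iotaFamily M ε θ unitRep unitRep_cast).castChar h₁.symm h₂.symm).opH1 ∘ₗ F.opH1 =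
      s • (E.opH1 ∘ₗ
        ((iotaFamily M ε θ unitRep unitRep_cast).castChar h₁.symm h₂.symm).opH1) := by
  subst h₁ h₂
  exact iota_comm_of_triangular ε θ a b d n hn had F E hF hE hsep s hw

section Level0

variable {A : Type} [CommRing A] (θ : (ZMod q)ˣ →* Aˣ) {N N' : ℕ}
  (Φ : MulChar (ZMod N) A) (Ψ : MulChar (ZMod N') A) (hN : N ∣ q * M) (hN' : N' ∣ M)

/-- The character of `(ℤ/M)ˣ` induced by `Ψ`. -/
def liftUnitChar : (ZMod M)ˣ →* Aˣ := Ψ.toUnitHom.comp (ZMod.unitsMap hN')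

/-- `Φ(d) = Ψ(d) θ(d)²` on integers prime to the level. -/
def IsTwistRelation : Prop :=
  ∀ x : ℤ, ∀ u : (ZMod q)ˣ, (u : ZMod q) = x → IsUnit ((x : ℤ) : ZMod M) →
    Φ (x : ZMod N) = Ψ (x : ZMod N') * (θ u : A) ^ 2

variable {θ Φ Ψ}

omit [Fact q.Prime] [NeZero M] in
@[simp] theorem heckeFamily_mat {L p : ℕ} (h : N ∣ L) (hp : p.Prime) (i : HeckeIdx L p) :
    ((heckeFamily Φ h hp).mat i : IntMat) = heckeMat L p i := rfl

theorem level0_char_apply {L : ℕ} (h : N ∣ L) (γ : Gamma0 L) :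
    ((level0 Φ L h).char γ : A) = Φ ((gammaMat γ 1 1 : ℤ) : ZMod N) := by
  show (gamma0Weighting Φ).ψ ((level0 Φ L h).toS γ⁻¹) = _
  rw [gamma0Weighting_ψ]
  show Φ (((gammaMat γ⁻¹) 0 0 : ℤ) : ZMod N) = _
  rw [show gammaMat γ⁻¹ 0 0 = gammaMat γ 1 1 from entry_inv (γ : SL(2, ℤ))]
where
  entry_inv (g : SL(2, ℤ)) : ((g⁻¹ : SL(2, ℤ)) : Matrix (Fin 2) (Fin 2) ℤ) 0 0 = g 1 1 := by
    simp [Matrix.SpecialLinearGroup.coe_inv, Matrix.adjugate_fin_two]

theorem level0_char_src (hrel : IsTwistRelation (M := M) θ Φ Ψ) :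
    (level0 Φ (q * M) hN).char =
      srcChar (liftUnitChar Ψ hN') θ (dvd_level_one q M) (prime_dvd_level_one q M) := by
  refine MonoidHom.ext fun (γ : Gamma0 (q * M)) => Units.ext ?_
  refine (level0_char_apply hN γ).trans ?_
  show _ = ((liftUnitChar Ψ hN' (dHom (dvd_level_one q M) γ) *
    θ (dHom (prime_dvd_level_one q M) γ) ^ 2 : Aˣ) : A)
  rw [Units.val_mul, Units.val_pow_eq_pow_val,
    hrel _ (dHom (prime_dvd_level_one q M) γ) (by simp) (dHom (dvd_level_one q M) γ).isUnit]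
  congr 1
  show _ = ((Ψ.toUnitHom (ZMod.unitsMap hN' _) : Aˣ) : A)
  rw [MulChar.coe_toUnitHom]
  congr 1
  show _ = ZMod.castHom hN' (ZMod N') ((dHom (dvd_level_one q M) γ : (ZMod M)ˣ) : ZMod M)
  rw [dHom_val, map_intCast]

theorem level0_char_tgt :
    (level0 Ψ (q ^ 2 * M) (hN'.trans (dvd_level_two q M))).char =
      tgtChar (liftUnitChar Ψ hN') (dvd_level_two q M) := by
  refine MonoidHom.ext fun (γ : Gamma0 (q ^ 2 * M)) => Units.ext ?_
  refine (level0_char_apply (hN'.trans (dvd_level_two q M)) γ).trans ?_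
  show _ = ((Ψ.toUnitHom (ZMod.unitsMap hN' _) : Aˣ) : A)
  rw [MulChar.coe_toUnitHom]
  congr 1
  show _ = ZMod.castHom hN' (ZMod N') ((dHom (dvd_level_two q M) γ : (ZMod M)ˣ) : ZMod M)
  rw [dHom_val, map_intCast]

variable (hrel : IsTwistRelation (M := M) θ Φ Ψ)

/-- `ι` between the Hecke modules of team RT. -/
def iota0 : heckeH1 Φ (q * M) hN →ₗ[A] heckeH1 Ψ (q ^ 2 * M) (hN'.trans (dvd_level_two q M)) :=
  ((iotaFamily M (liftUnitChar Ψ hN') θ unitRep unitRep_cast).castChar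
    (level0_char_src hN hN' hrel).symm (level0_char_tgt hN').symm).opH1

/-- The index types agree away from `q`. -/
theorem dvd_level_iff {p : ℕ} (hp : p.Prime) (hpq : p ≠ q) : p ∣ q * M ↔ p ∣ q ^ 2 * M := by
  have h : ¬ p ∣ q := fun h => hpq ((Nat.prime_dvd_prime_iff_eq hp Fact.out).1 h)
  rw [hp.dvd_mul, hp.dvd_mul, or_iff_right h, or_iff_right (fun hh => h (hp.dvd_of_dvd_pow hh))]

theorem iota0_comm_hecke (p : Nat.Primes) (hpq : (p : ℕ) ≠ q) (up : (ZMod q)ˣ)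
    (hup : (up : ZMod q) = ((p : ℕ) : ZMod q)) :
    iota0 hN hN' hrel ∘ₗ heckeOp Φ hN p =
      (θ up : A) • (heckeOp Ψ (hN'.trans (dvd_level_two q M)) p ∘ₗ iota0 hN hN' hrel) := by
  have hp := p.2
  have hpq' : ((q : ℕ) : ZMod (p : ℕ)) ≠ 0 := fun h => hpq
    ((Nat.prime_dvd_prime_iff_eq hp Fact.out).1 ((ZMod.natCast_eq_zero_iff _ _).1 h))
  haveI : Fact (p : ℕ).Prime := ⟨hp⟩
  set HS := (heckeFamily Φ hN hp).toMixed
    ⟨fun i => heckeMat_det_ne_zero hp i, fun i j g h => heckeMat_separated hp i j g h⟩ with hHS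
  set HT := (heckeFamily Ψ (hN'.trans (dvd_level_two q M)) hp).toMixed
    ⟨fun i => heckeMat_det_ne_zero hp i, fun i j g h => heckeMat_separated hp i j g h⟩ with hHT
  -- reindex the source family by `j ↦ q j`
  let σ : Fin (p : ℕ) → Fin (p : ℕ) := fun j => ⟨q * j % p, Nat.mod_lt _ hp.pos⟩
  have hσ : Function.Bijective σ := Finite.injective_iff_bijective.1 fun j j' h => by
    have h' : q * (j : ℕ) % p = q * (j' : ℕ) % p := congrArg Fin.val h
    have := (ZMod.natCast_eq_natCast_iff' _ _ _).2 h'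
    push_cast at this
    have e := mul_left_cancel₀ hpq' this
    exact Fin.ext (by
      have := congrArg ZMod.val e
      rwa [ZMod.val_natCast, ZMod.val_natCast, Nat.mod_eq_of_lt j.2, Nat.mod_eq_of_lt j'.2] at this)
  let e : HeckeIdx (q ^ 2 * M) p ≃ HeckeIdx (q * M) p :=
    Equiv.subtypeEquiv (Equiv.optionCongr (Equiv.ofBijective σ hσ)) fun x => by
      rw [Equiv.optionCongr_apply, Option.map_eq_none_iff, dvd_level_iff hp hpq]
  let δ : HeckeIdx (q ^ 2 * M) p → Gamma0 (q * M) := fun i =>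
    mkGamma0 (q * M) 1 (i.1.elim 0 fun j => (((q * (j : ℕ) / (p : ℕ) : ℕ) : ℤ))) 0 1 (by ring)
      (dvd_zero _)
  have hsepS : IsSepFamily (Gamma0 (q * M)) HS.mat :=
    ⟨fun i => heckeMat_det_ne_zero hp i, fun i j g h => heckeMat_separated hp i j g h⟩
  have key := iota_comm_of_triangular' (liftUnitChar Ψ hN') θ
    (level0_char_src hN hN' hrel) (level0_char_tgt hN')
    (fun i : HeckeIdx (q ^ 2 * M) p => i.1.elim ((p : ℕ) : ℤ) fun _ => 1)
    (fun i => i.1.elim 0 fun j => ((j : ℕ) : ℤ)) (fun i => i.1.elim 1 fun _ => ((p : ℕ) : ℤ))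
    ((p : ℕ) : ℤ)
    (by rw [Int.cast_natCast, ← hup]; exact up.ne_zero)
    (fun i => by obtain ⟨_ | j, h⟩ := i <;> simp)
    (HS.reindex e δ) HT
    ?_ ?_ ?_ (θ up : A) ?_
  · show _ ∘ₗ (heckeFamily Φ hN hp).opH1 = (θ up : A) • ((heckeFamily Ψ _ hp).opH1 ∘ₗ _)
    rw [← CosetFamily.toMixed_opH1 (heckeFamily Φ hN hp) hsepS,
      ← CosetFamily.toMixed_opH1 (heckeFamily Ψ (hN'.trans (dvd_level_two q M)) hp)
        ⟨fun i => heckeMat_det_ne_zero hp i, fun i j g h => heckeMat_separated hp i j g h⟩,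
      ← hHS, ← hHT, ← MixedFamily.opH1_reindex HS hsepS e δ]
    exact key
  · intro i
    show gammaMat (δ i) * heckeMat (q * M) p (e i) = _
    obtain ⟨_ | j, hi⟩ := i
    · simp [δ, e, heckeMat, Matrix.one_fin_two]
    · have hd := Nat.mod_add_div (q * (j : ℕ)) p
      ext u v
      fin_cases u <;> fin_cases v <;>
        simp [δ, e, heckeMat, σ, Matrix.mul_apply, Fin.sum_univ_two, -Int.natCast_mod,
          -Int.natCast_ediv]
      exact_mod_cast (by rw [mul_comm (q * (j : ℕ) / (p : ℕ))]; exact hd :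
        q * (j : ℕ) % (p : ℕ) + q * (j : ℕ) / (p : ℕ) * (p : ℕ) = q * j)
  · intro i
    show heckeMat (q ^ 2 * M) p i = _
    obtain ⟨_ | j, hi⟩ := i <;> simp [heckeMat]
  · intro k k' g h
    replace h : gammaMat (δ k) * heckeMat (q * M) p (e k) =
        gammaMat g * (gammaMat (δ k') * heckeMat (q * M) p (e k')) := h
    refine e.injective ?_
    -- the representatives are distinct already modulo `Γ₀(M)`
    have hle : Gamma0 (q * M) ≤ Gamma0 M := fun x hx => mem_gamma0_iff_dvd.2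
      ((Int.natCast_dvd_natCast.2 (dvd_level_one q M)).trans (mem_gamma0_iff_dvd.1 hx))
    set D := Subgroup.inclusion hle
    let i1 : HeckeIdx M p := ⟨(e k).1, fun hh hd => (e k).2 hh (hd.trans (dvd_level_one q M))⟩
    let i2 : HeckeIdx M p := ⟨(e k').1, fun hh hd => (e k').2 hh (hd.trans (dvd_level_one q M))⟩
    replace h : gammaMat (D (δ k)) * heckeMat M p i1 =
        gammaMat g * (gammaMat (D (δ k')) * heckeMat M p i2) := h
    have h12 : i1 = i2 := heckeMat_separated hp i1 i2 ((D (δ k))⁻¹ * g * D (δ k')) (by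
      have e' := congrArg (gammaMat (D (δ k))⁻¹ * ·) h
      simp only [← Matrix.mul_assoc, ← gammaMat_mul, inv_mul_cancel, gammaMat_one,
        Matrix.one_mul] at e'
      rw [mul_assoc]; exact e')
    exact Subtype.ext (congrArg Subtype.val h12 :)
  · rintro ⟨_ | j, hi⟩ ua ud hua hud
    · show Φ ((heckeMat (q * M) p (e ⟨none, hi⟩) 0 0 : ℤ) : ZMod N) *
          ((((level0 Φ (q * M) hN).char (δ ⟨none, hi⟩))⁻¹ : Aˣ) : A) * (((θ ua)⁻¹ : Aˣ) : A) *
            (θ ud : A) = (θ up : A) * Ψ ((heckeMat (q ^ 2 * M) p ⟨none, hi⟩ 0 0 : ℤ) : ZMod N')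
      have h1 : (level0 Φ (q * M) hN).char (δ ⟨none, hi⟩) = 1 := Units.ext (by
        refine (level0_char_apply hN (δ ⟨none, hi⟩)).trans ?_; simp [δ])
      erw [h1]
      rw [inv_one, Units.val_one, mul_one]
      simp only [Option.elim_none, Int.cast_natCast, Int.cast_one] at hua hud
      obtain rfl : ua = up := Units.ext (hua.trans hup.symm)
      obtain rfl : ud = 1 := Units.ext hud
      have hnp : ¬ (p : ℕ) ∣ q ^ 2 * M := hi rfl
      have hpM : IsUnit (((p : ℕ) : ℤ) : ZMod M) := by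
        rw [Int.cast_natCast]
        exact (ZMod.unitOfCoprime (p : ℕ) (hp.coprime_iff_not_dvd.2
          fun hd => hnp (hd.trans (dvd_level_two q M)))).isUnit
      have hr := hrel ((p : ℕ) : ℤ) ua (by rw [Int.cast_natCast]; exact hup) hpM
      simp [e, heckeMat] at hr ⊢
      rw [hr]
      have hu : (((θ ua)⁻¹ : Aˣ) : A) * (θ ua : A) = 1 := (θ ua).inv_mul
      linear_combination Ψ ((p : ℕ) : ZMod N') * (θ ua : A) * hu
    · show Φ ((heckeMat (q * M) p (e ⟨some j, hi⟩) 0 0 : ℤ) : ZMod N) *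
          ((((level0 Φ (q * M) hN).char (δ ⟨some j, hi⟩))⁻¹ : Aˣ) : A) * (((θ ua)⁻¹ : Aˣ) : A) *
            (θ ud : A) = (θ up : A) * Ψ ((heckeMat (q ^ 2 * M) p ⟨some j, hi⟩ 0 0 : ℤ) : ZMod N')
      have h1 : (level0 Φ (q * M) hN).char (δ ⟨some j, hi⟩) = 1 := Units.ext (by
        refine (level0_char_apply hN (δ ⟨some j, hi⟩)).trans ?_; simp [δ])
      erw [h1]
      rw [inv_one, Units.val_one, mul_one]
      simp only [Option.elim_some, Int.cast_natCast, Int.cast_one] at hua hud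
      obtain rfl : ud = up := Units.ext (hud.trans hup.symm)
      obtain rfl : ua = 1 := Units.ext hua
      simp [e, heckeMat]

end Level0

end Fermat.Agent.RT.Systems

end
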