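import Mathlib.LinearAlgebra.Matrix.Charpoly.Coeff
import Mathlib.LinearAlgebra.Matrix.Charpoly.Basic
import Mathlib.LinearAlgebra.Basis.VectorSpace
import Mathlib.FieldTheory.IsAlgClosed.Basic
import Mathlib.Analysis.Complex.Polynomial.Basic

/-!
# Moving algebraic eigenvalues into `ℂ`

For algebraic integers `c i` in a domain `A` of characteristic zero there is an additive map
`A → ℂ`, nonzero at a given element, turning multiplication by `c i` into multiplication by a
complex number `d i`, and the subring generated by the `d i` maps back to `A`.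
-/

set_option autoImplicit false

noncomputable section

namespace Fermat.Agent.RT.Systems

open Matrix Polynomial

/-- An eigenvalue of an integer matrix on a vector over a domain is integral. -/
theorem exists_monic_root_of_mulVec_eq {n : Type*} [Fintype n] [DecidableEq n] {A : Type*}
    [CommRing A] [IsDomain A] (M : Matrix n n ℤ) {x : n → A} (hx : x ≠ 0) {c : A}
    (h : M.map (Int.castRingHom A) *ᵥ x = c • x) :
    ∃ P : ℤ[X], P.Monic ∧ P.eval₂ (Int.castRingHom A) c = 0 := by
  refine ⟨M.charpoly, M.charpoly_monic, ?_⟩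
  rw [← Polynomial.eval_map, ← Matrix.charpoly_map, Matrix.eval_charpoly,
    ← Matrix.exists_mulVec_eq_zero_iff]
  refine ⟨x, hx, ?_⟩
  rw [Matrix.sub_mulVec, h, sub_eq_zero]
  ext i
  simp [Matrix.scalar, Matrix.mulVec_diagonal]

/-- Algebraic eigenvalues in `A` as complex numbers. -/
theorem exists_transfer {A : Type*} [CommRing A] [IsDomain A] [CharZero A] {ι : Type*} (c : ι → A)
    (hc : ∀ i, ∃ P : ℤ[X], P.Monic ∧ P.eval₂ (Int.castRingHom A) (c i) = 0) {a : A} (ha : a ≠ 0) :
    ∃ (d : ι → ℂ) (lam : A →+ ℂ) (emb : Subring.closure (Set.range d) →+* A),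
      lam a ≠ 0 ∧ (∀ i x, lam (c i * x) = d i * lam x) ∧
      ∀ i, emb ⟨d i, Subring.subset_closure ⟨i, rfl⟩⟩ = c i := by
  classical
  let F := FractionRing A
  let ι₀ : A →+* F := algebraMap A F
  have hι₀ : Function.Injective ι₀ := IsFractionRing.injective A F
  have : CharZero F := charZero_of_injective_ringHom hι₀
  let S : Set F := Set.range fun i => ι₀ (c i)
  let K := IntermediateField.adjoin ℚ S
  have : Algebra.IsAlgebraic ℚ K := by
    refine IntermediateField.isAlgebraic_adjoin ?_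
    rintro _ ⟨i, rfl⟩
    obtain ⟨P, hP, hroot⟩ := hc i
    refine ⟨P.map (Int.castRingHom ℚ), hP.map _, ?_⟩
    have h0 := congrArg ι₀ hroot
    rw [map_zero, Polynomial.hom_eval₂, RingHom.eq_intCast' (ι₀.comp (Int.castRingHom A))] at h0
    rwa [Polynomial.eval₂_map, RingHom.eq_intCast' ((algebraMap ℚ F).comp (Int.castRingHom ℚ))]
  let cK : ι → K := fun i => ⟨ι₀ (c i), IntermediateField.subset_adjoin ℚ S ⟨i, rfl⟩⟩
  have ha' : ι₀ a ≠ 0 := fun h => ha (hι₀ (h.trans (map_zero ι₀).symm))
  obtain ⟨φ, hφ⟩ : ∃ φ : F →ₗ[K] K, φ (ι₀ a) ≠ 0 := by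
    obtain ⟨φ, hφ⟩ := Submodule.exists_le_ker_of_notMem (p := (⊥ : Submodule K F)) (v := ι₀ a)
      (by simpa using ha')
    exact ⟨φ, hφ.1⟩
  let τ : K →ₐ[ℚ] ℂ := IsAlgClosed.lift
  let d : ι → ℂ := fun i => τ (cK i)
  let lam : A →+ ℂ :=
    ((τ : K →+* ℂ).toAddMonoidHom.comp φ.toAddMonoidHom).comp ι₀.toAddMonoidHom
  let B : Subring K := ι₀.range.comap (algebraMap K F)
  have hcl : Subring.closure (Set.range d) ≤ B.map (τ : K →+* ℂ) := by
    refine Subring.closure_le.mpr ?_
    rintro _ ⟨i, rfl⟩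
    exact ⟨cK i, ⟨c i, rfl⟩, rfl⟩
  have hback : ∀ z : Subring.closure (Set.range d), ∃ o : A, ∃ b : K,
      τ b = (z : ℂ) ∧ ι₀ o = algebraMap K F b := fun z => by
    obtain ⟨b, ⟨o, ho⟩, hz⟩ := hcl z.2
    exact ⟨o, b, hz, ho⟩
  choose o b hb ho using hback
  have key : ∀ (z : Subring.closure (Set.range d)) (u : K) (r : A), τ u = (z : ℂ) →
      ι₀ r = algebraMap K F u → o z = r := fun z u r hu hr => hι₀ (by
    rw [ho, hr, τ.toRingHom.injective ((hb z).trans hu.symm)])
  let emb : Subring.closure (Set.range d) →+* A :=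
    { toFun := o
      map_one' := key 1 1 1 (by simp) (by simp)
      map_mul' := fun u v => key _ (b u * b v) _ (by simp [hb]) (by simp [ho])
      map_zero' := key 0 0 0 (by simp) (by simp)
      map_add' := fun u v => key _ (b u + b v) _ (by simp [hb]) (by simp [ho]) }
  refine ⟨d, lam, emb, fun h => hφ (τ.toRingHom.injective (h.trans (map_zero _).symm)),
    fun i x => ?_, fun i => key _ (cK i) (c i) rfl rfl⟩
  show τ (φ (ι₀ (c i * x))) = τ (cK i) * τ (φ (ι₀ x))
  rw [map_mul, show ι₀ (c i) * ι₀ x = cK i • ι₀ x from rfl, map_smul, smul_eq_mul, map_mul]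

end Fermat.Agent.RT.Systems
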